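import Mathlib

/-!
# Idempotents in finite commutative algebras over the `p`-adic integers
-/

set_option autoImplicit false

noncomputable section

open IsLocalRing

namespace FLTAgent.Lowering

/-- A power of an element of a finite monoid is idempotent. -/
theorem exists_pow_idempotent {M : Type*} [Monoid M] [Finite M] (a : M) :
    ∃ m : ℕ, 0 < m ∧ a ^ m * a ^ m = a ^ m := by
  obtain ⟨i, j, hne, hij⟩ := Finite.exists_ne_map_eq_of_infinite fun n : ℕ => a ^ n
  wlog h : i < j generalizing i j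
  · exact this j i hne.symm hij.symm (by omega)
  obtain ⟨k, rfl⟩ : ∃ k, j = i + (k + 1) := ⟨j - i - 1, by omega⟩
  have hper : ∀ t r, i ≤ r → a ^ (r + t * (k + 1)) = a ^ r := by
    intro t r hr
    induction t with
    | zero => simp
    | succ t ih =>
      obtain ⟨u, rfl⟩ := Nat.exists_eq_add_of_le hr
      rw [show i + u + (t + 1) * (k + 1) = i + (k + 1) + (u + t * (k + 1)) by ring, pow_add, ← hij,
        ← pow_add, ← add_assoc, ih]
  refine ⟨(i + 1) * (k + 1), by positivity, ?_⟩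
  rw [← pow_add]
  exact hper (i + 1) _ (by nlinarith)

variable (p : ℕ) [Fact p.Prime] (B : Type*)

theorem exists_natCast_combination [AddCommGroup B] [Module ℤ_[p] B] [Module.Finite ℤ_[p] B] :
    ∃ (d : ℕ) (g : Fin d → B), ∀ b : B, ∃ (n : Fin d → Fin p) (c : B),
      b = ∑ i, ((n i : ℕ) : ℤ_[p]) • g i + (p : ℤ_[p]) • c := by
  obtain ⟨d, π, hπ⟩ := Module.Finite.exists_fin' ℤ_[p] B
  refine ⟨d, fun i => π (Pi.single i 1), fun b => ?_⟩
  obtain ⟨v, rfl⟩ := hπ b
  have h : ∀ i, ∃ (n : Fin p) (c : ℤ_[p]), v i = ((n : ℕ) : ℤ_[p]) + p * c := fun i => by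
    obtain ⟨hlt, hmem⟩ := PadicInt.zmodRepr_spec (v i)
    rw [PadicInt.maximalIdeal_eq_span_p, Ideal.mem_span_singleton] at hmem
    obtain ⟨c, hc⟩ := hmem
    exact ⟨⟨_, hlt⟩, c, sub_eq_iff_eq_add'.mp hc⟩
  choose n c hn using h
  refine ⟨n, π c, ?_⟩
  simp only [← map_smul, ← map_sum, ← map_add]
  refine congrArg π (funext fun j => ?_)
  simp [hn j, Pi.single_apply, Finset.sum_apply]

theorem finite_quotient_span [CommRing B] [Algebra ℤ_[p] B] [Module.Finite ℤ_[p] B] :
    Finite (B ⧸ Ideal.span {(p : B)}) := by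
  obtain ⟨d, g, hg⟩ := exists_natCast_combination p B
  refine Finite.of_surjective
    (fun n : Fin d → Fin p => Ideal.Quotient.mk _ (∑ i, ((n i : ℕ) : ℤ_[p]) • g i)) fun x => ?_
  obtain ⟨b, rfl⟩ := Ideal.Quotient.mk_surjective x
  obtain ⟨n, c, rfl⟩ := hg b
  refine ⟨n, Eq.symm (Ideal.Quotient.eq.mpr (Ideal.mem_span_singleton.mpr ⟨c, ?_⟩))⟩
  simp [Algebra.smul_def]

/-- A finite module over the `p`-adic integers has limits of `p`-adic Cauchy sequences. -/
theorem exists_limit [AddCommGroup B] [Module ℤ_[p] B] [Module.Finite ℤ_[p] B] (f : ℕ → B)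
    (b : ℕ → B) (hf : ∀ n, f (n + 1) = f n + ((p : ℤ_[p]) ^ n) • b n) :
    ∃ L : B, ∀ n, ∃ c : B, L = f n + ((p : ℤ_[p]) ^ n) • c := by
  obtain ⟨d, π, hπ⟩ := Module.Finite.exists_fin' ℤ_[p] B
  choose v hv using fun n => hπ (b n)
  let s : ℕ → Fin d → ℤ_[p] := fun n i => ∑ k ∈ Finset.range n, (p : ℤ_[p]) ^ k * v k i
  have hs : ∀ i {m n : ℕ}, m ≤ n → (p : ℤ_[p]) ^ m ∣ s n i - s m i := by
    intro i m n hmn
    simp only [s, Finset.sum_range_sub_sum_range hmn]
    exact Finset.dvd_sum fun k hk =>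
      dvd_mul_of_dvd_left (pow_dvd_pow _ (by simp only [Finset.mem_filter] at hk; omega)) _
  have hlim : ∀ i, ∃ L : ℤ_[p], ∀ n, (p : ℤ_[p]) ^ n ∣ L - s n i := fun i => by
    obtain ⟨L, hL⟩ := IsPrecomplete.prec (inferInstance : IsPrecomplete (maximalIdeal ℤ_[p]) ℤ_[p])
      (f := fun n => s n i) (fun {m n} hmn => by
        rw [SModEq.sub_mem, PadicInt.maximalIdeal_eq_span_p, smul_eq_mul, Ideal.mul_top,
          Ideal.span_singleton_pow, Ideal.mem_span_singleton, dvd_sub_comm]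
        exact hs i hmn)
    refine ⟨L, fun n => ?_⟩
    have := hL n
    rw [SModEq.sub_mem, PadicInt.maximalIdeal_eq_span_p, smul_eq_mul, Ideal.mul_top,
      Ideal.span_singleton_pow, Ideal.mem_span_singleton, dvd_sub_comm] at this
    exact this
  choose L hL using hlim
  have hf' : ∀ n, f n = f 0 + π (s n) := by
    intro n
    induction n with
    | zero => simp [s, show (fun _ : Fin d => (0 : ℤ_[p])) = 0 from rfl]
    | succ n ih =>
      rw [hf, ih, ← hv n, add_assoc, ← map_smul, ← map_add]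
      refine congrArg (fun w => f 0 + π w) (funext fun i => ?_)
      simp [s, Finset.sum_range_succ]
  refine ⟨f 0 + π L, fun n => ?_⟩
  choose c hc using fun i => hL i n
  refine ⟨π c, ?_⟩
  rw [hf' n, add_assoc, ← map_smul, ← map_add]
  refine congrArg (fun w => f 0 + π w) (funext fun i => ?_)
  simp only [Pi.add_apply, Pi.smul_apply, smul_eq_mul]
  linear_combination hc i

theorem eq_zero_of_forall_dvd [CommRing B] [Algebra ℤ_[p] B] [Module.Finite ℤ_[p] B] {x : B}
    (h : ∀ n : ℕ, (p : B) ^ n ∣ x) : x = 0 := by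
  refine IsHausdorff.haus (inferInstance : IsHausdorff (maximalIdeal ℤ_[p]) B) x fun n => ?_
  obtain ⟨c, rfl⟩ := h n
  rw [SModEq.zero, show (p : B) ^ n * c = ((p : ℤ_[p]) ^ n) • c by simp [Algebra.smul_def]]
  exact Submodule.smul_mem_smul (Ideal.pow_mem_pow
    (by rw [PadicInt.maximalIdeal_eq_span_p]; exact Ideal.mem_span_singleton_self _) n) Submodule.mem_top

/-- Every element has an idempotent congruent to one of its powers modulo `p`. -/
theorem exists_idempotent [CommRing B] [Algebra ℤ_[p] B] [Module.Finite ℤ_[p] B] (s : B) :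
    ∃ (e : B) (m : ℕ) (b : B), 0 < m ∧ IsIdempotentElem e ∧ e = s ^ m + (p : B) * b := by
  haveI := finite_quotient_span p B
  obtain ⟨m, hm, hidem⟩ := exists_pow_idempotent (Ideal.Quotient.mk (Ideal.span {(p : B)}) s)
  let h : B → B := fun x => 3 * x ^ 2 - 2 * x ^ 3
  have hx : ∀ n, (p : B) ^ (n + 1) ∣ (h^[n] (s ^ m)) ^ 2 - h^[n] (s ^ m) := by
    intro n
    induction n with
    | zero =>
      rw [pow_one, ← Ideal.mem_span_singleton, ← Ideal.Quotient.eq, Function.iterate_zero_apply,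
        map_pow, map_pow, sq]
      exact hidem
    | succ n ih =>
      obtain ⟨c, hc⟩ := ih
      rw [Function.iterate_succ_apply']
      set x := h^[n] (s ^ m)
      refine ⟨(p : B) ^ n * c ^ 2 * (4 * x ^ 2 - 4 * x - 3), ?_⟩
      have : h x ^ 2 - h x = (x ^ 2 - x) ^ 2 * (4 * x ^ 2 - 4 * x - 3) := by simp only [h]; ring
      rw [this, hc]
      ring
  choose c hc using hx
  obtain ⟨e, he⟩ := exists_limit p B (fun n => h^[n] (s ^ m))
    (fun n => (p : B) * (-(2 * h^[n] (s ^ m) - 1) * c n)) (fun n => by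
      show h^[n + 1] (s ^ m) = _
      rw [Function.iterate_succ_apply', Algebra.smul_def, map_pow, map_natCast]
      simp only [h]
      linear_combination (-(2 * h^[n] (s ^ m) - 1)) * hc n)
  have hb : ∀ n, ∃ b, h^[n] (s ^ m) = s ^ m + (p : B) * b := by
    intro n
    induction n with
    | zero => exact ⟨0, by simp⟩
    | succ n ih =>
      obtain ⟨b, hb⟩ := ih
      refine ⟨b + (p : B) ^ n * (-(2 * h^[n] (s ^ m) - 1) * c n), ?_⟩
      rw [Function.iterate_succ_apply']
      simp only [h]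
      linear_combination hb + (-(2 * h^[n] (s ^ m) - 1)) * hc n
  obtain ⟨d, hd⟩ := he 1
  obtain ⟨b, hb1⟩ := hb 1
  refine ⟨e, m, b + d, hm, ?_, ?_⟩
  · refine sub_eq_zero.mp (eq_zero_of_forall_dvd p B fun n => ?_)
    obtain ⟨d', hd'⟩ := he n
    rw [Algebra.smul_def, map_pow, map_natCast] at hd'
    refine ⟨(p : B) * c n + d' * (2 * h^[n] (s ^ m) + (p : B) ^ n * d' - 1), ?_⟩
    rw [hd']
    linear_combination hc n
  · rw [hd, hb1, pow_one, Algebra.smul_def, map_natCast]
    ring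

end FLTAgent.Lowering
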