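import Fermat.Agent.Lowering.P4.Class
import Fermat.Agent.Lowering.P4.Idempotent

/-!
# Localisation of the classes at a residual system

Finiteness, surjectivity of localisation, and exactness in the coefficients when one operator
separates the system from the invariants.
-/

set_option autoImplicit false

noncomputable section

set_option synthInstance.maxHeartbeats 400000

open scoped MatrixGroups
open CongruenceSubgroup IsLocalRing

namespace FLTAgent.Lowering.Cocycle

local notation "SL2Z" => Matrix.SpecialLinearGroup (Fin 2) ℤ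

instance : Group.FG SL2Z := ⟨⟨{ModularGroup.S, ModularGroup.T}, by
  simp [SpecialLinearGroup.SL2Z_generators]⟩⟩

/-- Cocycles of a finitely generated group are determined by finitely many values. -/
theorem finite_Z1 {G : Type*} [Group G] [Group.FG G] {A : Type*} [CommRing A] [IsNoetherianRing A]
    (ψ : G →* A) (N : Type*) [AddCommGroup N] [Module A N] [Module.Finite A N] :
    Module.Finite A (Z1 ψ N) := by
  obtain ⟨s, hs⟩ := Group.FG.out (G := G)
  refine Module.Finite.of_injective
    ({ toFun := fun c (g : s) => c.1 g.1, map_add' := fun _ _ => rfl, map_smul' := fun _ _ => rfl } :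
      Z1 ψ N →ₗ[A] (s → N)) fun c d h => ?_
  refine Subtype.ext (funext fun g => ?_)
  have hg : g ∈ Subgroup.closure (s : Set G) := hs ▸ Subgroup.mem_top g
  induction hg using Subgroup.closure_induction with
  | mem x hx => exact congrFun h ⟨x, hx⟩
  | one => rw [Z1_one, Z1_one]
  | mul a b _ _ ha hb => rw [Z1_mul, Z1_mul, ha, hb]
  | inv a _ ha => rw [Z1_inv, Z1_inv, ha]

variable {M : ℕ} [NeZero M] {O : Type} [CommRing O] {A : Type} [CommRing A] [Algebra O A]
  (χ : ZMod M →* A) (bad : Finset ℕ) (N : Type) [AddCommGroup N] [Module A N]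

variable (O) in
theorem finite_Coh [IsNoetherianRing A] [Module.Finite A N] :
    Module.Finite A (Coh O χ bad N) := by
  haveI : Group.FG (Gamma0 M) :=
    Subgroup.fg_of_index_ne_zero (Gamma0 M)
  haveI := finite_Z1 (psi χ) N
  exact Module.Finite.equiv (toCoh O χ bad N)

/-! ### The localised module -/

variable {bad} {k : Type} [Field k] (θ : Poly O bad →+* k)

/-- The elements invertible at the residual system. -/
def denom : Submonoid (Poly O bad) where
  carrier := {r | θ r ≠ 0}
  one_mem' := by simp
  mul_mem' := fun {a b} ha hb => by simp [Set.mem_ofPred_eq] at ha hb ⊢; exact ⟨ha, hb⟩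

theorem mem_denom {r : Poly O bad} : r ∈ denom θ ↔ θ r ≠ 0 := Iff.rfl

/-- The localised classes. -/
abbrev Loc : Type := LocalizedModule (denom θ) (Coh O χ bad N)

/-- The canonical map. -/
abbrev toLoc : Coh O χ bad N →ₗ[Poly O bad] Loc χ N θ := LocalizedModule.mkLinearMap _ _

/-- Multiplication by a coefficient, linear over the polynomial ring. -/
def coefEnd : A →+* Module.End (Poly O bad) (Coh O χ bad N) :=
  Module.toModuleEnd (Poly O bad) (S := A) (Coh O χ bad N)

theorem coefEnd_apply (a : A) (x : Coh O χ bad N) : coefEnd χ N a x = a • x := rfl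

/-- Functoriality of localisation, as a ring homomorphism. -/
def locEnd {R : Type} [CommRing R] (S : Submonoid R) (V : Type) [AddCommGroup V] [Module R V] :
    Module.End R V →+* Module.End R (LocalizedModule S V) where
  toFun f := IsLocalizedModule.map S (LocalizedModule.mkLinearMap S V)
    (LocalizedModule.mkLinearMap S V) f
  map_one' := IsLocalizedModule.map_id S _
  map_mul' f g := LinearMap.ext fun x => by
    induction x using LocalizedModule.induction_on with
    | h m s =>
      rw [Module.End.mul_apply, IsLocalizedModule.map_LocalizedModules,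
        IsLocalizedModule.map_LocalizedModules, IsLocalizedModule.map_LocalizedModules]
      rfl
  map_zero' := map_zero _
  map_add' := map_add _

theorem locEnd_mk {R : Type} [CommRing R] (S : Submonoid R) (V : Type) [AddCommGroup V] [Module R V]
    (f : Module.End R V) (m : V) (s : S) :
    locEnd S V f (LocalizedModule.mk m s) = LocalizedModule.mk (f m) s :=
  IsLocalizedModule.map_LocalizedModules S f m s

instance : Module A (Loc χ N θ) :=
  Module.compHom _ ((locEnd (denom θ) (Coh O χ bad N)).comp (coefEnd χ N))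

theorem smul_mk (a : A) (m : Coh O χ bad N) (s : denom θ) :
    a • (LocalizedModule.mk m s : Loc χ N θ) = LocalizedModule.mk (a • m) s :=
  locEnd_mk (denom θ) _ (coefEnd χ N a) m s

instance : SMulCommClass (Poly O bad) A (Loc χ N θ) where
  smul_comm r a x := (((locEnd (denom θ) (Coh O χ bad N)) (coefEnd χ N a)).map_smul r x).symm

instance : SMulCommClass A (Poly O bad) (Loc χ N θ) := SMulCommClass.symm _ _ _

theorem C_smul (r : O) (x : Loc χ N θ) :
    (MvPolynomial.C r : Poly O bad) • x = algebraMap O A r • x := by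
  induction x using LocalizedModule.induction_on with
  | h m s =>
    have h := smul_mk χ N θ (algebraMap O A r) m s
    refine Eq.trans ?_ h.symm
    rw [LocalizedModule.smul'_mk, poly_C_smul]

variable {N} {N' : Type} [AddCommGroup N'] [Module A N']

/-- Change of coefficients on the localised classes. -/
def mapLoc (f : N →ₗ[A] N') : Loc χ N θ →ₗ[Poly O bad] Loc χ N' θ :=
  IsLocalizedModule.map (denom θ) (toLoc χ N θ) (toLoc χ N' θ) (mapCoh χ bad f)

theorem mapLoc_mk (f : N →ₗ[A] N') (m : Coh O χ bad N) (s : denom θ) :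
    mapLoc χ θ f (LocalizedModule.mk m s) = LocalizedModule.mk (mapCoh χ bad f m) s :=
  IsLocalizedModule.map_LocalizedModules _ _ m s

theorem mapLoc_smul (f : N →ₗ[A] N') (a : A) (x : Loc χ N θ) :
    mapLoc χ θ f (a • x) = a • mapLoc χ θ f x := by
  induction x using LocalizedModule.induction_on with
  | h m s => rw [smul_mk, mapLoc_mk, mapLoc_mk, smul_mk, mapCoh_smul]

theorem mapLoc_comp {N'' : Type} [AddCommGroup N''] [Module A N''] (g : N' →ₗ[A] N'')
    (f : N →ₗ[A] N') (x : Loc χ N θ) :
    mapLoc χ θ g (mapLoc χ θ f x) = mapLoc χ θ (g ∘ₗ f) x := by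
  induction x using LocalizedModule.induction_on with
  | h m s =>
    rw [mapLoc_mk, mapLoc_mk, mapLoc_mk]
    exact congrArg (fun y => LocalizedModule.mk y s) (mapH1_comp g f ((toCoh O χ bad N).symm m))

theorem mapLoc_add (f g : N →ₗ[A] N') (x : Loc χ N θ) :
    mapLoc χ θ (f + g) x = mapLoc χ θ f x + mapLoc χ θ g x := by
  induction x using LocalizedModule.induction_on with
  | h m s =>
    rw [mapLoc_mk, mapLoc_mk, mapLoc_mk, show mapCoh χ bad (f + g) m =
      mapCoh χ bad f m + mapCoh χ bad g m from mapH1_add f g ((toCoh O χ bad N).symm m)]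
    rw [LocalizedModule.mk_add_mk, LocalizedModule.mk_eq]
    exact ⟨1, by simp only [one_smul, smul_add, Submonoid.smul_def, Submonoid.coe_mul, mul_smul]⟩

theorem mapLoc_lsmul (a : A) (f : N →ₗ[A] N') (x : Loc χ N θ) :
    mapLoc χ θ (a • f) x = a • mapLoc χ θ f x := by
  induction x using LocalizedModule.induction_on with
  | h m s =>
    rw [mapLoc_mk, mapLoc_mk, smul_mk]
    exact congrArg (fun y => LocalizedModule.mk y s) (mapH1_smul a f ((toCoh O χ bad N).symm m))

theorem mapLoc_id (x : Loc χ N θ) : mapLoc χ θ LinearMap.id x = x := by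
  induction x using LocalizedModule.induction_on with
  | h m s =>
    rw [mapLoc_mk]
    exact congrArg (fun y => LocalizedModule.mk y s) (mapH1_id ((toCoh O χ bad N).symm m))

theorem mapLoc_surjective (hχ : χ (-1) = 1) (h6 : IsUnit (6 : A)) (f : N →ₗ[A] N')
    (hf : Function.Surjective f) : Function.Surjective (mapLoc χ θ f) := by
  refine IsLocalizedModule.map_surjective _ _ _ _ fun y => ?_
  have hneg : (-1 : SL2Z) ∈ Gamma0 M := by simp [Gamma0_mem]
  obtain ⟨x, hx⟩ := mapH1_surjective hneg (psi_neg_one χ hχ hneg) h6 f hf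
    ((toCoh O χ bad N').symm y)
  exact ⟨toCoh O χ bad N x, hx⟩

/-- A prime whose operator separates the system from the invariants. -/
def Separating (l : GoodPrime bad) : Prop :=
  χ (l.1 : ZMod M) = 1 ∧ ¬ l.1 ∣ M ∧ θ (MvPolynomial.X l) ≠ (l.1 : k) + 1

theorem card_idx {l : ℕ} [Fact l.Prime] (h : ¬ l ∣ M) :
    Fintype.card (PeriodHecke.HeckeIdx M l) = l + 1 := by
  let e : PeriodHecke.HeckeIdx M l ≃ Option (ZMod l) :=
    ⟨fun x => x.1, fun x => ⟨x, fun _ => h⟩, fun x => rfl, fun x => rfl⟩
  rw [Fintype.card_congr e, Fintype.card_option, ZMod.card]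

theorem mapLoc_injective {l : GoodPrime bad} (hl : Separating χ θ l) (f : N →ₗ[A] N')
    (hf : Function.Injective f) : Function.Injective (mapLoc χ θ f) := by
  rw [← LinearMap.ker_eq_bot, LinearMap.ker_eq_bot']
  intro x hx
  induction x using LocalizedModule.induction_on with
  | h m s =>
    rw [mapLoc_mk, ← LocalizedModule.zero_mk 1, LocalizedModule.mk_eq] at hx
    obtain ⟨u, hu⟩ := hx
    simp only [one_smul, smul_zero, Submonoid.smul_def, ← map_smul] at hu
    obtain ⟨y, hy⟩ := (toCoh O χ bad N).surjective ((u : Poly O bad) • m)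
    rw [← hy, mapCoh_apply] at hu
    have h := heckeH1_eq_of_mapH1_eq_zero hf (stdWeight (p := l.1) χ)
      ((toCoh O χ bad N').injective (hu.trans (map_zero _).symm))
    have hw : ∑ i, (stdWeight (p := l.1) χ).w i = ((l.1 + 1 : ℕ) : A) := by
      simp only [stdWeight_w, hl.1, ite_self, Finset.sum_const, Finset.card_univ, nsmul_eq_mul,
        mul_one]
      rw [card_idx hl.2.1]
    rw [hw] at h
    set e : Poly O bad := MvPolynomial.X l - ((l.1 + 1 : ℕ) : Poly O bad)
    have he : e ∈ denom θ := by
      simp only [mem_denom, e, map_sub, map_natCast, sub_ne_zero]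
      push_cast
      exact hl.2.2
    rw [← LocalizedModule.zero_mk 1, LocalizedModule.mk_eq]
    refine ⟨⟨e, he⟩ * u, ?_⟩
    simp only [one_smul, smul_zero, mul_smul, Submonoid.smul_def]
    rw [← hy, sub_smul, poly_X_smul, Nat.cast_smul_eq_nsmul, opAt]
    rw [h, Nat.cast_smul_eq_nsmul, map_nsmul, sub_self]

theorem mapLoc_exact (f : N →ₗ[A] N') (hf : Function.Surjective f) {x : Loc χ N θ}
    (hx : mapLoc χ θ f x = 0) :
    ∃ y : Loc χ (LinearMap.ker f) θ, mapLoc χ θ (LinearMap.ker f).subtype y = x := by
  induction x using LocalizedModule.induction_on with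
  | h m s =>
    rw [mapLoc_mk, ← LocalizedModule.zero_mk 1, LocalizedModule.mk_eq] at hx
    obtain ⟨u, hu⟩ := hx
    simp only [one_smul, smul_zero, Submonoid.smul_def, ← map_smul] at hu
    obtain ⟨y, hy⟩ := (toCoh O χ bad N).surjective ((u : Poly O bad) • m)
    rw [← hy, mapCoh_apply] at hu
    obtain ⟨z, hz⟩ := exists_of_mapH1_eq_zero hf
      ((toCoh O χ bad N').injective (hu.trans (map_zero _).symm))
    refine ⟨LocalizedModule.mk (toCoh O χ bad (LinearMap.ker f) z) (u * s), ?_⟩
    rw [mapLoc_mk, mapCoh_apply, hz, hy]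
    exact LocalizedModule.mk_cancel_common_left u s m

/-! ### Localisation is surjective -/

variable (p : ℕ) [Fact p.Prime] [Algebra ℤ_[p] O] [Module.Finite ℤ_[p] O] [Module.Finite O A]

include p in
variable (N) in
theorem toLoc_surjective [IsNoetherianRing A] [Module.Finite A N] (hp : (p : k) = 0) :
    Function.Surjective (toLoc χ N θ) := by
  classical
  letI : Algebra ℤ_[p] A := Algebra.compHom A (algebraMap ℤ_[p] O)
  haveI : IsScalarTower ℤ_[p] O A := IsScalarTower.of_algebraMap_eq fun x => rfl
  haveI : Module.Finite ℤ_[p] A := Module.Finite.trans O A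
  haveI := finite_Coh O χ bad N
  letI : Module ℤ_[p] (Coh O χ bad N) := Module.compHom _ (algebraMap ℤ_[p] A)
  haveI : IsScalarTower ℤ_[p] A (Coh O χ bad N) := ⟨fun z a x => by
    rw [Algebra.smul_def, mul_smul]; rfl⟩
  haveI : Module.Finite ℤ_[p] (Coh O χ bad N) := Module.Finite.trans A _
  intro x
  induction x using LocalizedModule.induction_on with
  | h v s =>
  let op : Poly O bad →+* Module.End ℤ_[p] (Coh O χ bad N) :=
    { toFun := fun r => { toFun := fun m => r • m, map_add' := smul_add r,
                          map_smul' := fun z m => (smul_comm r (algebraMap ℤ_[p] A z) m) }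
      map_one' := LinearMap.ext fun m => one_smul _ m
      map_mul' := fun a b => LinearMap.ext fun m => mul_smul a b m
      map_zero' := LinearMap.ext fun m => zero_smul _ m
      map_add' := fun a b => LinearMap.ext fun m => add_smul a b m }
  let φ : Polynomial ℤ_[p] →ₐ[ℤ_[p]] Module.End ℤ_[p] (Coh O χ bad N) :=
    Polynomial.aeval (op s)
  have hlift : ∀ P : Polynomial ℤ_[p],
      φ P = op (Polynomial.eval₂ (MvPolynomial.C.comp (algebraMap ℤ_[p] O)) (s : Poly O bad) P) := by
    intro P
    induction P using Polynomial.induction_on' with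
    | add a b ha hb => rw [map_add, Polynomial.eval₂_add, map_add, ha, hb]
    | monomial n z =>
      rw [Polynomial.eval₂_monomial, map_mul, map_pow, Polynomial.aeval_monomial]
      refine congrArg (· * op s ^ n) (LinearMap.ext fun m => ?_)
      show z • m = (MvPolynomial.C (algebraMap ℤ_[p] O z) : Poly O bad) • m
      rw [poly_C_smul]
      rfl
  haveI : Module.Finite ℤ_[p] (Polynomial ℤ_[p] ⧸ RingHom.ker φ) :=
    Module.Finite.of_injective (Ideal.kerLiftAlg φ).toLinearMap (Ideal.kerLiftAlg_injective φ)
  obtain ⟨e, m, b, hm, he, heq⟩ := exists_idempotent p (Polynomial ℤ_[p] ⧸ RingHom.ker φ)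
    (Ideal.Quotient.mk _ Polynomial.X)
  obtain ⟨bP, rfl⟩ := Ideal.Quotient.mk_surjective b
  set r : Poly O bad := (s : Poly O bad) ^ m +
    (p : Poly O bad) * Polynomial.eval₂ (MvPolynomial.C.comp (algebraMap ℤ_[p] O)) (s : Poly O bad) bP
  have hr : op r = φ (Polynomial.X ^ m + (p : Polynomial ℤ_[p]) * bP) := by
    rw [hlift]
    simp [r, Polynomial.eval₂_add, Polynomial.eval₂_mul, Polynomial.eval₂_pow]
  have hrr : ∀ w : Coh O χ bad N, r • r • w = r • w := by
    intro w
    have h : φ ((Polynomial.X ^ m + (p : Polynomial ℤ_[p]) * bP) *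
        (Polynomial.X ^ m + (p : Polynomial ℤ_[p]) * bP)) =
        φ (Polynomial.X ^ m + (p : Polynomial ℤ_[p]) * bP) := by
      refine sub_eq_zero.mp ?_
      rw [← map_sub]
      refine RingHom.mem_ker.mp (Ideal.Quotient.eq.mp ?_)
      rw [map_mul, map_add, map_pow, map_mul, map_natCast, ← heq]
      exact he
    rw [map_mul, ← hr, ← map_mul] at h
    have := LinearMap.congr_fun h w
    rw [map_mul] at this
    exact this
  have hrd : r ∈ denom θ := by
    rw [mem_denom, map_add, map_pow, map_mul, map_natCast, hp, zero_mul, add_zero]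
    exact pow_ne_zero _ s.2
  -- the image of `r` is divisible by `s ^ m`
  set W : Submodule ℤ_[p] (Coh O χ bad N) := LinearMap.range (op r)
  have hdiv : W ≤ W.map (op ((s : Poly O bad) ^ m)) := by
    refine Submodule.le_of_le_smul_of_le_jacobson_bot (IsNoetherian.noetherian W)
      (maximalIdeal_le_jacobson _) ?_
    rintro _ ⟨w, rfl⟩
    refine Submodule.mem_sup.mpr ⟨op ((s : Poly O bad) ^ m) (op r w), ⟨_, ⟨w, rfl⟩, rfl⟩,
      (p : ℤ_[p]) • op r (Polynomial.eval₂ (MvPolynomial.C.comp (algebraMap ℤ_[p] O))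
        (s : Poly O bad) bP • w), Submodule.smul_mem_smul ?_ ⟨_, rfl⟩, ?_⟩
    · rw [PadicInt.maximalIdeal_eq_span_p]; exact Ideal.mem_span_singleton_self _
    · show ((s : Poly O bad) ^ m) • r • w + algebraMap ℤ_[p] A (p : ℤ_[p]) • (r • _) = r • w
      conv_rhs => rw [← hrr]
      rw [map_natCast, Nat.cast_smul_eq_nsmul, ← Nat.cast_smul_eq_nsmul (Poly O bad)]
      rw [smul_comm r (Polynomial.eval₂ _ _ bP) w, ← mul_smul (p : Poly O bad), ← add_smul]
  obtain ⟨w, -, hw⟩ := hdiv ⟨v, rfl⟩
  refine ⟨((s : Poly O bad) ^ (m - 1)) • w, ?_⟩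
  rw [LocalizedModule.mkLinearMap_apply, LocalizedModule.mk_eq]
  refine ⟨⟨r, hrd⟩, ?_⟩
  simp only [Submonoid.smul_def, Submonoid.coe_one, one_smul]
  rw [← mul_smul (s : Poly O bad), ← pow_succ', Nat.sub_add_cancel hm]
  show r • ((s : Poly O bad) ^ m • w) = r • v
  rw [show (s : Poly O bad) ^ m • w = r • v from hw, hrr]

end FLTAgent.Lowering.Cocycle
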