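import Fermat.Agent.DeligneSerre.Interface
import Fermat.Agent.LevelRaise.Classify
import Fermat.Agent.ES.Primitive

/-!
# Hecke operators at primes congruent to one on parabolic elements

For a prime `l ≡ 1` modulo `M`, the operator `T_l` on homomorphisms of `Γ₁(M)` multiplies the value
at a parabolic or elliptic element by `l + 1`, up to a factor `12 M`.
-/

set_option autoImplicit false

noncomputable section

open CongruenceSubgroup
open scoped MatrixGroups

namespace FLTAgent.Lowering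

open FLTAgent.PeriodHecke FLTAgent.DeligneSerre

local notation "M2" => Matrix (Fin 2) (Fin 2) ℤ
local notation "SL2Z" => Matrix.SpecialLinearGroup (Fin 2) ℤ

variable {M l : ℕ} [Fact l.Prime]

theorem conj_cast (g : SL2Z) {A : M2} (hA : A.map (Int.cast : ℤ → ZMod M) = 1) :
    ((g : M2) * A * ((g⁻¹ : SL2Z) : M2)).map (Int.cast : ℤ → ZMod M) = 1 := by
  rw [Matrix.map_mul_intCast, Matrix.map_mul_intCast, hA, mul_one, ← Matrix.map_mul_intCast,
    ← Matrix.SpecialLinearGroup.coe_mul, mul_inv_cancel, Matrix.SpecialLinearGroup.coe_one]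
  exact Matrix.map_one _ Int.cast_zero Int.cast_one

theorem upper_cast {a b d : ℤ} (ha : (a : ZMod M) = 1) (hb : (b : ZMod M) = 0)
    (hd : (d : ZMod M) = 1) : (!![a, b; 0, d] : M2).map (Int.cast : ℤ → ZMod M) = 1 := by
  ext i j
  fin_cases i <;> fin_cases j <;> simp [ha, hb, hd]

/-- An integral matrix of determinant `l` congruent to the identity lies in the double coset of
`T_l`. -/
theorem exists_heckeRep1 [NeZero M] (hl : ¬ l ∣ M) (h1 : (l : ZMod M) = 1) {B : M2}
    (hdet : B.det = (l : ℤ)) (hB : B.map (Int.cast : ℤ → ZMod M) = 1) :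
    ∃ (i : HeckeIdx M l) (δ : Gamma1 M), B = mat δ * heckeRep1 hl i := by
  have h10 : (B 1 0 : ZMod M) = 0 := congrFun (congrFun hB 1) 0
  have h11 : (B 1 1 : ZMod M) = 1 := congrFun (congrFun hB 1) 1
  obtain ⟨i, δ₀, hδ₀⟩ := LevelRaise.exists_heckeRep M l B hdet
    ((ZMod.intCast_zmod_eq_zero_iff_dvd _ _).mp h10) fun h => absurd h hl
  set e : Gamma0 M := δ₀ * (corr1 hl i)⁻¹
  have he : B = mat e * heckeRep1 hl i := by
    rw [heckeRep1, ← mul_assoc, ← mat_mul, inv_mul_cancel_right, hδ₀]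
  have h := congrArg (fun Z : M2 => ((Z 1 1 : ℤ) : ZMod M)) he
  simp only [Matrix.mul_apply, Fin.sum_univ_two, Int.cast_add, Int.cast_mul, mat_low, zero_mul,
    zero_add, (heckeRep1_diag hl i).2, h11, h1, mul_one] at h
  have hmem : e ∈ Gamma1' M := by
    rw [Gamma1_mem']
    exact h.symm
  rw [Gamma1_to_Gamma0_mem] at hmem
  exact ⟨i, ⟨(e : SL2Z), (Gamma1_mem M _).mpr hmem⟩, he⟩

/-- The parabolic element `g U^M g⁻¹`. -/
def parConj (M : ℕ) (g : SL2Z) : Gamma1 M :=
  ⟨g * (ModularGroup.T ^ (M : ℤ)) * g⁻¹, by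
    have h : (((g * ModularGroup.T ^ (M : ℤ) * g⁻¹ : SL2Z) : M2)).map
        (Int.cast : ℤ → ZMod M) = 1 := by
      rw [Matrix.SpecialLinearGroup.coe_mul, Matrix.SpecialLinearGroup.coe_mul]
      exact conj_cast g (by
        rw [ModularGroup.coe_T_zpow]
        exact upper_cast Int.cast_one (by simp) Int.cast_one)
    rw [Gamma1_mem]
    exact ⟨congrFun (congrFun h 0) 0, congrFun (congrFun h 1) 1, congrFun (congrFun h 1) 0⟩⟩

theorem coe_parConj_zpow (g : SL2Z) (k : ℤ) :
    mat (parConj M g ^ k) = (g : M2) * !![1, (M : ℤ) * k; 0, 1] * ((g⁻¹ : SL2Z) : M2) := by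
  have h : ((parConj M g ^ k : Gamma1 M) : SL2Z) = g * ModularGroup.T ^ ((M : ℤ) * k) * g⁻¹ := by
    rw [SubgroupClass.coe_zpow]
    show (g * ModularGroup.T ^ (M : ℤ) * g⁻¹) ^ k = _
    rw [conj_zpow, zpow_mul]
  rw [mat, h, Matrix.SpecialLinearGroup.coe_mul, Matrix.SpecialLinearGroup.coe_mul,
    ModularGroup.coe_T_zpow]

/-- The representatives of `T_l` adapted to a cusp. -/
def cuspRep (M : ℕ) {l : ℕ} (g : SL2Z) : Option (ZMod l) → M2
  | none => (g : M2) * !![(l : ℤ), 0; 0, 1] * ((g⁻¹ : SL2Z) : M2)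
  | some j => (g : M2) * !![1, (M : ℤ) * (j.val : ℤ); 0, (l : ℤ)] * ((g⁻¹ : SL2Z) : M2)

theorem cuspRep_inj [NeZero M] (hl : ¬ l ∣ M) (g : SL2Z) (δ : SL2Z) (x y : Option (ZMod l))
    (h : (δ : M2) * cuspRep M g x = cuspRep M g y) : x = y := by
  set δ' : M2 := ((g⁻¹ : SL2Z) : M2) * (δ : M2) * (g : M2) with hδ'
  have hdet : δ'.det = 1 := by simp [hδ', Matrix.det_mul, Matrix.det_adjugate]
  rw [Matrix.det_fin_two] at hdet
  have key : ∀ X Y : M2, (δ : M2) * ((g : M2) * X * ((g⁻¹ : SL2Z) : M2)) =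
      (g : M2) * Y * ((g⁻¹ : SL2Z) : M2) → δ' * X = Y := fun X Y e => by
    have e' := congrArg (fun Z => ((g⁻¹ : SL2Z) : M2) * Z * (g : M2)) e
    simp only [← mul_assoc] at e'
    simp only [mul_assoc _ ((g⁻¹ : SL2Z) : M2) (g : M2), ← Matrix.SpecialLinearGroup.coe_mul,
      inv_mul_cancel, Matrix.SpecialLinearGroup.coe_one, mul_one, one_mul] at e'
    rw [hδ']
    simpa [mul_assoc, Matrix.SpecialLinearGroup.coe_mul] using e'
  have hl1 : (1 : ℤ) < l := by exact_mod_cast (Fact.out : l.Prime).one_lt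
  have hno : ¬ (l : ℤ) ∣ 1 := fun hd => by have := Int.le_of_dvd one_pos hd; omega
  rcases x with _ | j <;> rcases y with _ | j'
  · rfl
  · exfalso
    have e := key _ _ h
    have h00 := congrFun (congrFun e 0) 0
    simp [Matrix.mul_apply, Fin.sum_univ_two] at h00
    exact hno ⟨δ' 0 0, by linear_combination -h00⟩
  · exfalso
    have e := key _ _ h
    have h00 := congrFun (congrFun e 0) 0
    have h10 := congrFun (congrFun e 1) 0
    have h11 := congrFun (congrFun e 1) 1
    simp [Matrix.mul_apply, Fin.sum_univ_two, -ZMod.natCast_val] at h00 h10 h11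
    rw [h10] at h11 hdet
    simp at h11 hdet
    exact hno ⟨δ' 1 1, by linear_combination -h11⟩
  · have e := key _ _ h
    have h00 := congrFun (congrFun e 0) 0
    have h01 := congrFun (congrFun e 0) 1
    simp [Matrix.mul_apply, Fin.sum_univ_two, -ZMod.natCast_val] at h00 h01
    rw [h00, one_mul] at h01
    have := congrArg (fun z : ℤ => (z : ZMod l)) h01
    simp at this
    have hM : ((M : ℕ) : ZMod l) ≠ 0 := fun h0 => hl ((ZMod.natCast_eq_zero_iff _ _).mp h0)
    exact congrArg some (this.resolve_right hM)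

variable [NeZero M] {A : Type*} [AddCommGroup A]

theorem hecke_parConj (hl : ¬ l ∣ M) (h1 : (l : ZMod M) = 1) (g : SL2Z)
    (φ : Additive (Gamma1 M) →+ A) (h : ℤ) :
    (heckeFam1 hl).hecke φ (Additive.ofMul (parConj M g ^ h)) =
      ((l + 1) * h : ℤ) • φ (Additive.ofMul (parConj M g)) := by
  classical
  set F := heckeFam1 hl
  have hl0 : (l : ℤ) ≠ 0 := Int.natCast_ne_zero.mpr (Fact.out : l.Prime).ne_zero
  have hB : ∀ x : Option (ZMod l), (cuspRep M g x).det = (l : ℤ) ∧
      (cuspRep M g x).map (Int.cast : ℤ → ZMod M) = 1 := by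
    intro x
    rcases x with _ | j
    · exact ⟨by simp [cuspRep, Matrix.det_mul, Matrix.det_fin_two_of, Matrix.det_adjugate],
        conj_cast g (upper_cast (by simpa using h1) Int.cast_zero Int.cast_one)⟩
    · exact ⟨by simp [cuspRep, Matrix.det_mul, Matrix.det_fin_two_of, Matrix.det_adjugate],
        conj_cast g (upper_cast Int.cast_one (by simp) (by simpa using h1))⟩
  choose ι δ hδ using fun x => exists_heckeRep1 hl h1 (hB x).1 (hB x).2
  let e : Option (ZMod l) → HeckeIdx M l := ι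
  have hbij : Function.Bijective e := by
    rw [Fintype.bijective_iff_injective_and_card]
    refine ⟨fun x y hxy => ?_, ?_⟩
    · refine cuspRep_inj hl g (((δ y * (δ x)⁻¹ : Gamma1 M) : SL2Z)) x y ?_
      show mat (δ y * (δ x)⁻¹) * cuspRep M g x = _
      rw [hδ x, hδ y, show ι x = ι y from hxy, ← mul_assoc, ← mat_mul, inv_mul_cancel_right]
    · refine (Fintype.card_congr ⟨fun i => i.1, fun o => ⟨o, fun _ => hl⟩, fun i => rfl,
        fun o => rfl⟩).symm
  let w : Option (ZMod l) → Option (ZMod l) × ℤ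
    | none => (none, (l : ℤ) * h)
    | some j => (some ((((j.val : ℤ) + h : ℤ)) : ZMod l), ((j.val : ℤ) + h) / (l : ℤ))
  have hw : ∀ x, cuspRep M g x * mat (parConj M g ^ h) =
      mat (parConj M g ^ (w x).2) * cuspRep M g (w x).1 := by
    have hgg : ((g⁻¹ : SL2Z) : M2) * (g : M2) = 1 := by
      rw [← Matrix.SpecialLinearGroup.coe_mul, inv_mul_cancel, Matrix.SpecialLinearGroup.coe_one]
    have hfold : ∀ X Y : M2, (g : M2) * X * ((g⁻¹ : SL2Z) : M2) * ((g : M2) * Y * ((g⁻¹ : SL2Z) : M2)) =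
        (g : M2) * (X * Y) * ((g⁻¹ : SL2Z) : M2) := fun X Y => by
      rw [show (g : M2) * X * ((g⁻¹ : SL2Z) : M2) * ((g : M2) * Y * ((g⁻¹ : SL2Z) : M2)) =
        (g : M2) * (X * (((g⁻¹ : SL2Z) : M2) * (g : M2)) * Y) * ((g⁻¹ : SL2Z) : M2) by
        simp only [mul_assoc], hgg, mul_one]
    intro x
    rw [coe_parConj_zpow, coe_parConj_zpow]
    rcases x with _ | j
    · simp only [w, cuspRep, hfold]
      congr 2
      ext a b
      fin_cases a <;> fin_cases b <;> simp [Matrix.mul_apply, Fin.sum_univ_two] <;> ring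
    · simp only [w, cuspRep, hfold]
      congr 2
      ext a b
      fin_cases a <;> fin_cases b <;>
        simp [Matrix.mul_apply, Fin.sum_univ_two, -ZMod.natCast_val]
      · rw [show ((j.val : ZMod l) + (h : ZMod l)) = (((j.val : ℤ) + h : ℤ) : ZMod l) by
          push_cast; rfl, ZMod.val_intCast]
        have := Int.emod_add_ediv_mul ((j.val : ℤ) + h) (l : ℤ)
        linear_combination -(M : ℤ) * this
  have hkey : ∀ x, F.next (parConj M g ^ h) (e x) = e (w x).1 ∧
      F.coc (parConj M g ^ h) (e x) =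
        (δ x)⁻¹ * parConj M g ^ (w x).2 * δ (w x).1 := fun x => by
    refine F.eq_of_rel ?_
    show heckeRep1 hl (ι x) * _ = _ * heckeRep1 hl (ι (w x).1)
    rw [mat_mul, mat_mul, mul_assoc (mat (δ x)⁻¹ * _), ← hδ, mul_assoc (mat (δ x)⁻¹),
      ← hw, hδ x, mul_assoc (mat (δ x)) (heckeRep1 hl (ι x)), ← mul_assoc (mat (δ x)⁻¹), ← mat_mul,
      inv_mul_cancel, mat_one, one_mul]
  have hperm : Function.Bijective fun x => (w x).1 := by
    have hinj : Function.Injective fun x => (w x).1 := by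
      intro x y hxy
      refine hbij.1 ((F.perm (parConj M g ^ h)).injective ?_)
      rw [HeckeFamily.perm_apply, HeckeFamily.perm_apply, (hkey x).1, (hkey y).1]
      exact congrArg e hxy
    exact Finite.injective_iff_bijective.mp hinj
  rw [HeckeFamily.hecke_apply, ← hbij.sum_comp, Finset.sum_congr rfl fun x _ => by rw [(hkey x).2]]
  simp only [ofMul_mul, map_add, ofMul_inv, map_neg, ofMul_zpow, map_zsmul, Finset.sum_add_distrib,
    Finset.sum_neg_distrib]
  rw [hperm.sum_comp (fun x => φ (Additive.ofMul (δ x)))]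
  simp only [add_assoc, neg_add_cancel_comm_assoc, ← Finset.sum_smul]
  congr 1
  rw [Fintype.sum_option]
  have hsum : ∑ j : ZMod l, ((j.val : ℤ) + h) / (l : ℤ) = h := by
    refine mul_left_cancel₀ hl0 ?_
    rw [Finset.mul_sum]
    have h2 : ∀ j : ZMod l, (l : ℤ) * (((j.val : ℤ) + h) / l) =
        (j.val : ℤ) + h - (((((j.val : ℤ) + h : ℤ)) : ZMod l).val : ℤ) := fun j => by
      rw [ZMod.val_intCast]
      linear_combination Int.emod_add_ediv_mul ((j.val : ℤ) + h) (l : ℤ)
    have hp : ∑ j : ZMod l, (((((j.val : ℤ) + h : ℤ)) : ZMod l).val : ℤ) =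
        ∑ j : ZMod l, (j.val : ℤ) := by
      rw [← Equiv.sum_comp (Equiv.addRight ((h : ZMod l))) (fun j : ZMod l => (j.val : ℤ))]
      refine Finset.sum_congr rfl fun j _ => ?_
      simp
    rw [Finset.sum_congr rfl fun j _ => h2 j, Finset.sum_sub_distrib, hp, Finset.sum_add_distrib,
      Finset.sum_const, Finset.card_univ, ZMod.card, nsmul_eq_mul]
    ring
  show (l : ℤ) * h + ∑ j : ZMod l, ((j.val : ℤ) + h) / (l : ℤ) = _
  rw [hsum]
  ring

/-- `T_l` on values at parabolic and elliptic elements. -/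
theorem hecke_parabolic (hl : ¬ l ∣ M) (h1 : (l : ZMod M) = 1) (φ : Additive (Gamma1 M) →+ A)
    (γ : Gamma1 M) (hγ : (mat γ).trace ^ 2 ≤ 4) :
    (12 * M) • ((heckeFam1 hl).hecke φ (Additive.ofMul γ) - (l + 1) • φ (Additive.ofMul γ)) = 0 := by
  set ψ : Additive (Gamma1 M) →+ A := (heckeFam1 hl).hecke φ - (l + 1) • φ
  show (12 * M) • ψ (Additive.ofMul γ) = 0
  rcases lt_or_eq_of_le hγ with ht | ht
  · have h12 : γ ^ 12 = 1 := Subtype.ext (Subtype.ext (by
      rw [SubgroupClass.coe_pow, Matrix.SpecialLinearGroup.coe_pow]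
      simpa [mat] using pow_twelve_eq_one (mat γ) (mat_det γ) ht))
    rw [mul_nsmul, ← map_nsmul ψ 12, ← ofMul_pow, h12, ofMul_one, map_zero, nsmul_zero]
  · have ht2 : (((γ ^ 2 : Gamma1 M) : SL2Z) : M2).trace = 2 := by
      rw [SubgroupClass.coe_pow, Matrix.SpecialLinearGroup.coe_pow, sq]
      show (mat γ * mat γ).trace = 2
      rw [trace_sq _ (mat_det γ), ht]
      norm_num
    obtain ⟨g, hg⟩ := ES.exists_conj_upper (γ := ((γ ^ 2 : Gamma1 M) : SL2Z)) (by rw [ht2]; norm_num)
    set U := g⁻¹ * ((γ ^ 2 : Gamma1 M) : SL2Z) * g with hU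
    have htr : ((U : SL2Z) : M2).trace = 2 := by
      rw [hU, Matrix.SpecialLinearGroup.coe_mul, Matrix.SpecialLinearGroup.coe_mul,
        Matrix.trace_mul_comm, ← mul_assoc, ← Matrix.SpecialLinearGroup.coe_mul, mul_inv_cancel,
        Matrix.SpecialLinearGroup.coe_one, one_mul, ht2]
    have hd := U.2
    rw [Matrix.det_fin_two, hg, mul_zero, sub_zero] at hd
    rw [Matrix.trace_fin_two] at htr
    have h00 : (U : M2) 0 0 = 1 := by
      have : ((U : M2) 0 0 - 1) ^ 2 = 0 := by linear_combination -hd + (U : M2) 0 0 * htr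
      exact sub_eq_zero.mp (pow_eq_zero_iff two_ne_zero |>.mp this)
    set b := (U : M2) 0 1
    have hUT : U = ModularGroup.T ^ b := Subtype.ext (by
      rw [ModularGroup.coe_T_zpow]
      ext i j
      fin_cases i <;> fin_cases j
      · exact h00
      · rfl
      · exact hg
      · show (U : M2) 1 1 = 1
        linarith)
    have hpow : (γ ^ 2) ^ M = parConj M g ^ b := Subtype.ext (by
      rw [SubgroupClass.coe_pow, SubgroupClass.coe_zpow]
      show _ = (g * ModularGroup.T ^ (M : ℤ) * g⁻¹) ^ b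
      rw [show ((γ ^ 2 : Gamma1 M) : SL2Z) = g * U * g⁻¹ by rw [hU]; group, conj_pow, conj_zpow,
        hUT, ← zpow_natCast, ← zpow_mul, ← zpow_mul, mul_comm])
    have hzero : ψ (Additive.ofMul ((γ ^ 2) ^ M)) = 0 := by
      rw [hpow]
      show (heckeFam1 hl).hecke φ (Additive.ofMul (parConj M g ^ b)) -
        (l + 1) • φ (Additive.ofMul (parConj M g ^ b)) = 0
      rw [hecke_parConj hl h1, ofMul_zpow, map_zsmul, ← natCast_zsmul, smul_smul, sub_eq_zero]
      push_cast
      rfl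
    rw [← pow_mul, ofMul_pow, map_nsmul] at hzero
    rw [show 12 * M = 2 * M * 6 by ring, mul_nsmul, hzero, nsmul_zero]

end FLTAgent.Lowering
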