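import Fermat.Agent.Lowering.P4.TorsionRes
import Fermat.Agent.Lowering.P4.ParabolicHecke
import Fermat.Agent.Lowering.P4.Localisation

/-!
# Localised classes inside homomorphisms killing parabolic elements

At a residual system separated from the invariants by an operator `l ≡ 1` modulo `M`, the localised
classes embed equivariantly in the homomorphisms of `Γ₁(M)` killing parabolic and elliptic
elements, inside the eigenspace of the diamonds.
-/

set_option autoImplicit false

noncomputable section

set_option synthInstance.maxHeartbeats 400000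

open scoped MatrixGroups
open CongruenceSubgroup

namespace FLTAgent.Lowering.Cocycle

open FLTAgent.PeriodHecke FLTAgent.DeligneSerre

section Eigen

variable {N M : ℕ} {A : Type} [CommRing A] {V : Type} [AddCommGroup V] [Module A V]

/-- Multiplication of the values by a coefficient. -/
def scal {Γ : Subgroup SL(2, ℤ)} : A →+* AddMonoid.End (Hpar Γ V) where
  toFun a := mapHpar (DistribSMul.toAddMonoidHom V a)
  map_one' := AddMonoidHom.ext fun φ => Subtype.ext (AddMonoidHom.ext fun x => one_smul A _)
  map_mul' a b := AddMonoidHom.ext fun φ => Subtype.ext (AddMonoidHom.ext fun x => mul_smul a b _)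
  map_zero' := AddMonoidHom.ext fun φ => Subtype.ext (AddMonoidHom.ext fun x => zero_smul A _)
  map_add' a b := AddMonoidHom.ext fun φ => Subtype.ext (AddMonoidHom.ext fun x => add_smul a b _)

theorem coe_scal {Γ : Subgroup SL(2, ℤ)} (a : A) (φ : Hpar Γ V) (x : Additive Γ) :
    (scal a φ).1 x = a • φ.1 x := rfl

variable (χ : ZMod N →* A) (h : N ∣ M)

variable (V) in
/-- The eigenspace of the diamond operators. -/
def eigenPar : AddSubgroup (Hpar (Gamma1 M) V) where
  carrier := {φ | ∀ γ : Gamma0 M, diamond M γ φ = scal (psi χ (sub0 h γ)) φ}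
  zero_mem' := fun γ => by rw [map_zero, map_zero]
  add_mem' := fun {a b} ha hb γ => by rw [map_add, map_add, ha γ, hb γ]
  neg_mem' := fun {a} ha γ => by rw [map_neg, map_neg, ha γ]

theorem mem_eigenPar {φ : Hpar (Gamma1 M) V} :
    φ ∈ eigenPar V χ h ↔ ∀ γ : Gamma0 M, diamond M γ φ = scal (psi χ (sub0 h γ)) φ :=
  Iff.rfl

end Eigen

variable {O : Type} [CommRing O] {bad : Finset ℕ} {k : Type} [Field k] {N : ℕ}
  {A : Type} [CommRing A] [Algebra O A] (χ : ZMod N →* A) (θ : Poly O bad →+* k) (M : ℕ)

/-- A prime separating the system from the invariants, congruent to one modulo `M`. -/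
structure Anchor where
  l : GoodPrime bad
  dvd : N ∣ M
  not_dvd : ¬ l.1 ∣ M
  one_mod : (l.1 : ZMod M) = 1
  sep : θ (MvPolynomial.X l) ≠ (l.1 : k) + 1
  factor_ne : ((12 * M : ℕ) : k) ≠ 0

variable {χ θ M} (an : Anchor (N := N) θ M) {V : Type} [AddCommGroup V] [Module A V]

/-- The operator sending classes to parabolic ones. -/
def Anchor.op : Poly O bad :=
  ((12 * M : ℕ) : Poly O bad) * (MvPolynomial.X an.l - ((an.l.1 + 1 : ℕ) : Poly O bad))

theorem Anchor.op_mem : an.op ∈ denom θ := by
  rw [mem_denom, Anchor.op, map_mul, map_sub, map_natCast, map_natCast, Nat.cast_add, Nat.cast_one]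
  exact mul_ne_zero an.factor_ne (sub_ne_zero.mpr an.sep)

theorem Anchor.op_smul (y : H1 (psi χ) V) :
    an.op • toCoh O χ bad V y = (12 * M) •
      (toCoh O χ bad V (heckeH1 (N := V) (stdWeight (p := an.l.1) χ) y - (an.l.1 + 1) • y)) := by
  rw [Anchor.op, mul_smul, sub_smul, poly_X_smul, Nat.cast_smul_eq_nsmul (Poly O bad) (an.l.1 + 1),
    Nat.cast_smul_eq_nsmul (Poly O bad) (12 * M), map_sub, map_nsmul]
  rfl

/-- The homomorphism of a class after the operator. -/
def Anchor.parFun [NeZero M] (y : Coh O χ bad V) : Hpar (Gamma1 M) V :=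
  ⟨resGamma1 χ an.dvd ((toCoh O χ bad V).symm (an.op • y)), fun γ hγ => by
    obtain ⟨y, rfl⟩ := (toCoh O χ bad V).surjective y
    rw [an.op_smul, map_nsmul, LinearEquiv.symm_apply_apply, map_nsmul, map_sub, map_nsmul,
      resGamma1_heckeH1 χ an.dvd an.not_dvd]
    exact hecke_parabolic an.not_dvd an.one_mod _ γ hγ⟩

theorem Anchor.parFun_add [NeZero M] (y y' : Coh O χ bad V) :
    an.parFun (y + y') = an.parFun y + an.parFun y' :=
  Subtype.ext (by
    show resGamma1 χ an.dvd ((toCoh O χ bad V).symm (an.op • (y + y'))) =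
      resGamma1 χ an.dvd ((toCoh O χ bad V).symm (an.op • y)) +
        resGamma1 χ an.dvd ((toCoh O χ bad V).symm (an.op • y'))
    rw [smul_add, map_add, map_add])

theorem Anchor.parFun_smul [NeZero M] (a : A) (y : Coh O χ bad V) :
    an.parFun (a • y) = scal a (an.parFun y) :=
  Subtype.ext (AddMonoidHom.ext fun x => by
    show resGamma1 χ an.dvd ((toCoh O χ bad V).symm (an.op • a • y)) x =
      a • resGamma1 χ an.dvd ((toCoh O χ bad V).symm (an.op • y)) x
    rw [smul_comm an.op a y, map_smul, resGamma1_smul])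

theorem Anchor.parFun_X [NeZero M] (l : GoodPrime bad) (hl : ¬ l.1 ∣ M) (y : Coh O χ bad V) :
    an.parFun ((MvPolynomial.X l : Poly O bad) • y) = (heckeFam1 hl).heckePar (an.parFun y) :=
  Subtype.ext (by
    show resGamma1 χ an.dvd ((toCoh O χ bad V).symm (an.op • (MvPolynomial.X l : Poly O bad) • y)) =
      (heckeFam1 hl).hecke (resGamma1 χ an.dvd ((toCoh O χ bad V).symm (an.op • y)))
    rw [smul_comm an.op (MvPolynomial.X l : Poly O bad) y]
    obtain ⟨z, hz⟩ := (toCoh O χ bad V).surjective (an.op • y)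
    rw [← hz, poly_X_smul, LinearEquiv.symm_apply_apply, LinearEquiv.symm_apply_apply, opAt,
      resGamma1_heckeH1 χ an.dvd hl])

theorem Anchor.parFun_mem [NeZero M] (y : Coh O χ bad V) :
    an.parFun y ∈ eigenPar V χ an.dvd := fun γ =>
  Subtype.ext (AddMonoidHom.ext fun x => by
    obtain ⟨δ, rfl⟩ := Additive.ofMul.surjective x
    rw [diamond_apply, coe_scal]
    exact resGamma1_diamond χ an.dvd γ _ δ)

/-- Classes with vanishing image die in the localisation. -/
theorem Anchor.toLoc_eq_zero [NeZero M] [NeZero N] {y : Coh O χ bad V} (hy : an.parFun y = 0) :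
    toLoc χ V θ y = 0 := by
  obtain ⟨z, hz⟩ := (toCoh O χ bad V).surjective (an.op • y)
  have h0 : resGamma1 χ an.dvd z = 0 := by
    have h1 : resGamma1 χ an.dvd ((toCoh O χ bad V).symm (an.op • y)) = 0 := congrArg Subtype.val hy
    rwa [← hz, LinearEquiv.symm_apply_apply] at h1
  have h1 := heckeH1_eq_of_resHom_eq_zero χ an.dvd an.not_dvd an.one_mod h0
  set e : Poly O bad := MvPolynomial.X an.l - ((an.l.1 + 1 : ℕ) : Poly O bad)
  have he : e ∈ denom θ := by
    rw [mem_denom, map_sub, map_natCast, Nat.cast_add, Nat.cast_one]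
    exact sub_ne_zero.mpr an.sep
  have h2 : (⟨e, he⟩ * ⟨an.op, an.op_mem⟩ : denom θ) • y = 0 := by
    show (e * an.op) • y = 0
    rw [mul_smul, ← hz, sub_smul, poly_X_smul, Nat.cast_smul_eq_nsmul, opAt, h1, map_nsmul,
      sub_self]
  rw [LocalizedModule.mkLinearMap_apply, ← LocalizedModule.zero_mk 1, LocalizedModule.mk_eq]
  exact ⟨⟨e, he⟩ * ⟨an.op, an.op_mem⟩, by rw [one_smul, one_smul, smul_zero]; exact h2⟩

/-! ### A section of localisation -/

section Section

variable (χ θ V) [NeZero N] [IsNoetherianRing A] [Module.Finite A V]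

theorem exists_kill : ∃ s : denom θ, ∀ y : Coh O χ bad V, toLoc χ V θ y = 0 →
    (s : Poly O bad) • y = 0 := by
  classical
  haveI := finite_Coh O χ bad V
  haveI : IsNoetherian A (Coh O χ bad V) := isNoetherian_of_isNoetherianRing_of_finite _ _
  let K : Submodule A (Coh O χ bad V) :=
    { carrier := {y | toLoc χ V θ y = 0}
      add_mem' := fun {a b} ha hb => by
        show toLoc χ V θ (a + b) = 0
        rw [map_add, ha, hb, add_zero]
      zero_mem' := map_zero _
      smul_mem' := fun a y hy => by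
        show toLoc χ V θ (a • y) = 0
        rw [LocalizedModule.mkLinearMap_apply, ← smul_mk χ V θ a y 1,
          show LocalizedModule.mk y 1 = (0 : Loc χ V θ) from hy, smul_zero] }
  obtain ⟨t, ht⟩ := (IsNoetherian.noetherian K)
  have hu : ∀ y : t, ∃ u : denom θ, (u : Poly O bad) • (y : Coh O χ bad V) = 0 := fun y => by
    have hmem : toLoc χ V θ (y : Coh O χ bad V) = 0 :=
      (ht ▸ Submodule.subset_span y.2 : (y : Coh O χ bad V) ∈ K)
    rw [LocalizedModule.mkLinearMap_apply, ← LocalizedModule.zero_mk 1, LocalizedModule.mk_eq] at hmem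
    obtain ⟨u, hu⟩ := hmem
    exact ⟨u, by simpa [Submonoid.smul_def] using hu⟩
  choose u hu using hu
  refine ⟨∏ y : t, u y, fun y hy => ?_⟩
  have hyK : y ∈ Submodule.span A (t : Set (Coh O χ bad V)) := ht ▸ (show y ∈ K from hy)
  induction hyK using Submodule.span_induction with
  | mem z hz =>
    rw [Submonoid.coe_finsetProd, ← Finset.prod_erase_mul _ _ (Finset.mem_univ (⟨z, hz⟩ : t)),
      mul_smul, hu, smul_zero]
  | zero => rw [smul_zero]
  | add a b ha hb iha ihb =>
    rw [smul_add, iha (show a ∈ K from ht ▸ ha), ihb (show b ∈ K from ht ▸ hb), add_zero]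
  | smul a z hz ih =>
    rw [smul_comm, ih (show z ∈ K from ht ▸ hz), smul_zero]

/-- The chosen factor. -/
def killer : denom θ := (exists_kill χ θ V).choose

variable {χ θ V}

theorem killer_smul_eq {y y' : Coh O χ bad V} (e : toLoc χ V θ y = toLoc χ V θ y') :
    (killer χ θ V : Poly O bad) • y = (killer χ θ V : Poly O bad) • y' := by
  rw [← sub_eq_zero, ← smul_sub]
  exact (exists_kill χ θ V).choose_spec _ (by rw [map_sub, e, sub_self])

variable [NeZero M] (hsurj : Function.Surjective (toLoc χ V θ))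

/-- The embedding. -/
def Anchor.embed : Loc χ V θ →+ Hpar (Gamma1 M) V :=
  AddMonoidHom.mk' (fun x => an.parFun ((killer χ θ V : Poly O bad) • (hsurj x).choose))
    fun x x' => by
      rw [← an.parFun_add, ← smul_add]
      refine congrArg an.parFun (killer_smul_eq ?_)
      rw [map_add, (hsurj x).choose_spec, (hsurj x').choose_spec, (hsurj (x + x')).choose_spec]

theorem Anchor.embed_toLoc (y : Coh O χ bad V) :
    an.embed hsurj (toLoc χ V θ y) = an.parFun ((killer χ θ V : Poly O bad) • y) :=
  congrArg an.parFun (killer_smul_eq (hsurj (toLoc χ V θ y)).choose_spec)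

theorem Anchor.embed_smul (a : A) (x : Loc χ V θ) :
    an.embed hsurj (a • x) = scal a (an.embed hsurj x) := by
  obtain ⟨y, rfl⟩ := hsurj x
  rw [show a • toLoc χ V θ y = toLoc χ V θ (a • y) from smul_mk χ V θ a y 1, an.embed_toLoc,
    an.embed_toLoc, smul_comm, an.parFun_smul]

theorem Anchor.embed_X (l : GoodPrime bad) (hl : ¬ l.1 ∣ M) (x : Loc χ V θ) :
    an.embed hsurj ((MvPolynomial.X l : Poly O bad) • x) =
      (heckeFam1 hl).heckePar (an.embed hsurj x) := by
  obtain ⟨y, rfl⟩ := hsurj x
  rw [← map_smul, an.embed_toLoc, an.embed_toLoc, smul_comm, an.parFun_X]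

theorem Anchor.embed_mem (x : Loc χ V θ) : an.embed hsurj x ∈ eigenPar V χ an.dvd :=
  an.parFun_mem _

theorem Anchor.embed_injective : Function.Injective (an.embed hsurj) := by
  refine (injective_iff_map_eq_zero _).mpr fun x hx => ?_
  obtain ⟨y, rfl⟩ := hsurj x
  rw [an.embed_toLoc] at hx
  have h := an.toLoc_eq_zero hx
  rw [map_smul] at h
  have hu : Function.Bijective fun z : Loc χ V θ => (killer χ θ V : Poly O bad) • z :=
    (Module.End.isUnit_iff _).mp
      (IsLocalizedModule.map_units (toLoc χ V θ) (killer χ θ V))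
  exact hu.1 (h.trans (smul_zero _).symm)

end Section

end FLTAgent.Lowering.Cocycle
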