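import Fermat.Agent.Lowering.P4.TraceAlgebra
import Fermat.Agent.Lowering.P4.Embedding
import Fermat.Agent.PeriodHecke.Freeness

/-!
# The base module comes from forms

For a trivial character the classes on `Γ₀(M)` are homomorphisms. The anchor sends them to the
homomorphisms killing parabolic and elliptic elements, on which the Hecke algebra of forms acts;
so that algebra acts on the localised classes. A residual system of forms occurs in the
homomorphisms with residual values, so the localised classes are non-zero.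
-/

set_option autoImplicit false
set_option linter.style.haveILetI false

noncomputable section

set_option synthInstance.maxHeartbeats 400000
set_option maxHeartbeats 1000000

open scoped MatrixGroups
open CongruenceSubgroup IsLocalRing

namespace FLTAgent.Lowering.Cocycle

open FLTAgent.PeriodHecke

section Trivial

variable {M : ℕ} [NeZero M] (O : Type) [CommRing O] {A : Type} [CommRing A] [Algebra O A]
  {χ : ZMod M →* A} (bad : Finset ℕ) {V : Type} [AddCommGroup V] [Module A V]
  (hχ : ∀ d : ZMod M, IsUnit d → χ d = 1)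

omit [NeZero M] in
include hχ in
theorem psi_eq_one_of_trivial (γ : Gamma0 M) : psi χ γ = 1 :=
  hχ _ ((Group.isUnit γ).map (Gamma0Map M))

/-- The class of a homomorphism, for a trivial character. -/
def homCls : (Additive (Gamma0 M) →+ V) →+ Coh O χ bad V :=
  AddMonoidHom.mk' (fun φ => toCoh O χ bad V (cls ⟨fun g => φ (Additive.ofMul g), fun g h => by
    simp only [psi_eq_one_of_trivial hχ, one_smul, ofMul_mul, map_add]⟩)) fun a b => by
    rw [← map_add]
    rfl

omit [NeZero M] [CommRing O] [Algebra O A] in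
theorem homCls_surjective : Function.Surjective (homCls O bad hχ (V := V)) := fun y => by
  obtain ⟨z, rfl⟩ := (toCoh O χ bad V).surjective y
  obtain ⟨c, rfl⟩ := Submodule.Quotient.mk_surjective _ z
  exact ⟨AddMonoidHom.mk' (fun x => c.1 (Additive.toMul x)) fun a b => by
    simp only [toMul_add, Z1_mul, psi_eq_one_of_trivial hχ, one_smul], rfl⟩

omit [NeZero M] [CommRing O] [Algebra O A] in
theorem homCls_injective : Function.Injective (homCls O bad hχ (V := V)) := by
  refine (injective_iff_map_eq_zero _).mpr fun φ h => AddMonoidHom.ext fun x => ?_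
  obtain ⟨v, hv⟩ := cls_eq_zero.mp ((toCoh O χ bad V).injective (h.trans (map_zero _).symm))
  obtain ⟨g, rfl⟩ := Additive.ofMul.surjective x
  have h1 := congrFun (congrArg Subtype.val hv) g
  rw [cobdry_apply, psi_eq_one_of_trivial hχ, one_smul, sub_self] at h1
  exact h1.symm

omit [NeZero M] in
theorem X_smul_homCls (l : GoodPrime bad) (hl : ¬ l.1 ∣ M) (φ : Additive (Gamma0 M) →+ V) :
    (MvPolynomial.X l : Poly O bad) • homCls O bad hχ φ =
      homCls O bad hχ ((heckeFam M l.1).hecke φ) := by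
  refine (poly_X_smul O χ bad V l _).trans (congrArg (toCoh O χ bad V)
    ((heckeH1_cls _ _).trans (congrArg cls (Subtype.ext (funext fun g => ?_)))))
  rw [heckeZ1_apply]
  refine (Finset.sum_congr rfl fun i _ => ?_).trans (HeckeFamily.hecke_apply _ φ g).symm
  rw [stdWeight_w, hχ _ ((ZMod.isUnit_iff_coprime l.1 M).mpr
    ((l.2.1.coprime_iff_not_dvd).mpr hl)), ite_self, one_smul]

omit [NeZero M] [CommRing O] [Algebra O A] in
theorem smul_homCls (a : A) (φ : Additive (Gamma0 M) →+ V) :
    a • homCls O bad hχ φ = homCls O bad hχ ((DistribSMul.toAddMonoidHom V a).comp φ) :=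
  rfl

variable {O bad} {k : Type} [Field k] {θ : Poly O bad →+* k} (an : Anchor (N := M) θ M)

/-- The anchor sends classes to homomorphisms killing parabolic and elliptic elements. -/
theorem exists_homCls_op (htf : ∀ (m : ℕ) (v : V), m ≠ 0 → m • v = 0 → v = 0)
    (y : Coh O χ bad V) :
    ∃ φ : Hpar (Gamma0 M) V, homCls O bad hχ φ.1 = an.op • y := by
  obtain ⟨φ, hφ⟩ := homCls_surjective O bad hχ (an.op • y)
  refine ⟨⟨φ, fun γ hγ => ?_⟩, hφ⟩
  obtain ⟨k, hk0, -, hk⟩ := Subgroup.exists_pow_mem_of_index_ne_zero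
    (H := Gamma1 M) Subgroup.FiniteIndex.index_ne_zero ((γ : SL(2, ℤ)))
  set δ : Gamma1 M := ⟨(γ : SL(2, ℤ)) ^ k, hk⟩
  have hmat : mat δ = mat γ ^ k := by simp [mat, δ]
  have h := (an.parFun y).2 δ (by rw [hmat]; exact trace_pow_le _ (mat_det γ) hγ k)
  change resGamma1 χ an.dvd ((toCoh O χ bad V).symm (an.op • y)) (Additive.ofMul δ) = 0 at h
  rw [← hφ] at h
  change φ (Additive.ofMul (toGamma0 an.dvd δ)) = 0 at h
  rw [show toGamma0 an.dvd δ = γ ^ k from Subtype.ext (by simp [coe_toGamma0, δ]), ofMul_pow,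
    map_nsmul] at h
  exact htf k _ hk0.ne' h

end Trivial

section Forms

variable {M : ℕ} [NeZero M] {O : Type} [CommRing O] {A : Type} [CommRing A] [Algebra O A]
  {χ : ZMod M →* A} {bad : Finset ℕ} (hχ : ∀ d : ZMod M, IsUnit d → χ d = 1)
  (hbad : ∀ q : ℕ, q.Prime → q ∣ M → q ∈ bad) {k : Type} [Field k] {θ : Poly O bad →+* k}

variable (M bad) in
/-- The inclusion in the full Hecke algebra. -/
def inclFull : CuspForm.heckeAlgebra M 2 (↑bad : Set ℕ) →+* CuspForm.heckeAlgebra M 2 (∅ : Set ℕ) :=
  (Subalgebra.inclusion (CuspForm.heckeAlgebra_mono (Set.empty_subset _))).toRingHom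

theorem inclFull_T {l : ℕ} (hl : l.Prime) (hlM : ¬ l ∣ M) (hlb : l ∉ (↑bad : Set ℕ)) :
    inclFull M bad (CuspForm.heckeAlgebra.T hl hlM hlb) = CuspForms.heckeGen M l hl := by
  rw [CuspForms.heckeGen, dif_neg hlM]
  rfl

theorem inclFull_injective : Function.Injective (inclFull M bad) :=
  Subalgebra.inclusion_injective _

include hbad in
/-- The action of the Hecke algebra of forms on the homomorphisms is given by polynomials. -/
theorem exists_poly (V : Type) [AddCommGroup V] [Module A V]
    (t : CuspForm.heckeAlgebra M 2 (↑bad : Set ℕ)) :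
    ∃ P : Poly O bad, ∀ φ : Hpar (Gamma0 M) V,
      P • homCls O bad hχ φ.1 = homCls O bad hχ (actA M V (inclFull M bad t) φ).1 := by
  obtain ⟨t, ht⟩ := t
  induction ht using Algebra.adjoin_induction with
  | mem x hx =>
    obtain ⟨l, hl, hlM, hlb, rfl⟩ | ⟨q, hqM, hq, hqb, -⟩ := hx
    · refine ⟨MvPolynomial.X ⟨l, hl, hlb⟩, fun φ => ?_⟩
      haveI : Fact l.Prime := ⟨hl⟩
      refine (X_smul_homCls O bad hχ ⟨l, hl, hlb⟩ hlM φ.1).trans ?_
      rw [show inclFull M bad ⟨_, _⟩ = CuspForms.heckeGen M l hl from inclFull_T hl hlM hlb,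
        actA_heckeGen]
      rfl
    · exact absurd (hbad q hq hqM) hqb
  | algebraMap r =>
    refine ⟨(r : Poly O bad), fun φ => ?_⟩
    have e : (⟨algebraMap ℤ _ r, Subalgebra.algebraMap_mem _ r⟩ :
        CuspForm.heckeAlgebra M 2 (↑bad : Set ℕ)) = (r : CuspForm.heckeAlgebra M 2 (↑bad : Set ℕ)) :=
      Subtype.ext (by simp)
    rw [e, map_intCast, map_intCast, Int.cast_smul_eq_zsmul, ← map_zsmul,
      AddMonoid.End.intCast_apply]
    rfl
  | add x y hx hy ihx ihy =>
    obtain ⟨P, hP⟩ := ihx
    obtain ⟨Q, hQ⟩ := ihy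
    refine ⟨P + Q, fun φ => ?_⟩
    have e : inclFull M bad (⟨x + y, add_mem hx hy⟩ : CuspForm.heckeAlgebra M 2 (↑bad : Set ℕ)) =
        inclFull M bad ⟨x, hx⟩ + inclFull M bad ⟨y, hy⟩ := Subtype.ext rfl
    rw [add_smul, hP, hQ, e, map_add, ← map_add]
    rfl
  | mul x y hx hy ihx ihy =>
    obtain ⟨P, hP⟩ := ihx
    obtain ⟨Q, hQ⟩ := ihy
    refine ⟨P * Q, fun φ => ?_⟩
    have e : inclFull M bad (⟨x * y, mul_mem hx hy⟩ : CuspForm.heckeAlgebra M 2 (↑bad : Set ℕ)) =
        inclFull M bad ⟨x, hx⟩ * inclFull M bad ⟨y, hy⟩ := Subtype.ext rfl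
    rw [mul_smul, hQ, hP, e, map_mul (actA M V)]
    rfl

include hχ hbad in
/-- The Hecke algebra of forms acts on the localised classes. -/
theorem exists_forms_hom (an : Anchor (N := M) θ M) (V : Type) [AddCommGroup V] [Module A V]
    (htf : ∀ (m : ℕ) (v : V), m ≠ 0 → m • v = 0 → v = 0) :
    ∃ g : CuspForm.heckeAlgebra M 2 (↑bad : Set ℕ) →+*
        Poly O bad ⧸ Module.annihilator (Poly O bad) (Loc χ V θ),
      ∀ (l : ℕ) (hl : l.Prime) (hlM : ¬ l ∣ M) (hlb : l ∉ (↑bad : Set ℕ)),
        g (CuspForm.heckeAlgebra.T hl hlM hlb) =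
          Ideal.Quotient.mk (Module.annihilator (Poly O bad) (Loc χ V θ))
            (MvPolynomial.X (⟨l, hl, hlb⟩ : GoodPrime bad)) := by
  set I := Module.annihilator (Poly O bad) (Loc χ V θ)
  set Rel := fun (t : CuspForm.heckeAlgebra M 2 (↑bad : Set ℕ)) (P : Poly O bad) =>
    ∀ φ : Hpar (Gamma0 M) V,
      P • homCls O bad hχ φ.1 = homCls O bad hχ (actA M V (inclFull M bad t) φ).1
  have huniq : ∀ t P Q, Rel t P → Rel t Q → Ideal.Quotient.mk I P = Ideal.Quotient.mk I Q := by
    intro t P Q hP hQ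
    refine Ideal.Quotient.eq.mpr (Module.mem_annihilator.mpr fun x => ?_)
    induction x using LocalizedModule.induction_on with
    | h y s =>
      obtain ⟨φ, hφ⟩ := exists_homCls_op hχ an htf y
      rw [LocalizedModule.smul'_mk, ← LocalizedModule.zero_mk 1, LocalizedModule.mk_eq]
      refine ⟨⟨an.op, an.op_mem⟩, ?_⟩
      simp only [Submonoid.smul_def, one_smul, smul_zero]
      rw [smul_comm, ← hφ, sub_smul, hP φ, hQ φ, sub_self]
  choose P hP using exists_poly (O := O) hχ hbad V
  have hrel : ∀ t, Rel t (P t) := hP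
  refine ⟨{ toFun := fun t => Ideal.Quotient.mk I (P t), map_one' := ?_, map_mul' := fun s t => ?_,
            map_zero' := ?_, map_add' := fun s t => ?_ }, fun l hl hlM hlb => ?_⟩
  · rw [← map_one (Ideal.Quotient.mk I)]
    exact huniq 1 _ _ (hrel 1) fun φ => by rw [one_smul, map_one, map_one]; rfl
  · rw [← map_mul (Ideal.Quotient.mk I)]
    exact huniq _ _ _ (hrel _) fun φ => by
      rw [mul_smul, hP t, hP s, map_mul (inclFull M bad), map_mul (actA M V)]
      rfl
  · rw [← map_zero (Ideal.Quotient.mk I)]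
    exact huniq 0 _ _ (hrel 0) fun φ => by
      rw [zero_smul, map_zero, map_zero]
      exact (map_zero _).symm
  · rw [← map_add (Ideal.Quotient.mk I)]
    exact huniq _ _ _ (hrel _) fun φ => by
      rw [add_smul, hP s, hP t, map_add (inclFull M bad), map_add (actA M V), ← map_add]
      rfl
  · show Ideal.Quotient.mk I _ = _
    refine huniq _ _ _ (hrel _) fun φ => ?_
    haveI : Fact l.Prime := ⟨hl⟩
    rw [X_smul_homCls O bad hχ ⟨l, hl, hlb⟩ hlM, inclFull_T, actA_heckeGen]
    rfl

include hχ in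
/-- A residual system of forms occurs in the localised classes with residual values. -/
theorem nontrivial_loc_residual [Module A k]
    (hC : ∀ (r : O) (v : k), algebraMap O A r • v = θ (MvPolynomial.C r) * v)
    (p : ℕ) [Fact p.Prime] [CharP k p]
    (θ₀ : CuspForm.heckeAlgebra M 2 (↑bad : Set ℕ) →+* k)
    (hM : ∀ l : GoodPrime bad, ¬ l.1 ∣ M)
    (hθ : ∀ l : GoodPrime bad, θ (MvPolynomial.X l) = θ₀ (CuspForm.heckeAlgebra.T l.2.1 (hM l)
      (show l.1 ∉ (↑bad : Set ℕ) from fun h => l.2.2 (Finset.mem_coe.mp h)))) :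
    Nontrivial (Loc χ k θ) := by
  haveI : Module.Finite ℤ (CuspForm.heckeAlgebra M 2 (↑bad : Set ℕ)) :=
    Module.Finite.of_injective (inclFull M bad).toAddMonoidHom.toIntLinearMap inclFull_injective
  obtain ⟨w, hw, hne⟩ := (Submodule.ne_bot_iff _).mp
    (eigenDual_ne_bot ((actDual M).comp (inclFull M bad))
      ((actDual_injective M).comp inclFull_injective) p θ₀)
  set φ : Hpar (Gamma0 M) k := homEquiv M k w with hφ
  have heig : ∀ t, (actA M k (inclFull M bad t) φ).1 =
      (AddMonoidHom.mulLeft (θ₀ t)).comp φ.1 := fun t => by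
    refine AddMonoidHom.ext fun γ => ?_
    rw [hφ, actA_homEquiv, homEquiv_apply, LinearMap.comp_apply, AddMonoidHom.comp_apply,
      homEquiv_apply]
    exact hw t _
  have key : ∀ (r : Poly O bad) (c : k),
      r • homCls O bad hχ ((AddMonoidHom.mulLeft c).comp φ.1) =
        homCls O bad hχ ((AddMonoidHom.mulLeft (θ r * c)).comp φ.1) := by
    intro r
    induction r using MvPolynomial.induction_on with
    | C a =>
      intro c
      rw [poly_C_smul, smul_homCls]
      refine congrArg _ (AddMonoidHom.ext fun x => ?_)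
      show algebraMap O A a • (c * φ.1 x) = θ (MvPolynomial.C a) * c * φ.1 x
      rw [hC, mul_assoc]
    | add a b ha hb =>
      intro c
      rw [add_smul, ha, hb, ← map_add, map_add θ, add_mul]
      refine congrArg _ (AddMonoidHom.ext fun x => ?_)
      exact (add_mul _ _ _).symm
    | mul_X a l ha =>
      intro c
      haveI : Fact l.1.Prime := ⟨l.2.1⟩
      have hT : (heckeFam M l.1).hecke φ.1 =
          (AddMonoidHom.mulLeft (θ (MvPolynomial.X l))).comp φ.1 := by
        rw [hθ, ← heig, inclFull_T, actA_heckeGen]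
        rfl
      rw [mul_smul, X_smul_homCls O bad hχ l (hM l), HeckeFamily.hecke_comp, hT,
        show (AddMonoidHom.mulLeft c).comp ((AddMonoidHom.mulLeft (θ (MvPolynomial.X l))).comp φ.1) =
          (AddMonoidHom.mulLeft (θ (MvPolynomial.X l) * c)).comp φ.1 from
          AddMonoidHom.ext fun x => (mul_left_comm c _ _).trans (mul_assoc _ c _).symm,
        ha, map_mul θ, mul_assoc]
  refine ⟨toLoc χ k θ (homCls O bad hχ φ.1), 0, fun h0 => hne ?_⟩
  rw [LocalizedModule.mkLinearMap_apply, ← LocalizedModule.zero_mk 1, LocalizedModule.mk_eq] at h0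
  obtain ⟨u, hu⟩ := h0
  simp only [Submonoid.smul_def, one_smul, smul_zero] at hu
  have h1 := key (u : Poly O bad) 1
  rw [show (AddMonoidHom.mulLeft (1 : k)).comp φ.1 = φ.1 from
    AddMonoidHom.ext fun x => one_mul _, hu, mul_one] at h1
  have h2 := homCls_injective O bad hχ (h1.symm.trans (map_zero _).symm)
  have h3 : φ = 0 := Subtype.ext (AddMonoidHom.ext fun x =>
    (mul_eq_zero.mp (DFunLike.congr_fun h2 x)).resolve_left u.2)
  exact (homEquiv M k).injective (h3.trans (map_zero _).symm)

end Forms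

/-- Equal levels have the same Hecke algebra. -/
theorem exists_level_hom {M M' : ℕ} [NeZero M] [NeZero M'] (h : M' = M) (bad : Set ℕ) :
    ∃ e : CuspForm.heckeAlgebra M 2 bad →+* CuspForm.heckeAlgebra M' 2 bad,
      ∀ (l : ℕ) (hl : l.Prime) (hlM : ¬ l ∣ M) (hlM' : ¬ l ∣ M') (hlb : l ∉ bad),
        e (CuspForm.heckeAlgebra.T hl hlM hlb) = CuspForm.heckeAlgebra.T hl hlM' hlb := by
  subst h
  exact ⟨RingHom.id _, fun _ _ _ _ _ => rfl⟩

end FLTAgent.Lowering.Cocycle

namespace FLTAgent.Lowering.Aux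

open FLTAgent.Lowering.Cocycle

variable {p : ℕ} [Fact p.Prime] {O : Type} [CommRing O] [IsDomain O] [IsDiscreteValuationRing O]
  [Algebra ℤ_[p] O] (S : Setup p O)

theorem level_empty : (Aux.empty S).level = S.M0 := by simp [Aux.level, Aux.empty]

theorem chi_empty (d : ZMod (Aux.empty S).level) (hd : IsUnit d) :
    (Aux.empty S).chi false d = 1 := by
  rw [← hd.unit_spec, (Aux.empty S).chi_coe,
    Subsingleton.elim ((Aux.empty S).dia hd.unit) 1, map_one, mul_one]
  simp only [Setup.eps, Bool.false_eq_true, if_false, MonoidHom.one_apply, Units.val_one, map_one]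

theorem sys_empty_X (l : GoodPrime S.bad) :
    (Aux.empty S).sys (MvPolynomial.X l) = S.tr0 l :=
  (Aux.empty S).sysOn_not_mem (Finset.notMem_empty _)

theorem not_dvd_level_empty (l : GoodPrime S.bad) : ¬ l.1 ∣ (Aux.empty S).level := by
  rw [level_empty]
  exact S.not_dvd_M0 l

variable [Module.Finite ℤ_[p] O]

theorem charP_residue : CharP (ResidueField O) p :=
  (CharP.charP_iff_prime_eq_zero Fact.out).mpr (residue_natCast_eq_zero p O)

theorem exists_anchor_empty :
    Nonempty (Anchor (N := (Aux.empty S).level) (Aux.empty S).sys (Aux.empty S).level) := by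
  obtain ⟨l, V, τ, hl, hlb, hlM, hl1, hlp, hV, hτ, htr⟩ :=
    S.exists_separating (residue_natCast_eq_zero p O) (Aux.empty S).level
  haveI := charP_residue (p := p) (O := O)
  refine ⟨⟨⟨l, hl, hlb⟩, dvd_rfl, hlM, hl1, ?_, fun h => ?_⟩⟩
  · rw [show (Aux.empty S).sys (MvPolynomial.X (⟨l, hl, hlb⟩ : GoodPrime S.bad)) =
      S.tr0 ⟨l, hl, hlb⟩ from sys_empty_X S _, S.tr0_spec ⟨l, hl, hlb⟩ V hV τ hτ]
    have h1 : (l : ResidueField O) = 1 := by
      have := congrArg (ZMod.castHom (dvd_refl p) (ResidueField O)) hlp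
      rwa [map_natCast, map_one] at this
    show trGL (S.rb τ) ≠ (l : ResidueField O) + 1
    rw [h1, one_add_one_eq_two]
    exact htr
  · have hp : p.Prime := Fact.out
    have h3 := S.p_gt
    rw [CharP.cast_eq_zero_iff (ResidueField O) p, level_empty] at h
    rcases hp.dvd_mul.mp h with h12 | hM
    · have := Nat.le_of_dvd (by norm_num) h12
      interval_cases p <;> first | omega | exact absurd hp (by norm_num)
    · exact S.M0_not_dvd hM

/-- The untwisted module of the base level is non-zero. -/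
theorem nontrivial_mod_empty : Nontrivial ((Aux.empty S).Mod false) := by
  haveI := charP_residue (p := p) (O := O)
  let π : (Aux.empty S).Coef →+* ResidueField O := (residue O).comp (Aux.empty S).aug.toRingHom
  letI : Module (Aux.empty S).Coef (ResidueField O) := Module.compHom _ π
  have hsmul : ∀ (a : (Aux.empty S).Coef) (v : ResidueField O), a • v = π a * v := fun _ _ => rfl
  obtain ⟨e, he⟩ := exists_level_hom (M := (Aux.empty S).level) (M' := S.M0)
    (level_empty S).symm (↑S.bad : Set ℕ)
  haveI := nontrivial_loc_residual (χ := (Aux.empty S).chi false) (θ := (Aux.empty S).sys)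
    (chi_empty S) (fun r v => by
      rw [hsmul]
      show residue O ((Aux.empty S).aug (algebraMap O _ r)) * v = _
      rw [AlgHom.commutes, sys, sysOn_C]
      rfl) p (S.mtheta.comp e) (not_dvd_level_empty S) (fun l => by
      rw [sys_empty_X, RingHom.comp_apply, he _ _ _ (S.not_dvd_M0 l)]
      rfl)
  let f : (Aux.empty S).Coef →ₗ[(Aux.empty S).Coef] ResidueField O :=
    { toFun := π, map_add' := map_add π, map_smul' := fun a b => map_mul π a b }
  have hf : Function.Surjective f := (residue_surjective).comp (Aux.empty S).aug_surjective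
  haveI := (mapLoc_surjective ((Aux.empty S).chi false) (Aux.empty S).sys
    ((Aux.empty S).chi_neg false)
    (map_ofNat (algebraMap O (Aux.empty S).Coef) 6 ▸ S.isUnit_six.map (algebraMap O _)) f hf).nontrivial
  exact ((Aux.empty S).modL false).toEquiv.nontrivial

variable [CharZero O]

theorem coef_empty_eq_zero (m : ℕ) (v : (Aux.empty S).Coef) (hm : m ≠ 0) (h : m • v = 0) :
    v = 0 := by
  refine (RingHom.injective_iff_ker_eq_bot _).mpr (ker_aug_empty (S := S)) ?_
  have h1 := congrArg (Aux.empty S).aug h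
  rw [map_nsmul, map_zero, nsmul_eq_mul] at h1
  rw [map_zero]
  exact (mul_eq_zero.mp h1).resolve_left (Nat.cast_ne_zero.mpr hm)

/-- The untwisted module of the base level comes from forms on `Γ₀(M0)`. -/
theorem exists_base_forms :
    ∃ f : CuspForm.heckeAlgebra S.M0 2 (↑S.bad : Set ℕ) →+*
        Module.End (Aux.empty S).Coef ((Aux.empty S).Mod false),
      ∀ (l : ℕ) (hl : l.Prime) (hlM : ¬ l ∣ S.M0) (hlb : l ∉ (↑S.bad : Set ℕ)),
        f (CuspForm.heckeAlgebra.T hl hlM hlb) =
          (Aux.empty S).opMod false (MvPolynomial.X (⟨l, hl, hlb⟩ : GoodPrime S.bad)) := by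
  obtain ⟨an⟩ := exists_anchor_empty S
  obtain ⟨g, hg⟩ := exists_forms_hom (χ := (Aux.empty S).chi false) (chi_empty S)
    (fun q hq hqM => S.level_mem q hq (by rwa [level_empty] at hqM)) an (Aux.empty S).Coef
    (coef_empty_eq_zero S)
  obtain ⟨e, he⟩ := exists_level_hom (M := S.M0) (M' := (Aux.empty S).level)
    (level_empty S) (↑S.bad : Set ℕ)
  refine ⟨((Ideal.Quotient.lift _ ((Aux.empty S).opMod false) fun r hr =>
    LinearMap.ext fun x => ((Aux.empty S).modL false).injective ?_).comp g).comp e,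
    fun l hl hlM hlb => ?_⟩
  · rw [modL_opMod, Module.mem_annihilator.mp hr, LinearMap.zero_apply, map_zero]
  · rw [RingHom.comp_apply, RingHom.comp_apply,
      he l hl hlM (not_dvd_level_empty S ⟨l, hl, hlb⟩) hlb, hg, Ideal.Quotient.lift_mk]

end FLTAgent.Lowering.Aux
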