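import Fermat.Agent.Lowering.P4.TraceRep
import Fermat.Agent.DeligneSerre.TorsionRoot

/-!
# Finite pieces inside torsion

The span of the translates of the embedded modules carries the twisted traces and the twisted
action, satisfies the quadratic relation and is faithful up to a fixed power of `p`.
-/

set_option autoImplicit false

noncomputable section

set_option synthInstance.maxHeartbeats 400000
set_option maxHeartbeats 1000000
set_option maxRecDepth 4000

open IsLocalRing FLTAgent.Lowering.Cocycle FLTAgent.EigenReps CongruenceSubgroup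
open scoped MatrixGroups

namespace FLTAgent.Lowering

open FLTAgent.PeriodHecke FLTAgent.DeligneSerre

local notation "LL" => AlgebraicClosure ℚ
local notation "GG" => (AlgebraicClosure ℚ ≃ₐ[ℚ] AlgebraicClosure ℚ)

theorem endZero_apply {A : Type*} [AddCommGroup A] (a : A) : (0 : AddMonoid.End A) a = 0 := rfl

theorem quadratic_of_central {G E : Type*} [Group G] [AddCommGroup E] (U C : G →* AddMonoid.End E)
    (σ g : G) (hs : Commute (U (σ * g)) (shape U C σ)) (hC : Commute (U g) (C σ)) (w : E) :
    U (σ * (σ * g)) w + U g (C σ w) = U (σ * g) (shape U C σ w) := by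
  have h1 : U (σ * g) (shape U C σ w) = shape U C σ (U (σ * g) w) := DFunLike.congr_fun hs.eq w
  have h2 : U g (C σ w) = C σ (U g w) := DFunLike.congr_fun hC.eq w
  rw [h1, h2]
  show _ = U σ (U (σ * g) w) + C σ (U σ⁻¹ (U (σ * g) w))
  rw [← endMul_apply (U σ), ← endMul_apply (U σ⁻¹), ← map_mul, ← map_mul, inv_mul_cancel_left]

variable {p : ℕ} [Fact p.Prime] {O : Type} [CommRing O] [IsDomain O] [IsDiscreteValuationRing O]
  [Algebra ℤ_[p] O] [Module.Finite ℤ_[p] O] [CharZero O] {S : Setup p O} (X : Aux S)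
  {M : ℕ} [NeZero M]

namespace Aux

local instance neZero_pow' (n : ℕ) : NeZero (p ^ n) := ⟨pow_ne_zero _ (Fact.out : p.Prime).ne_zero⟩

variable (hA : X.Allowed M) (Z : Realisation p M) (e : Bool) (n : ℕ)

/-- The translates of the embedded module. -/
def spanW : AddSubgroup (X.Eig hA e n) :=
  AddSubgroup.closure (Set.range fun gx : GG × X.Mod e =>
    X.eigU hA Z e n gx.1 (X.embW hA e n gx.2))

/-- The finite piece of one component. -/
def Piece : Type := X.spanW hA Z e n

instance : AddCommGroup (X.Piece hA Z e n) := inferInstanceAs (AddCommGroup (X.spanW hA Z e n))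

/-- The inclusion in the eigenspace. -/
def pieceVal : X.Piece hA Z e n →+ X.Eig hA e n := (X.spanW hA Z e n).subtype

theorem pieceVal_injective : Function.Injective (X.pieceVal hA Z e n) := Subtype.val_injective

/-- A translate of the embedded module in the piece. -/
def pieceGen (g : GG) (x : X.Mod e) : X.Piece hA Z e n :=
  (⟨X.eigU hA Z e n g (X.embW hA e n x), AddSubgroup.subset_closure ⟨(g, x), rfl⟩⟩ :
    X.spanW hA Z e n)

theorem pieceVal_gen (g : GG) (x : X.Mod e) :
    X.pieceVal hA Z e n (X.pieceGen hA Z e n g x) = X.eigU hA Z e n g (X.embW hA e n x) := rfl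

theorem piece_ext {A : Type*} [AddCommGroup A] {f f' : X.Piece hA Z e n →+ A}
    (h : ∀ g x, f (X.pieceGen hA Z e n g x) = f' (X.pieceGen hA Z e n g x)) : f = f' := by
  refine AddMonoidHom.ext fun w => ?_
  obtain ⟨v, hv⟩ := w
  induction hv using AddSubgroup.closure_induction with
  | mem v hv => obtain ⟨⟨g, x⟩, rfl⟩ := hv; exact h g x
  | zero => exact (map_zero f).trans (map_zero f').symm
  | add a b ha hb iha ihb =>
    exact (map_add f ⟨a, ha⟩ ⟨b, hb⟩).trans ((congrArg₂ (· + ·) iha ihb).trans (map_add f' _ _).symm)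
  | neg a ha iha =>
    exact (map_neg f ⟨a, ha⟩).trans ((congrArg Neg.neg iha).trans (map_neg f' _).symm)

/-- An element of the trace algebra extends to an operator commuting with the action. -/
theorem exists_commuting (t : X.TR) : ∃ F : AddMonoid.End (X.Eig hA e n),
    (∀ g, Commute (X.eigU hA Z e n g) F) ∧
      ∀ x, F (X.embW hA e n x) = X.embW hA e n (X.actTR e t x) := by
  induction t using X.TR_induction with
  | hC r => exact ⟨X.eigScal hA e n (algebraMap O X.Coef r), fun g => X.eigU_eigScal hA Z e n g _,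
      fun x => (X.embW_smul hA e n _ x).symm.trans
        (congrArg (X.embW hA e n) ((X.mod_smul e r x).symm.trans (X.actTR_algebraMap e r x).symm))⟩
  | hX l =>
    obtain ⟨V, hV⟩ := Frobenius.exists_liesOverPrime l.1.1 l.1.2.1
    obtain ⟨τ, hτ⟩ := Frobenius.exists_isFrobeniusAt V l.1.1 l.1.2.1 hV
    exact ⟨X.opShape hA Z e n τ, fun g => X.commute_frobenius hA Z n l hV hτ e g,
      fun x => (X.isTrLift_frobenius hA Z n l hV hτ e x).symm⟩
  | hadd a b ha hb =>
    obtain ⟨F, hF, hF'⟩ := ha
    obtain ⟨G, hG, hG'⟩ := hb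
    exact ⟨F + G, fun g => (hF g).add_right (hG g), fun x => (endAdd_apply F G _).trans
      ((congrArg₂ (· + ·) (hF' x) (hG' x)).trans (X.embW_act_add hA e n a b x).symm)⟩
  | hmul a b ha hb =>
    obtain ⟨F, hF, hF'⟩ := ha
    obtain ⟨G, hG, hG'⟩ := hb
    exact ⟨F * G, fun g => (hF g).mul_right (hG g), fun x => (endMul_apply F G _).trans
      ((congrArg F (hG' x)).trans ((hF' _).trans
        (congrArg (X.embW hA e n) (X.actTR_mul_apply e a b x).symm)))⟩

theorem exists_pieceEnd (t : X.TR) : ∃ f : AddMonoid.End (X.Piece hA Z e n),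
    ∀ g x, f (X.pieceGen hA Z e n g x) = X.pieceGen hA Z e n g (X.actTR e t x) := by
  obtain ⟨F, hF, hF'⟩ := X.exists_commuting hA Z e n t
  have hgen : ∀ g x, F (X.eigU hA Z e n g (X.embW hA e n x)) =
      X.eigU hA Z e n g (X.embW hA e n (X.actTR e t x)) := fun g x =>
    (DFunLike.congr_fun (hF g).eq (X.embW hA e n x)).symm.trans
      (congrArg (X.eigU hA Z e n g) (hF' x))
  have hstab : X.spanW hA Z e n ≤ (X.spanW hA Z e n).comap F :=
    (AddSubgroup.closure_le _).mpr fun _ ⟨⟨g, x⟩, h⟩ =>
      AddSubgroup.mem_comap.mpr (h ▸ (hgen g x).symm ▸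
        AddSubgroup.subset_closure ⟨(g, X.actTR e t x), rfl⟩)
  exact ⟨AddMonoidHom.codRestrict (F.comp (X.spanW hA Z e n).subtype) (X.spanW hA Z e n)
      fun w => hstab w.2, fun g x => Subtype.ext (hgen g x)⟩

/-- An element of the trace algebra on the piece. -/
def pieceEnd (t : X.TR) : AddMonoid.End (X.Piece hA Z e n) :=
  (X.exists_pieceEnd hA Z e n t).choose

theorem pieceEnd_gen (t : X.TR) (g : GG) (x : X.Mod e) :
    X.pieceEnd hA Z e n t (X.pieceGen hA Z e n g x) = X.pieceGen hA Z e n g (X.actTR e t x) :=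
  (X.exists_pieceEnd hA Z e n t).choose_spec g x

theorem pieceGen_add (g : GG) (x y : X.Mod e) :
    X.pieceGen hA Z e n g (x + y) = X.pieceGen hA Z e n g x + X.pieceGen hA Z e n g y :=
  X.pieceVal_injective hA Z e n ((congrArg (X.eigU hA Z e n g) (map_add (X.embW hA e n) x y)).trans
    (map_add (X.eigU hA Z e n g) _ _))

theorem pieceGen_zero (g : GG) : X.pieceGen hA Z e n g 0 = 0 :=
  X.pieceVal_injective hA Z e n ((congrArg (X.eigU hA Z e n g) (map_zero (X.embW hA e n))).trans
    (map_zero (X.eigU hA Z e n g)))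

/-- The trace algebra on the piece. -/
def pieceRing : X.TR →+* AddMonoid.End (X.Piece hA Z e n) where
  toFun := X.pieceEnd hA Z e n
  map_one' := X.piece_ext hA Z e n fun g x => (X.pieceEnd_gen hA Z e n 1 g x).trans
    (congrArg (X.pieceGen hA Z e n g) (LinearMap.congr_fun (map_one (X.actTR e)) x))
  map_mul' a b := X.piece_ext hA Z e n fun g x => (X.pieceEnd_gen hA Z e n (a * b) g x).trans
    ((congrArg (X.pieceGen hA Z e n g) (X.actTR_mul_apply e a b x)).trans
      ((X.pieceEnd_gen hA Z e n a g _).symm.trans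
        ((congrArg (X.pieceEnd hA Z e n a) (X.pieceEnd_gen hA Z e n b g x).symm).trans
          (endMul_apply _ _ _).symm)))
  map_zero' := X.piece_ext hA Z e n fun g x => (X.pieceEnd_gen hA Z e n 0 g x).trans
    ((congrArg (X.pieceGen hA Z e n g) (LinearMap.congr_fun (map_zero (X.actTR e)) x)).trans
      (X.pieceGen_zero hA Z e n g))
  map_add' a b := X.piece_ext hA Z e n fun g x => (X.pieceEnd_gen hA Z e n (a + b) g x).trans
    ((congrArg (X.pieceGen hA Z e n g) (LinearMap.congr_fun (map_add (X.actTR e) a b) x)).trans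
      ((X.pieceGen_add hA Z e n g _ _).trans
        ((congrArg₂ (· + ·) (X.pieceEnd_gen hA Z e n a g x) (X.pieceEnd_gen hA Z e n b g x)).symm.trans
          (endAdd_apply _ _ _).symm)))

instance : Module X.TR (X.Piece hA Z e n) :=
  Module.compHom _ (X.pieceRing hA Z e n)

theorem smul_pieceGen (t : X.TR) (g : GG) (x : X.Mod e) :
    t • X.pieceGen hA Z e n g x = X.pieceGen hA Z e n g (X.actTR e t x) :=
  X.pieceEnd_gen hA Z e n t g x

theorem eigU_mul_apply (σ g : GG) (w : X.Eig hA e n) :
    X.eigU hA Z e n σ (X.eigU hA Z e n g w) = X.eigU hA Z e n (σ * g) w :=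
  (DFunLike.congr_fun (map_mul (X.eigU hA Z e n) σ g) w).symm

theorem eigU_stable (σ : GG) :
    X.spanW hA Z e n ≤ (X.spanW hA Z e n).comap (X.eigU hA Z e n σ) :=
  (AddSubgroup.closure_le _).mpr fun _ ⟨⟨g, x⟩, h⟩ =>
    AddSubgroup.mem_comap.mpr (h ▸ (X.eigU_mul_apply hA Z e n σ g _).symm ▸
      AddSubgroup.subset_closure ⟨(σ * g, x), rfl⟩)

/-- The twisted action on the piece, additively. -/
def pieceU (σ : GG) : AddMonoid.End (X.Piece hA Z e n) :=
  AddMonoidHom.codRestrict ((X.eigU hA Z e n σ).comp (X.spanW hA Z e n).subtype)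
    (X.spanW hA Z e n) fun w => X.eigU_stable hA Z e n σ w.2

theorem pieceU_gen (σ g : GG) (x : X.Mod e) :
    X.pieceU hA Z e n σ (X.pieceGen hA Z e n g x) = X.pieceGen hA Z e n (σ * g) x :=
  X.pieceVal_injective hA Z e n (X.eigU_mul_apply hA Z e n σ g _)

theorem pieceVal_pieceU (σ : GG) (w : X.Piece hA Z e n) :
    X.pieceVal hA Z e n (X.pieceU hA Z e n σ w) = X.eigU hA Z e n σ (X.pieceVal hA Z e n w) := rfl

theorem pieceU_smul (σ : GG) (t : X.TR) (w : X.Piece hA Z e n) :
    X.pieceU hA Z e n σ (t • w) = t • X.pieceU hA Z e n σ w := by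
  refine DFunLike.congr_fun (X.piece_ext hA Z e n
    (f := (X.pieceU hA Z e n σ).comp (DistribSMul.toAddMonoidHom _ t))
    (f' := (DistribSMul.toAddMonoidHom _ t).comp (X.pieceU hA Z e n σ)) fun g x => ?_) w
  exact (congrArg (X.pieceU hA Z e n σ) (X.smul_pieceGen hA Z e n t g x)).trans
    ((X.pieceU_gen hA Z e n σ g _).trans ((X.smul_pieceGen hA Z e n t (σ * g) x).symm.trans
      (congrArg (t • ·) (X.pieceU_gen hA Z e n σ g x).symm)))

/-- The twisted action on the piece. -/
def pieceAct : GG →* Module.End X.TR (X.Piece hA Z e n) where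
  toFun σ :=
    { toFun := X.pieceU hA Z e n σ
      map_add' := map_add _
      map_smul' := X.pieceU_smul hA Z e n σ }
  map_one' := LinearMap.ext fun w => X.pieceVal_injective hA Z e n
    (DFunLike.congr_fun (map_one (X.eigU hA Z e n)) (X.pieceVal hA Z e n w))
  map_mul' σ τ := LinearMap.ext fun w => X.pieceVal_injective hA Z e n
    (DFunLike.congr_fun (map_mul (X.eigU hA Z e n) σ τ) (X.pieceVal hA Z e n w))

theorem pieceAct_apply (σ : GG) (w : X.Piece hA Z e n) :
    X.pieceAct hA Z e n σ w = X.pieceU hA Z e n σ w := rfl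

instance finite_piece : Finite (X.Piece hA Z e n) := by
  haveI : Finite (Additive (Gamma1 M) →+ ZMod (p ^ n)) := Tors.finite_hom (ZMod (p ^ n))
  haveI : Finite (Hpar (Gamma1 M) (X.PowQuot n)) :=
    Finite.of_equiv _ (hparEquiv (X.coord n)).toEquiv.symm
  exact inferInstanceAs (Finite (X.spanW hA Z e n))

theorem pow_smul_coordinates (w : X.Piece hA Z e n) : p ^ n • w = 0 := by
  refine X.pieceVal_injective hA Z e n (Subtype.ext ((hparEquiv (X.coord n)).injective
    (funext fun i => ?_)))
  rw [map_nsmul, map_zero, AddSubgroup.coe_nsmul, map_nsmul, Pi.smul_apply, AddSubgroup.coe_zero,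
    map_zero, Pi.zero_apply]
  refine Subtype.ext (AddMonoidHom.ext fun z => ?_)
  show p ^ n • (_ : ZMod (p ^ n)) = 0
  rw [nsmul_eq_mul, ZMod.natCast_self, zero_mul]

section Pseudo

variable {X} {P : PseudoChar GG X.TR} (hP : X.IsTracePseudo P)

include hP in
theorem IsTracePseudo.piece_quadratic (σ : GG) (w : X.Piece hA Z e n) :
    X.pieceAct hA Z e n σ (X.pieceAct hA Z e n σ w) + P.det σ • w =
      P.tr σ • X.pieceAct hA Z e n σ w := by
  refine DFunLike.congr_fun (X.piece_ext hA Z e n
    (f := (X.pieceU hA Z e n σ).comp (X.pieceU hA Z e n σ) +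
      DistribSMul.toAddMonoidHom _ (P.det σ))
    (f' := (DistribSMul.toAddMonoidHom _ (P.tr σ)).comp (X.pieceU hA Z e n σ)) fun g x => ?_) w
  show X.pieceU hA Z e n σ (X.pieceU hA Z e n σ (X.pieceGen hA Z e n g x)) +
    P.det σ • X.pieceGen hA Z e n g x = P.tr σ • X.pieceU hA Z e n σ (X.pieceGen hA Z e n g x)
  rw [X.pieceU_gen, X.pieceU_gen, X.smul_pieceGen, X.smul_pieceGen, hP.det_eq]
  refine X.pieceVal_injective hA Z e n ((map_add (X.pieceVal hA Z e n) _ _).trans ?_)
  rw [X.pieceVal_gen, X.pieceVal_gen, X.pieceVal_gen, X.embW_cycT, hP.embW_tr hA Z n σ e x]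
  exact quadratic_of_central (X.eigU hA Z e n) (X.eigC hA e n) σ g
    ((X.exists_isTrLift hA Z n σ).2 e _) (X.central_cyc hA Z e n σ g) _

end Pseudo

/-- Faithfulness up to the shift of saturation. -/
theorem mem_of_kills (t : X.TR) (h : ∀ e (w : X.Piece hA Z e n), t • w = 0) :
    t ∈ Ideal.span {(p : X.TR) ^ (n - X.trShift)} := by
  refine X.exists_trace_shift.choose_spec n t fun e x => (X.embW_eq_zero_iff hA e n _).mp ?_
  have h1 := congrArg (X.pieceVal hA Z e n)
    ((X.smul_pieceGen hA Z e n t 1 x).symm.trans (h e (X.pieceGen hA Z e n 1 x)))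
  rwa [X.pieceVal_gen, map_one, endOne_apply, map_zero] at h1

local notation "HH" => Hpar (Gamma1 M) (ZMod (p ^ n))

/-- The coordinates of the piece. -/
def pieceCoord : X.Piece hA Z e n →+ (Fin (X.coordDim n) → HH) :=
  (hparEquiv (X.coord n)).toAddMonoidHom.comp
    ((X.Eig hA e n).subtype.comp (X.pieceVal hA Z e n))

theorem pieceCoord_injective : Function.Injective (X.pieceCoord hA Z e n) := fun _ _ h =>
  X.pieceVal_injective hA Z e n (Subtype.ext ((hparEquiv (X.coord n)).injective h))

/-- A coefficient on coordinates. -/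
def coordScal (a : X.Coef) : AddMonoid.End (Fin (X.coordDim n) → HH) :=
  (hparEquiv (X.coord n)).toAddMonoidHom.comp
    ((scal a).comp (hparEquiv (X.coord n)).symm.toAddMonoidHom)

/-- The twist on coordinates. -/
def coordTw : GG →* AddMonoid.End (Fin (X.coordDim n) → HH) where
  toFun σ := X.coordScal (M := M) n (X.half e (expo X.level σ) : X.Coef)
  map_one' := AddMonoidHom.ext fun f => by
    show hparEquiv (X.coord n) (scal _ ((hparEquiv (X.coord n)).symm f)) = f
    rw [map_one, map_one, Units.val_one, map_one, endOne_apply, AddEquiv.apply_symm_apply]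
  map_mul' σ τ := AddMonoidHom.ext fun f => by
    show hparEquiv (X.coord n) (scal _ ((hparEquiv (X.coord n)).symm f)) =
      hparEquiv (X.coord n) (scal _ ((hparEquiv (X.coord n)).symm
        (hparEquiv (X.coord n) (scal _ ((hparEquiv (X.coord n)).symm f)))))
    rw [AddEquiv.symm_apply_apply, map_mul, map_mul, Units.val_mul, map_mul, endMul_apply]

theorem pieceCoord_act (σ : GG) (w : X.Piece hA Z e n) :
    X.pieceCoord hA Z e n (X.pieceAct hA Z e n σ w) =
      X.coordTw e n σ fun i => (Z.gt n).act σ (X.pieceCoord hA Z e n w i) := rfl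

theorem coordTw_comm (σ τ : GG) (f : Fin (X.coordDim n) → HH) :
    X.coordTw e n σ (fun i => (Z.gt n).act τ (f i)) =
      fun i => (Z.gt n).act τ (X.coordTw e n σ f i) := by
  have h : (hparEquiv (X.coord n)).symm (fun i => (Z.gt n).act τ (f i)) =
      extEnd (X.coord n) ((Z.gt n).act τ) ((hparEquiv (X.coord n)).symm f) :=
    (congrArg (fun f' => (hparEquiv (X.coord n)).symm fun i => (Z.gt n).act τ (f' i))
      ((hparEquiv (X.coord n)).apply_symm_apply f)).symm
  show hparEquiv (X.coord n) (scal _ ((hparEquiv (X.coord n)).symm _)) = _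
  rw [h, ← X.ext_scal]
  exact funext fun i => coordHpar_extEnd (X.coord n) _ _ i

include hA in
theorem coordTw_fix (σ : GG) (h : ∀ ζ : LL, ζ ^ M = 1 → σ ζ = ζ) :
    X.coordTw (M := M) e n σ = 1 := by
  have h1 : expo X.level σ = 1 := expo_one fun ζ hζ => h ζ (by
    obtain ⟨r, hr⟩ := hA.dvd
    rw [hr, pow_mul, hζ, one_pow])
  refine AddMonoidHom.ext fun f => ?_
  show hparEquiv (X.coord n) (scal _ ((hparEquiv (X.coord n)).symm f)) = f
  rw [h1, map_one, Units.val_one, map_one, endOne_apply, AddEquiv.apply_symm_apply]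

include hA in
theorem coordTw_inertia {V : ValuationSubring LL} (hV : V.LiesOverPrime p) (σ : GG)
    (hσ : σ ∈ V.inertiaSubgroupIn ℚ) : X.coordTw (M := M) e n σ = 1 := by
  refine AddMonoidHom.ext fun f => ?_
  show hparEquiv (X.coord n) (scal _ ((hparEquiv (X.coord n)).symm f)) = f
  rw [expo_inertia Fact.out (fun h => hA.not_dvd (h.trans hA.dvd)) hV hσ, map_one, Units.val_one,
    map_one, endOne_apply, AddEquiv.apply_symm_apply]

end Aux

/-- Gluing of two twisted coordinate actions. -/
theorem append_act {H : Type*} [AddCommGroup H] {d d' : ℕ} (f : AddMonoid.End H) (a : Fin d → H)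
    (b : Fin d' → H) : (fun i => f (Fin.append a b i)) =
      Fin.append (fun i => f (a i)) fun i => f (b i) :=
  funext fun i => Fin.addCases (fun i => by simp) (fun i => by simp) i

namespace Aux

variable [Nontrivial (X.Mod false)] {X} {P : PseudoChar GG X.TR} (hP : X.IsTracePseudo P)

theorem IsTracePseudo.torsion_rep (hX : Geometry X) :
    ∃ (M' : ℕ) (_ : NeZero M') (Z : Realisation p M') (s : ℕ), X.Allowed M' ∧
    ∀ n : ℕ, ∃ (W : Type) (_ : AddCommGroup W) (_ : Module X.TR W) (_ : Finite W)
      (actW : GG →* Module.End X.TR W),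
      (∀ w : W, p ^ n • w = 0) ∧
      (∀ (σ : GG) (w : W),
        actW σ (actW σ w) + detGL (hP.rep σ) • w = trGL (hP.rep σ) • actW σ w) ∧
      (∀ t : X.TR, (∀ w : W, t • w = 0) → t ∈ Ideal.span {(p : X.TR) ^ (n - s)}) ∧
      ∃ (d : ℕ)
        (j : W →+ (Fin d → PeriodHecke.Hpar (CongruenceSubgroup.Gamma1 M') (ZMod (p ^ n))))
        (tw : GG →* AddMonoid.End
          (Fin d → PeriodHecke.Hpar (CongruenceSubgroup.Gamma1 M') (ZMod (p ^ n)))),
        Function.Injective j ∧
        (∀ σ : GG, (∀ ζ : LL, ζ ^ M' = 1 → σ ζ = ζ) → tw σ = 1) ∧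
        (∀ V : ValuationSubring LL, V.LiesOverPrime p →
          ∀ σ ∈ V.inertiaSubgroupIn ℚ, tw σ = 1) ∧
        (∀ σ τ : GG, ∀ f, tw σ (fun i => (Z.gt n).act τ (f i)) =
          fun i => (Z.gt n).act τ (tw σ f i)) ∧
        ∀ (σ : GG) (w : W), j (actW σ w) = tw σ fun i => (Z.gt n).act σ (j w i) := by
  obtain ⟨M', hM', hA, ⟨Z⟩⟩ := hX.1
  refine ⟨M', hM', Z, X.trShift, hA, fun n => ?_⟩
  refine ⟨X.Piece hA Z false n × X.Piece hA Z true n, inferInstance, inferInstance, inferInstance,
    { toFun := fun σ => (X.pieceAct hA Z false n σ).prodMap (X.pieceAct hA Z true n σ)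
      map_one' := by rw [map_one, map_one]; exact LinearMap.prodMap_id
      map_mul' := fun σ τ => by rw [map_mul, map_mul]; rfl }, fun w => ?_, fun σ w => ?_,
    fun t h => ?_, X.coordDim n + X.coordDim n, ?_⟩
  · exact Prod.ext (X.pow_smul_coordinates hA Z false n w.1) (X.pow_smul_coordinates hA Z true n w.2)
  · rw [hP.det_rep, hP.tr_rep]
    exact Prod.ext (hP.piece_quadratic hA Z false n σ w.1) (hP.piece_quadratic hA Z true n σ w.2)
  · refine X.mem_of_kills hA Z n t fun e w => ?_
    cases e
    · exact congrArg Prod.fst (h (w, 0))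
    · exact congrArg Prod.snd (h (0, w))
  let j : X.Piece hA Z false n × X.Piece hA Z true n →+
      (Fin (X.coordDim n + X.coordDim n) → Hpar (Gamma1 M') (ZMod (p ^ n))) :=
    AddMonoidHom.mk' (fun w => Fin.append (X.pieceCoord hA Z false n w.1)
      (X.pieceCoord hA Z true n w.2)) fun w w' => funext fun i => by
        refine Fin.addCases (fun i => ?_) (fun i => ?_) i <;>
          simp only [Pi.add_apply, Fin.append_left, Fin.append_right, map_add, Prod.fst_add, Prod.snd_add]
  let tw : GG →* AddMonoid.End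
      (Fin (X.coordDim n + X.coordDim n) → Hpar (Gamma1 M') (ZMod (p ^ n))) :=
    { toFun := fun σ => AddMonoidHom.mk'
        (fun f => Fin.append (X.coordTw false n σ fun i => f (Fin.castAdd _ i))
          (X.coordTw true n σ fun i => f (Fin.natAdd _ i))) fun f f' => funext fun i => by
        refine Fin.addCases (fun i => ?_) (fun i => ?_) i <;> simp only [Pi.add_apply, Fin.append_left,
          Fin.append_right] <;> exact congrFun (map_add _ _ _) i
      map_one' := AddMonoidHom.ext fun f => funext fun i => by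
        refine Fin.addCases (fun i => ?_) (fun i => ?_) i <;>
          simp only [AddMonoidHom.mk'_apply, Fin.append_left, Fin.append_right, map_one] <;> rfl
      map_mul' := fun σ τ => AddMonoidHom.ext fun f => by
        show Fin.append _ _ = Fin.append
          (X.coordTw false n σ fun i => Fin.append (X.coordTw false n τ fun i => f (Fin.castAdd _ i))
            (X.coordTw true n τ fun i => f (Fin.natAdd _ i)) (Fin.castAdd _ i))
          (X.coordTw true n σ fun i => Fin.append (X.coordTw false n τ fun i => f (Fin.castAdd _ i))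
            (X.coordTw true n τ fun i => f (Fin.natAdd _ i)) (Fin.natAdd _ i))
        simp only [Fin.append_left, Fin.append_right, map_mul, endMul_apply] }
  have htw : ∀ σ, (∀ e, X.coordTw (M := M') e n σ = 1) → tw σ = 1 := fun σ hs =>
    AddMonoidHom.ext fun f => funext fun i => by
      refine Fin.addCases (fun i => ?_) (fun i => ?_) i <;>
        simp only [tw, MonoidHom.coe_mk, OneHom.coe_mk, AddMonoidHom.mk'_apply, Fin.append_left,
          Fin.append_right, hs] <;> rfl
  refine ⟨j, tw, fun w w' h => ?_, fun σ h => htw σ fun e => X.coordTw_fix hA e n σ h,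
    fun V hV σ hσ => htw σ fun e => X.coordTw_inertia hA e n hV σ hσ, fun σ τ f => ?_,
    fun σ w => ?_⟩
  · exact Prod.ext
      (X.pieceCoord_injective hA Z false n (funext fun i => by
        simpa only [j, AddMonoidHom.mk'_apply, Fin.append_left] using congrFun h (Fin.castAdd _ i)))
      (X.pieceCoord_injective hA Z true n (funext fun i => by
        simpa only [j, AddMonoidHom.mk'_apply, Fin.append_right] using congrFun h (Fin.natAdd _ i)))
  · show Fin.append _ _ = fun i => (Z.gt n).act τ (Fin.append _ _ i)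
    rw [append_act, X.coordTw_comm Z false n σ τ, X.coordTw_comm Z true n σ τ]
  · show Fin.append _ _ = Fin.append
      (X.coordTw false n σ fun i => (Z.gt n).act σ (Fin.append _ _ (Fin.castAdd _ i)))
      (X.coordTw true n σ fun i => (Z.gt n).act σ (Fin.append _ _ (Fin.natAdd _ i)))
    simp only [Fin.append_left, Fin.append_right]
    rfl

end Aux

end FLTAgent.Lowering
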