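import Fermat.Agent.Lowering.P4.TraceLocal
import Fermat.Agent.Lowering.P4.TraceTorsion
import Fermat.Agent.Lowering.P4.TraceBase

/-!
# The modules at all levels
-/

set_option autoImplicit false

noncomputable section

set_option synthInstance.maxHeartbeats 400000
set_option maxHeartbeats 1000000

open IsLocalRing FLTAgent.Lowering.Cocycle FLTAgent.EigenReps

namespace FLTAgent.Lowering

local notation "LL" => AlgebraicClosure ℚ
local notation "GG" => (AlgebraicClosure ℚ ≃ₐ[ℚ] AlgebraicClosure ℚ)

variable {p : ℕ} [Fact p.Prime] {O : Type} [CommRing O] [IsDomain O] [IsDiscreteValuationRing O]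
  [Algebra ℤ_[p] O] [Module.Finite ℤ_[p] O] [CharZero O] {S : Setup p O} (X : Aux S)

namespace Aux

theorem exists_pseudo (hX : Geometry X) : ∃ P : PseudoChar GG X.TR, X.IsTracePseudo P := by
  obtain ⟨M, hM, hA, ⟨Z⟩⟩ := hX.1
  exact X.exists_tracePseudo hA Z

/-- The pseudo-character of a level. -/
def pseudo (hX : Geometry X) : PseudoChar GG X.TR := (X.exists_pseudo hX).choose

theorem pseudo_spec (hX : Geometry X) : X.IsTracePseudo (X.pseudo hX) :=
  (X.exists_pseudo hX).choose_spec

/-- The data of a level. -/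
def levelData (hX : Geometry X) : LevelData X :=
  haveI := X.isLocalRing_TR
  { M := X.Mod
    finite := fun e => (X.mod_finite_free e).1
    free := fun e => (X.mod_finite_free e).2
    R := X.TR
    finite_R := X.finite_TR
    red := X.redTR
    act := X.actTR
    faithful := X.actTR_faithful
    ρ := (X.pseudo_spec hX).rep
    generated := (X.pseudo_spec hX).adjoin_traces
    det_cyclotomic := (X.pseudo_spec hX).det_cyclotomic
    continuous := (X.pseudo_spec hX).continuous_rep
    residual := fun σ => (congrArg X.redTR ((X.pseudo_spec hX).tr_rep σ)).trans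
      ((X.pseudo_spec hX).residual σ)
    unramified := fun _ hl hlp hlN _ hV _ hσ =>
      (X.pseudo_spec hX).unramified_rep hX hl hlp hlN hV hσ
    unipotent := fun _ hl hlM hlT _ hV _ hσ =>
      (X.pseudo_spec hX).unipotent_rep hX hl hlM hlT hV hσ
    inertia_T_untwisted := fun _ ht _ hV _ hσ => (X.pseudo_spec hX).untwisted_rep hX ht hV hσ
    inertia_T_twisted := fun _ ht _ hV _ hσ _ hc =>
      (X.pseudo_spec hX).twisted_rep hX ht hV hσ hc
    inertia_Q := fun _ hq _ hV _ hσ _ hc e => (X.pseudo_spec hX).auxiliary_rep hX hq hV hσ hc e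
    congr := X.congrEquiv
    congr_act := X.congrEquiv_act
    congr_smul := X.congrEquiv_smul
    torsion := (X.pseudo_spec hX).torsion_rep hX }

theorem half_empty_false (u : (ZMod (Aux.empty S).level)ˣ) : (Aux.empty S).half false u = 1 := by
  refine (Aux.empty S).half_eq_one (Units.ext ?_)
  rw [(Aux.empty S).chiU_eq, Subsingleton.elim ((Aux.empty S).dia u) 1, map_one, mul_one]
  simp [Setup.eps, ← MonoidAlgebra.one_def]

theorem base_forms (hX : Geometry (Aux.empty S)) :
    ∃ f : CuspForm.heckeAlgebra S.M0 2 (↑S.bad : Set ℕ) →+*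
        Module.End (Aux.empty S).Coef ((Aux.empty S).Mod false),
      ∀ (l : ℕ) (hl : l.Prime) (hlM : ¬ l ∣ S.M0) (hlb : l ∉ (↑S.bad : Set ℕ)),
        ∀ V : ValuationSubring LL, V.LiesOverPrime l → ∀ σ : GG, V.IsFrobeniusAt σ l →
          f (CuspForm.heckeAlgebra.T hl hlM hlb) =
            (Aux.empty S).actTR false (trGL (((Aux.empty S).pseudo_spec hX).rep σ)) := by
  obtain ⟨f, hf⟩ := exists_base_forms S
  refine ⟨f, fun l hl hlM hlb V hV σ hσ => ?_⟩
  let L : (Aux.empty S).TrPrime := ⟨⟨l, hl, hlb⟩, not_dvd_level_empty S ⟨l, hl, hlb⟩⟩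
  rw [hf l hl hlM hlb, ((Aux.empty S).pseudo_spec hX).tr_rep,
    ((Aux.empty S).pseudo_spec hX).frob L V hV σ hσ, (Aux.empty S).actTR_trace]
  rw [genE, half_empty_false, Units.val_one, one_smul]

end Aux

/-- **The modules at all levels.** -/
theorem targetModules : TargetModules := by
  intro p _ O _ _ _ _ _ _ S h0
  exact ⟨{
    base := (Aux.empty S).levelData h0
    base_nontrivial := Aux.nontrivial_mod_empty S
    base_forms := Aux.base_forms h0
    level := fun X hX => X.levelData hX
    res := fun X _ => X.resTR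
    res_trace := fun X hX σ =>
      (congrArg X.resTR ((X.pseudo_spec hX).tr_rep σ)).trans
        ((X.resTR_pseudo (X.pseudo_spec hX) ((Aux.empty S).pseudo_spec h0) σ).trans
          (((Aux.empty S).pseudo_spec h0).tr_rep σ).symm)
    coinv := fun X _ e => X.coinv e
    coinv_surjective := fun X _ e => X.coinv_surjective e
    coinv_eq_zero_iff := fun X _ e x => X.coinv_eq_zero_iff e x
    coinv_act := fun X _ e t x => X.coinv_actTR e t x
    coinv_congr := fun X _ x y h => X.coinv_congrEquiv x y h }⟩

end FLTAgent.Lowering
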