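import Fermat.Agent.Lowering.P4.Localisation

/-!
# Freeness of the localised classes

As an exact functor of the coefficients, localised classes of a finitely generated module are
obtained from a fixed finite basis of the localised classes of the coefficient ring.
-/

set_option autoImplicit false

noncomputable section

set_option synthInstance.maxHeartbeats 400000
set_option maxHeartbeats 800000

open IsLocalRing

namespace FLTAgent.Lowering.Cocycle

variable {M : ℕ} [NeZero M] {O : Type} [CommRing O] {A : Type} [CommRing A] [Algebra O A]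
  {χ : ZMod M →* A} {bad : Finset ℕ} {k : Type} [Field k] {θ : Poly O bad →+* k}
  {ι : Type} [Fintype ι]

/-- The comparison with a power of the coefficients. -/
def comparison (b : ι → Loc χ A θ) (N : Type) [AddCommGroup N] [Module A N] :
    (ι → N) →ₗ[A] Loc χ N θ where
  toFun n := ∑ i, mapLoc χ θ (LinearMap.toSpanSingleton A N (n i)) (b i)
  map_add' n n' := by
    rw [← Finset.sum_add_distrib]
    refine Finset.sum_congr rfl fun i _ => ?_
    rw [← mapLoc_add]
    exact congrArg (fun f => mapLoc χ θ f (b i)) (LinearMap.ext fun a => by simp [smul_add])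
  map_smul' a n := by
    rw [RingHom.id_apply, Finset.smul_sum]
    refine Finset.sum_congr rfl fun i _ => ?_
    rw [← mapLoc_lsmul]
    exact congrArg (fun f => mapLoc χ θ f (b i)) (LinearMap.ext fun x => by simp [smul_comm a])

variable {N N' : Type} [AddCommGroup N] [Module A N] [AddCommGroup N'] [Module A N']

theorem comparison_natural (b : ι → Loc χ A θ) (f : N →ₗ[A] N') (n : ι → N) :
    mapLoc χ θ f (comparison b N n) = comparison b N' (f ∘ n) := by
  show mapLoc χ θ f (∑ i, mapLoc χ θ (LinearMap.toSpanSingleton A N (n i)) (b i)) = _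
  rw [map_sum]
  refine Finset.sum_congr rfl fun i _ => ?_
  rw [mapLoc_comp]
  exact congrArg (fun g => mapLoc χ θ g (b i)) (LinearMap.ext fun a => by simp)

variable [IsLocalRing A] [IsNoetherianRing A] (hfinA : ∀ n : ℕ, Finite (A ⧸ maximalIdeal A ^ n))
  (hχ : χ (-1) = 1) (h6 : IsUnit (6 : A)) {l : GoodPrime bad} (hl : Separating χ θ l)
  (b : ι → Loc χ A θ)

include hfinA in
theorem finite_of_pow_smul_eq_bot {n : ℕ} [Module.Finite A N]
    (h : (maximalIdeal A ^ n • ⊤ : Submodule A N) = ⊥) : Finite N := by
  obtain ⟨d, g, hg⟩ := Module.Finite.exists_fin' A N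
  haveI := hfinA n
  haveI : Finite (Fin d → A ⧸ maximalIdeal A ^ n) := Pi.finite
  refine Finite.of_surjective (fun v : Fin d → A ⧸ maximalIdeal A ^ n => g fun i => (v i).out)
    fun x => ?_
  obtain ⟨a, rfl⟩ := hg x
  refine ⟨fun i => Ideal.Quotient.mk _ (a i), sub_eq_zero.mp ?_⟩
  rw [← map_sub, ← (Submodule.mem_bot A), ← h]
  have : ∀ v : Fin d → A, (∀ i, v i ∈ maximalIdeal A ^ n) →
      g v ∈ (maximalIdeal A ^ n • ⊤ : Submodule A N) := fun v hv => by
    rw [pi_eq_sum_univ v, map_sum]
    refine Submodule.sum_mem _ fun i _ => ?_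
    rw [map_smul]
    exact Submodule.smul_mem_smul (hv i) Submodule.mem_top
  exact this _ fun i => Ideal.Quotient.eq.mp (Ideal.Quotient.mk_out _)

omit [IsNoetherianRing A] in
/-- A nonzero finite module has a nonzero element killed by the maximal ideal. -/
theorem exists_socle [Finite N] [Nontrivial N] : ∃ x : N, x ≠ 0 ∧ ∀ a ∈ maximalIdeal A, a • x = 0 := by
  classical
  haveI := Fintype.ofFinite (Submodule A N)
  obtain ⟨P, hP, hmin⟩ := Finset.exists_min_image
    (Finset.univ.filter fun P : Submodule A N => P ≠ ⊥) (fun P => Nat.card P)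
    ⟨⊤, Finset.mem_filter.mpr ⟨Finset.mem_univ _, top_ne_bot⟩⟩
  rw [Finset.mem_filter] at hP
  obtain ⟨x, hxP, hx⟩ := Submodule.exists_mem_ne_zero_of_ne_bot hP.2
  refine ⟨x, hx, fun a ha => by_contra fun hax => ?_⟩
  have hle : Submodule.span A {a • x} ≤ P :=
    (Submodule.span_singleton_le_iff_mem _ _).mpr (P.smul_mem a hxP)
  have heq : Submodule.span A {a • x} = P := by
    refine SetLike.coe_injective (Set.Finite.eq_of_subset_of_card_le (Set.toFinite _) hle ?_)
    exact hmin _ (Finset.mem_filter.mpr ⟨Finset.mem_univ _,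
      (Submodule.span_singleton_eq_bot.not.mpr hax)⟩)
  obtain ⟨c, hc⟩ := Submodule.mem_span_singleton.mp (heq.ge hxP)
  have hu : IsUnit (1 - c * a) := isUnit_one_sub_self_of_mem_nonunits _
    ((IsLocalRing.mem_maximalIdeal _).mp (Ideal.mul_mem_left _ c ha))
  refine hx (hu.smul_eq_zero.mp ?_)
  rw [sub_smul, one_smul, mul_smul, hc, sub_self]

include hfinA hχ h6 hl in
theorem comparison_bijective_of_finite
    (hb : Function.Bijective (comparison b (A ⧸ maximalIdeal A))) :
    ∀ (m : ℕ) (N : Type) [AddCommGroup N] [Module A N] [Finite N], Nat.card N ≤ m →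
      Function.Bijective (comparison b N) := by
  intro m
  induction m with
  | zero =>
    intro N _ _ _ h
    exact absurd h (not_le.mpr Nat.card_pos)
  | succ m ih =>
    intro N _ _ _ hm
    classical
    rcases subsingleton_or_nontrivial N with hN | hN
    · haveI : Subsingleton (Loc χ N θ) := by
        refine ⟨fun x y => ?_⟩
        rw [← mapLoc_id χ θ x, ← mapLoc_id χ θ y,
          show (LinearMap.id : N →ₗ[A] N) = (0 : A) • LinearMap.id from
            LinearMap.ext fun v => Subsingleton.elim _ _, mapLoc_lsmul, mapLoc_lsmul, zero_smul,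
          zero_smul]
      exact ⟨Function.injective_of_subsingleton _, fun y => ⟨0, Subsingleton.elim _ _⟩⟩
    obtain ⟨x, hx, hkill⟩ := exists_socle (A := A) (N := N)
    let j : (A ⧸ maximalIdeal A) →ₗ[A] N :=
      Submodule.liftQ (maximalIdeal A) (LinearMap.toSpanSingleton A N x) fun a ha => by
        simpa using hkill a ha
    have hj : Function.Injective j := by
      rw [← LinearMap.ker_eq_bot, LinearMap.ker_eq_bot']
      intro q hq
      obtain ⟨a, rfl⟩ := Submodule.Quotient.mk_surjective _ q
      rw [Submodule.Quotient.mk_eq_zero]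
      by_contra ha
      refine hx ((not_not.mp fun hu => ha ((IsLocalRing.mem_maximalIdeal a).mpr hu) :
        IsUnit a).smul_eq_zero.mp ?_)
      exact (LinearMap.toSpanSingleton_apply A N x a).symm.trans hq
    let π : N →ₗ[A] N ⧸ LinearMap.range j := (LinearMap.range j).mkQ
    haveI : Finite (N ⧸ LinearMap.range j) := Finite.of_surjective _ (Submodule.mkQ_surjective _)
    have hπ : Function.Surjective π := Submodule.mkQ_surjective _
    have hcard : Nat.card (N ⧸ LinearMap.range j) ≤ m := by
      have h1 := Submodule.card_eq_card_quotient_mul_card (LinearMap.range j)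
      have h2 : 2 ≤ Nat.card (LinearMap.range j) := by
        haveI : Nontrivial (LinearMap.range j) :=
          ⟨⟨⟨x, ⟨Submodule.Quotient.mk 1, (LinearMap.toSpanSingleton_apply A N x 1).trans (one_smul A x)⟩⟩, 0, fun h => hx (congrArg Subtype.val h)⟩⟩
        exact Finite.one_lt_card
      have h3 : 0 < Nat.card (N ⧸ LinearMap.range j) := Nat.card_pos
      nlinarith
    have hquot := ih _ hcard
    refine ⟨?_, fun y => ?_⟩
    · rw [← LinearMap.ker_eq_bot, LinearMap.ker_eq_bot']
      intro n hn
      have h1 : comparison b (N ⧸ LinearMap.range j) (π ∘ n) = 0 := by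
        rw [← comparison_natural, hn, map_zero]
      have h2 := hquot.1 (h1.trans (map_zero _).symm)
      have h3 : ∀ i, ∃ q, j q = n i := fun i =>
        (Submodule.Quotient.mk_eq_zero _).mp (congrFun h2 i)
      choose q hq using h3
      obtain rfl : j ∘ q = n := funext hq
      rw [← comparison_natural] at hn
      rw [hb.1 ((mapLoc_injective χ θ hl j hj (hn.trans (map_zero _).symm)).trans (map_zero _).symm)]
      exact funext fun i => map_zero j
    · obtain ⟨n', hn'⟩ := hquot.2 (mapLoc χ θ π y)
      choose n hn using fun i => hπ (n' i)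
      have h1 : mapLoc χ θ π (y - comparison b N n) = 0 := by
        rw [map_sub, comparison_natural, show π ∘ n = n' from funext hn, hn', sub_self]
      obtain ⟨z, hz⟩ := mapLoc_exact χ θ π hπ h1
      let e : LinearMap.ker π →ₗ[A] (A ⧸ maximalIdeal A) :=
        (LinearEquiv.ofInjective j hj).symm.toLinearMap ∘ₗ
          (LinearEquiv.ofEq _ _ (Submodule.ker_mkQ (LinearMap.range j))).toLinearMap
      have he : j ∘ₗ e = (LinearMap.ker π).subtype := LinearMap.ext fun w => by
        show j ((LinearEquiv.ofInjective j hj).symm _) = _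
        exact congrArg Subtype.val ((LinearEquiv.ofInjective j hj).apply_symm_apply _)
      rw [← he, ← mapLoc_comp] at hz
      obtain ⟨q, hq⟩ := hb.2 (mapLoc χ θ e z)
      refine ⟨n + j ∘ q, ?_⟩
      rw [map_add, ← comparison_natural, hq, hz, add_sub_cancel]

include hfinA hχ h6 hl in
theorem comparison_injective (hb : Function.Bijective (comparison b (A ⧸ maximalIdeal A)))
    [Module.Finite A N] : Function.Injective (comparison b N) := by
  rw [← LinearMap.ker_eq_bot, LinearMap.ker_eq_bot']
  intro n hn
  refine funext fun i => IsHausdorff.haus (inferInstance : IsHausdorff (maximalIdeal A) N) (n i)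
    fun j => ?_
  set P : Submodule A N := maximalIdeal A ^ j • ⊤ with hP
  haveI : Finite (N ⧸ P) := by
    refine finite_of_pow_smul_eq_bot hfinA (n := j) ?_
    rw [eq_bot_iff, Submodule.smul_le]
    intro a ha q _
    obtain ⟨q, rfl⟩ := Submodule.Quotient.mk_surjective _ q
    rw [Submodule.mem_bot, ← Submodule.Quotient.mk_smul, Submodule.Quotient.mk_eq_zero]
    exact Submodule.smul_mem_smul ha Submodule.mem_top
  have h := comparison_natural b P.mkQ n
  rw [hn, map_zero] at h
  have h2 := congrFun ((comparison_bijective_of_finite hfinA hχ h6 hl b hb _ _ le_rfl).1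
    (h.symm.trans (map_zero _).symm)) i
  rw [SModEq.zero]
  exact (Submodule.Quotient.mk_eq_zero P).mp h2

include hfinA hχ h6 hl in
theorem comparison_surjective (hb : Function.Bijective (comparison b (A ⧸ maximalIdeal A)))
    [Module.Finite A N] [Module.Finite A (Loc χ N θ)] :
    Function.Surjective (comparison b N) := by
  obtain ⟨d, x, hx⟩ := Submodule.fg_iff_exists_fin_generating_family.mp
    (IsNoetherian.noetherian (maximalIdeal A))
  set P : Submodule A N := maximalIdeal A • ⊤ with hP
  let g : (Fin d → N) →ₗ[A] N := ∑ i, x i • LinearMap.proj i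
  have hg : LinearMap.range g = P := by
    refine le_antisymm ?_ ?_
    · rintro _ ⟨v, rfl⟩
      simp only [g, LinearMap.coe_sum, Finset.sum_apply, LinearMap.smul_apply, LinearMap.proj_apply]
      exact Submodule.sum_mem _ fun i _ =>
        Submodule.smul_mem_smul (hx.le (Submodule.subset_span ⟨i, rfl⟩)) Submodule.mem_top
    · rw [hP, Submodule.smul_le]
      intro a ha v _
      rw [← hx, Submodule.mem_span_range_iff_exists_fun] at ha
      obtain ⟨c, rfl⟩ := ha
      refine ⟨fun i => c i • v, ?_⟩
      simp [g, Finset.sum_smul, smul_smul, mul_comm]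
  haveI : Finite (N ⧸ P) := by
    refine finite_of_pow_smul_eq_bot hfinA (n := 1) ?_
    rw [pow_one, eq_bot_iff, Submodule.smul_le]
    intro a ha q _
    obtain ⟨q, rfl⟩ := Submodule.Quotient.mk_surjective _ q
    rw [Submodule.mem_bot, ← Submodule.Quotient.mk_smul, Submodule.Quotient.mk_eq_zero]
    exact Submodule.smul_mem_smul ha Submodule.mem_top
  rw [← LinearMap.range_eq_top]
  refine top_le_iff.mp (Submodule.le_of_le_smul_of_le_jacobson_bot Module.Finite.fg_top
    (maximalIdeal_le_jacobson _) ?_)
  intro y _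
  obtain ⟨n', hn'⟩ := (comparison_bijective_of_finite hfinA hχ h6 hl b hb _ _ le_rfl).2
    (mapLoc χ θ P.mkQ y)
  choose n hn using fun i => P.mkQ_surjective (n' i)
  have h1 : mapLoc χ θ P.mkQ (y - comparison b N n) = 0 := by
    rw [map_sub, comparison_natural, show P.mkQ ∘ n = n' from funext hn, hn', sub_self]
  obtain ⟨z, hz⟩ := mapLoc_exact χ θ P.mkQ P.mkQ_surjective h1
  let g' : (Fin d → N) →ₗ[A] LinearMap.ker P.mkQ :=
    g.codRestrict _ fun v => by rw [Submodule.ker_mkQ, ← hg]; exact ⟨v, rfl⟩
  have hg' : Function.Surjective g' := fun w => by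
    obtain ⟨v, hv⟩ := hg.ge (by simpa using w.2 : (w : N) ∈ P)
    exact ⟨v, Subtype.ext hv⟩
  obtain ⟨v, rfl⟩ := mapLoc_surjective χ θ hχ h6 g' hg' z
  rw [mapLoc_comp, show (LinearMap.ker P.mkQ).subtype ∘ₗ g' = g from LinearMap.ext fun _ => rfl]
    at hz
  rw [← sub_add_cancel y (comparison b N n), ← hz]
  refine Submodule.add_mem _ (Submodule.mem_sup_right ?_) (Submodule.mem_sup_left ⟨n, rfl⟩)
  have hsum : ∀ (s : Finset (Fin d)), mapLoc χ θ (∑ i ∈ s, x i • LinearMap.proj i) v ∈
      (maximalIdeal A • ⊤ : Submodule A (Loc χ N θ)) := by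
    intro s
    induction s using Finset.induction with
    | empty =>
      rw [Finset.sum_empty, show (0 : (Fin d → N) →ₗ[A] N) = (0 : A) • 0 from (zero_smul _ _).symm,
        mapLoc_lsmul, zero_smul]
      exact Submodule.zero_mem _
    | insert i s hi ih =>
      rw [Finset.sum_insert hi, mapLoc_add, mapLoc_lsmul]
      exact Submodule.add_mem _ (Submodule.smul_mem_smul
        (hx.le (Submodule.subset_span ⟨i, rfl⟩)) Submodule.mem_top) ih
  exact hsum _

/-! ### The basis -/

section Basis

variable (p : ℕ) [Fact p.Prime] [Algebra ℤ_[p] O] [Module.Finite ℤ_[p] O] [Module.Finite O A]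

include p in
theorem finite_Loc (hp : (p : k) = 0) [Module.Finite A N] : Module.Finite A (Loc χ N θ) := by
  haveI := finite_Coh O χ bad N
  refine Module.Finite.of_surjective
    ({ toFun := toLoc χ N θ, map_add' := map_add _, map_smul' := fun a x => ?_ } :
      Coh O χ bad N →ₗ[A] Loc χ N θ) (toLoc_surjective χ N θ p hp)
  exact (smul_mk χ N θ a x 1).symm

include p hfinA hχ h6 hl in
/-- **Localised classes are the tensor product with a finite free module.** -/
theorem exists_comparison_bijective (hp : (p : k) = 0) :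
    ∃ (r : ℕ) (b : Fin r → Loc χ A θ), ∀ (N : Type) [AddCommGroup N] [Module A N]
      [Module.Finite A N], Function.Bijective (comparison b N) := by
  classical
  set V := Loc χ (A ⧸ maximalIdeal A) θ
  have hkill : Module.IsTorsionBySet A V (maximalIdeal A : Set A) := by
    rintro x ⟨a, ha⟩
    show a • x = 0
    rw [← mapLoc_id χ θ x, ← mapLoc_lsmul,
      show a • (LinearMap.id : (A ⧸ maximalIdeal A) →ₗ[A] A ⧸ maximalIdeal A) = (0 : A) • LinearMap.id from
        LinearMap.ext fun q => ?_, mapLoc_lsmul, zero_smul]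
    obtain ⟨q, rfl⟩ := Submodule.Quotient.mk_surjective _ q
    rw [LinearMap.smul_apply, LinearMap.smul_apply, LinearMap.id_apply, zero_smul,
      ← Submodule.Quotient.mk_smul, Submodule.Quotient.mk_eq_zero]
    exact Ideal.mul_mem_right _ _ ha
  letI : Field (A ⧸ maximalIdeal A) := Ideal.Quotient.field _
  letI : Module (A ⧸ maximalIdeal A) V := hkill.module
  haveI := finite_Loc (χ := χ) (θ := θ) (N := A ⧸ maximalIdeal A) p hp
  haveI : Module.Finite (A ⧸ maximalIdeal A) V :=
    Module.Finite.of_restrictScalars_finite A (A ⧸ maximalIdeal A) V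
  let e := Module.finBasis (A ⧸ maximalIdeal A) V
  let π : A →ₗ[A] A ⧸ maximalIdeal A := Submodule.mkQ (maximalIdeal A)
  choose b hb using fun i => mapLoc_surjective χ θ hχ h6 π (Submodule.mkQ_surjective _) (e i)
  have key : ∀ q, comparison b (A ⧸ maximalIdeal A) q = (∑ i, q i • e i : V) := fun q => by
    show ∑ i, mapLoc χ θ (LinearMap.toSpanSingleton A (A ⧸ maximalIdeal A) (q i)) (b i) = _
    refine Finset.sum_congr rfl fun i _ => ?_
    obtain ⟨a, ha⟩ := Submodule.Quotient.mk_surjective _ (q i)
    rw [← ha, show LinearMap.toSpanSingleton A (A ⧸ maximalIdeal A) (Submodule.Quotient.mk a) =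
      a • π from LinearMap.ext fun c => ?_, mapLoc_lsmul, hb]
    · rfl
    · rw [LinearMap.toSpanSingleton_apply, LinearMap.smul_apply, ← Submodule.Quotient.mk_smul]
      show _ = a • Submodule.Quotient.mk c
      rw [← Submodule.Quotient.mk_smul, smul_eq_mul, smul_eq_mul, mul_comm]
  have hbij : Function.Bijective (comparison b (A ⧸ maximalIdeal A)) := by
    refine (Function.Bijective.of_comp_iff' (f := id) Function.bijective_id _).mp ?_
    convert e.equivFun.symm.bijective using 1
    funext q
    rw [Function.comp_apply, id, key, Module.Basis.equivFun_symm_apply]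
  refine ⟨_, b, fun N _ _ _ => ?_⟩
  haveI := finite_Loc (χ := χ) (θ := θ) (N := N) p hp
  exact ⟨comparison_injective hfinA hχ h6 hl b hbij, comparison_surjective hfinA hχ h6 hl b hbij⟩

end Basis

end FLTAgent.Lowering.Cocycle
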