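import Fermat.Agent.Lowering.P4.DegeneracyField
import Fermat.Agent.Lowering.P4.Free

/-!
# Change of coefficients and levels for free localised classes
-/

set_option autoImplicit false

noncomputable section

set_option synthInstance.maxHeartbeats 400000

open IsLocalRing

namespace FLTAgent.Lowering.Cocycle

variable {O : Type} [CommRing O] {bad : Finset ℕ} {k : Type} [Field k]

/-! ### Functoriality of restriction -/

section Functorial

variable {M M' M'' : ℕ} [NeZero M] [NeZero M'] [NeZero M''] {A A' A'' : Type} [CommRing A] [CommRing A'] [CommRing A''] [Algebra O A]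
  [Algebra O A'] [Algebra O A''] {χ : ZMod M →* A} {χ' : ZMod M' →* A'} {χ'' : ZMod M'' →* A''}
  {N N' : Type} [AddCommGroup N] [Module A N] [Module A' N] [Module A'' N] [AddCommGroup N']
  [Module A N'] [Module A' N'] {θ θ' θ'' : Poly O bad →+* k}

theorem LevelMap.resLoc_natural (L : LevelMap χ χ' N θ θ') (L' : LevelMap χ χ' N' θ θ')
    (f : N →ₗ[A] N') (f' : N →ₗ[A'] N') (hf : ∀ n, f n = f' n)
    (hsurj : Function.Surjective (toLoc χ N θ)) (x : Loc χ N θ) :
    mapLoc χ' θ' f' (L.resLoc x) = L'.resLoc (mapLoc χ θ f x) := by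
  obtain ⟨m, rfl⟩ := hsurj x
  rw [L.resLoc_toLoc, LevelMap.resTo_apply, LocalizedModule.mkLinearMap_apply, mapLoc_mk,
    LocalizedModule.mkLinearMap_apply, mapLoc_mk, ← LocalizedModule.mkLinearMap_apply,
    ← LocalizedModule.mkLinearMap_apply, L'.resLoc_toLoc, LevelMap.resTo_apply]
  refine congrArg _ ?_
  obtain ⟨z, rfl⟩ := (toCoh O χ bad N).surjective m
  rw [LevelMap.resCoh_toCoh, mapCoh_apply, mapCoh_apply, LevelMap.resCoh_toCoh]
  refine congrArg _ ?_
  induction z using Submodule.Quotient.induction_on with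
  | H c => exact congrArg cls (Subtype.ext (funext fun γ => (hf _).symm))

theorem LevelMap.resLoc_resLoc (L : LevelMap χ χ' N θ θ') (L' : LevelMap χ' χ'' N θ' θ'')
    (L'' : LevelMap χ χ'' N θ θ'') (hsurj : Function.Surjective (toLoc χ N θ)) (x : Loc χ N θ) :
    L'.resLoc (L.resLoc x) = L''.resLoc x := by
  obtain ⟨m, rfl⟩ := hsurj x
  rw [L.resLoc_toLoc, LevelMap.resTo_apply, L'.resLoc_toLoc, L''.resLoc_toLoc,
    LevelMap.resTo_apply, LevelMap.resTo_apply]
  refine congrArg _ ?_
  obtain ⟨z, rfl⟩ := (toCoh O χ bad N).surjective m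
  rw [LevelMap.resCoh_toCoh, LevelMap.resCoh_toCoh, LevelMap.resCoh_toCoh]
  exact congrArg _ (resH1_resH1 L.compat L'.compat L''.compat z)

/-- Scalars of the base ring pass through restriction. -/
theorem LevelMap.resLoc_algebraMap_smul (L : LevelMap χ χ' N θ θ') (r : O) (x : Loc χ N θ) :
    L.resLoc (algebraMap O A r • x) = algebraMap O A' r • L.resLoc x := by
  rw [← C_smul, L.resLoc_C_smul, C_smul]

/-- Compatible scalars pass through restriction. -/
theorem LevelMap.resLoc_smul_of_eq (L : LevelMap χ χ' N θ θ') (a : A) (a' : A')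
    (ha : ∀ n : N, a • n = a' • n) (hsurj : Function.Surjective (toLoc χ N θ)) (x : Loc χ N θ) :
    L.resLoc (a • x) = a' • L.resLoc x := by
  obtain ⟨m, rfl⟩ := hsurj x
  rw [L.resLoc_toLoc, LevelMap.resTo_apply, LocalizedModule.mkLinearMap_apply,
    LocalizedModule.mkLinearMap_apply, smul_mk χ N θ a m 1,
    ← LocalizedModule.mkLinearMap_apply (denom θ), L.resLoc_toLoc, LevelMap.resTo_apply,
    LocalizedModule.mkLinearMap_apply, smul_mk χ' N θ' a' _ 1]
  obtain ⟨z, rfl⟩ := (toCoh O χ bad N).surjective m
  rw [← map_smul (toCoh O χ bad N), L.resCoh_toCoh, L.resCoh_toCoh, resH1_smul L.compat a a' ha,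
    map_smul]

end Functorial

/-! ### Change of the character at a fixed level -/

section Change

variable {M : ℕ} [NeZero M] {A A' : Type} [CommRing A] [CommRing A'] [Algebra O A] [Algebra O A']
  {χ : ZMod M →* A} {χ' : ZMod M →* A'} {N : Type} [AddCommGroup N] [Module A N] [Module A' N]
  {θ : Poly O bad →+* k}

/-- The change of a character to one acting alike. -/
def changeMap (θ : Poly O bad →+* k) (hχ : ∀ d : ZMod M, IsUnit d → ∀ n : N, χ d • n = χ' d • n)
    (hscal : ∀ (r : O) (n : N), algebraMap O A r • n = algebraMap O A' r • n) :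
    LevelMap χ χ' N θ θ where
  dvd := dvd_rfl
  compat d hd n := by
    rw [ZMod.castHom_self]
    exact hχ d hd n
  scal := hscal
  cst _ := 0
  cst_spec l h := absurd h.1 h.2
  sys_C _ := rfl
  sys_old _ _ := rfl
  sys_new l h := absurd h.1 h.2

theorem changeMap_bijective (θ : Poly O bad →+* k)
    (hχ : ∀ d : ZMod M, IsUnit d → ∀ n : N, χ d • n = χ' d • n)
    (hscal : ∀ (r : O) (n : N), algebraMap O A r • n = algebraMap O A' r • n)
    (hsurj : Function.Surjective (toLoc χ N θ)) (hsurj' : Function.Surjective (toLoc χ' N θ)) :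
    Function.Bijective (changeMap θ hχ hscal).resLoc := by
  set L := changeMap θ hχ hscal
  set L' := changeMap θ (fun d hd n => (hχ d hd n).symm) fun r n => (hscal r n).symm
  have h1 : ∀ x, L'.resLoc (L.resLoc x) = x := fun x => by
    obtain ⟨m, rfl⟩ := hsurj x
    rw [L.resLoc_toLoc, LevelMap.resTo_apply, L'.resLoc_toLoc, LevelMap.resTo_apply]
    obtain ⟨z, rfl⟩ := (toCoh O χ bad N).surjective m
    induction z using Submodule.Quotient.induction_on with
    | H c => rfl
  have h2 : ∀ x, L.resLoc (L'.resLoc x) = x := fun x => by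
    obtain ⟨m, rfl⟩ := hsurj' x
    rw [L'.resLoc_toLoc, LevelMap.resTo_apply, L.resLoc_toLoc, LevelMap.resTo_apply]
    obtain ⟨z, rfl⟩ := (toCoh O χ' bad N).surjective m
    induction z using Submodule.Quotient.induction_on with
    | H c => rfl
  exact ⟨fun x y h => by rw [← h1 x, h, h1], fun y => ⟨_, h2 y⟩⟩

end Change

/-! ### Kernels of changes of coefficients -/

section Kernel

variable {M : ℕ} [NeZero M] {A : Type} [CommRing A] [Algebra O A] {χ : ZMod M →* A}
  {θ : Poly O bad →+* k}

variable (χ θ) in
/-- A basis computing localised classes of all finite coefficients. -/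
def IsUniversalBasis {ι : Type} [Fintype ι] (b : ι → Loc χ A θ) : Prop :=
  ∀ (N : Type) [AddCommGroup N] [Module A N] [Module.Finite A N],
    Function.Bijective (comparison b N)

variable {ι : Type} [Fintype ι] {b : ι → Loc χ A θ} (hb : IsUniversalBasis χ θ b)

include hb in
theorem mapLoc_eq_zero_iff {N : Type} [AddCommGroup N] [Module A N] [Module.Finite A N]
    (f : A →ₗ[A] N) (x : Loc χ A θ) :
    mapLoc χ θ f x = 0 ↔ x ∈ (LinearMap.ker f : Ideal A) • (⊤ : Submodule A (Loc χ A θ)) := by
  constructor
  · intro hx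
    obtain ⟨n, rfl⟩ := (hb A).2 x
    rw [comparison_natural, ← map_zero (comparison b N)] at hx
    have hn := fun i => congrFun ((hb N).1 hx) i
    show ∑ i, mapLoc χ θ (LinearMap.toSpanSingleton A A (n i)) (b i) ∈ _
    refine Submodule.sum_mem _ fun i _ => ?_
    rw [show LinearMap.toSpanSingleton A A (n i) = n i • LinearMap.id from
      LinearMap.ext fun a => by simp [mul_comm], mapLoc_lsmul, mapLoc_id]
    exact Submodule.smul_mem_smul (LinearMap.mem_ker.mpr (hn i)) Submodule.mem_top
  · intro hx
    refine Submodule.smul_induction_on hx (fun a ha y _ => ?_) fun y z hy hz => by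
      rw [map_add, hy, hz, add_zero]
    rw [mapLoc_smul, ← mapLoc_lsmul, show a • f = (0 : A) • f from LinearMap.ext fun c => by
      rw [LinearMap.smul_apply, LinearMap.smul_apply, zero_smul, ← map_smul, smul_eq_mul, mul_comm,
        ← smul_eq_mul, map_smul, LinearMap.mem_ker.mp ha, smul_zero], mapLoc_lsmul, zero_smul]

include hb in
theorem free_of_universalBasis : Module.Free A (Loc χ A θ) :=
  Module.Free.of_equiv (LinearEquiv.ofBijective (comparison b A) (hb A))

end Kernel

/-! ### From the residue field to the ring -/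

section Lift

variable {M M' : ℕ} [NeZero M] [NeZero M'] [IsDomain O] [IsDiscreteValuationRing O]
  {χ : ZMod M →* O} {χ' : ZMod M' →* O} {θ θ' : Poly O bad →+* k} {ι ι' : Type} [Fintype ι]
  [Fintype ι'] {b : ι → Loc χ O θ} {b' : ι' → Loc χ' O θ'}

theorem LevelMap.resLoc_bijective_of_residue (L : LevelMap χ χ' O θ θ')
    (L0 : LevelMap χ χ' (ResidueField O) θ θ') (hb : IsUniversalBasis χ θ b)
    (hb' : IsUniversalBasis χ' θ' b') (hsurj : Function.Surjective (toLoc χ O θ))
    (h0 : Function.Bijective L0.resLoc) : Function.Bijective L.resLoc := by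
  set π : O →ₗ[O] ResidueField O := Algebra.linearMap O (ResidueField O)
  have hker : (LinearMap.ker π : Ideal O) = maximalIdeal O := by
    ext x; exact IsLocalRing.residue_eq_zero_iff x
  haveI : Module.Finite O (Loc χ O θ) :=
    Module.Finite.equiv (LinearEquiv.ofBijective (comparison b O) (hb O))
  haveI : Module.Finite O (Loc χ' O θ') :=
    Module.Finite.equiv (LinearEquiv.ofBijective (comparison b' O) (hb' O))
  haveI := free_of_universalBasis hb'
  haveI : Module.Finite O (ResidueField O) :=
    Module.Finite.of_surjective π fun x => IsLocalRing.residue_surjective x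
  have hlin : ∀ (r : O) (x : Loc χ O θ), L.resLoc (r • x) = r • L.resLoc x := fun r x => by
    simpa using L.resLoc_algebraMap_smul r x
  have hnat := L.resLoc_natural L0 π π (fun _ => rfl) hsurj
  let D : Loc χ O θ →ₗ[O] Loc χ' O θ' :=
    { toFun := L.resLoc, map_add' := map_add _, map_smul' := hlin }
  obtain ⟨ϖ, hϖ⟩ := IsDiscreteValuationRing.exists_irreducible O
  have hm : maximalIdeal O = Ideal.span {ϖ} := hϖ.maximalIdeal_eq
  constructor
  · refine (injective_iff_map_eq_zero _).mpr fun x hx => ?_
    have key : ∀ n : ℕ, ∀ y, L.resLoc y = 0 →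
        y ∈ maximalIdeal O ^ n • (⊤ : Submodule O (Loc χ O θ)) := by
      intro n
      induction n with
      | zero => intro y _; simp
      | succ n ih =>
        intro y hy
        have h1 : mapLoc χ θ π y = 0 := h0.1 (by rw [← hnat, hy, map_zero, map_zero])
        have h2 := (mapLoc_eq_zero_iff hb π y).mp h1
        rw [hker, hm, Submodule.ideal_span_singleton_smul] at h2
        obtain ⟨z, -, hz⟩ := (Submodule.mem_smul_pointwise_iff_exists _ _ _).mp h2
        subst hz
        have h3 : L.resLoc z = 0 := by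
          rw [hlin] at hy
          exact (smul_eq_zero.mp hy).resolve_left hϖ.ne_zero
        rw [pow_succ', Submodule.mul_smul]
        exact Submodule.smul_mem_smul (hm ▸ Ideal.mem_span_singleton_self ϖ) (ih z h3)
    exact IsHausdorff.haus (inferInstance : IsHausdorff (maximalIdeal O) (Loc χ O θ)) x fun n =>
      SModEq.zero.mpr (key n x hx)
  · show Function.Surjective D
    rw [← LinearMap.range_eq_top]
    refine top_le_iff.mp (Submodule.le_of_le_smul_of_le_jacobson_bot (I := maximalIdeal O)
      Module.Finite.fg_top (maximalIdeal_le_jacobson _) fun y _ => ?_)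
    obtain ⟨x0, hx0⟩ := h0.2 (mapLoc χ' θ' π y)
    obtain ⟨n, hn⟩ := (hb (ResidueField O)).2 x0
    choose n' hn' using fun i => IsLocalRing.residue_surjective (R := O) (n i)
    have h1 : mapLoc χ θ π (comparison b O n') = x0 := by
      rw [comparison_natural, ← hn]
      exact congrArg _ (funext hn')
    have h2 : mapLoc χ' θ' π (y - D (comparison b O n')) = 0 := by
      show mapLoc χ' θ' π (y - L.resLoc (comparison b O n')) = 0
      rw [map_sub, hnat, h1, hx0, sub_self]
    refine Submodule.mem_sup.mpr ⟨D (comparison b O n'), LinearMap.mem_range_self D _,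
      y - D (comparison b O n'), ?_, add_sub_cancel _ y⟩
    rw [← hker]
    exact (mapLoc_eq_zero_iff hb' π _).mp h2

end Lift

end FLTAgent.Lowering.Cocycle
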