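import Fermat.Agent.Lowering.P4.Interface
import Fermat.Agent.DeligneSerre.Lift
import Fermat.Agent.Frobenius.Global

/-!
# A prime separating the residual system from the invariants

Weak Chebotarev for divisions gives, for every bound on the level, a prime congruent to one at
which the residual trace differs from two.
-/

set_option autoImplicit false

noncomputable section

open NumberField Pointwise IsLocalRing FLTAgent.Frobenius

namespace FLTAgent.Lowering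

local notation "LL" => AlgebraicClosure ℚ
local notation "GG" => (AlgebraicClosure ℚ ≃ₐ[ℚ] AlgebraicClosure ℚ)

section Division

local instance isAlgebraicLLSep : Algebra.IsAlgebraic ℚ (AlgebraicClosure ℚ) :=
  AlgebraicClosure.isAlgebraic ℚ

local instance isAlgClosureLLSep : IsAlgClosure ℚ (AlgebraicClosure ℚ) :=
  ⟨inferInstance, inferInstance⟩

local instance normalLLSep : Normal ℚ (AlgebraicClosure ℚ) := IsAlgClosure.normal ℚ _

local instance isGaloisLLSep : IsGalois ℚ (AlgebraicClosure ℚ) where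

/-- A Frobenius element generates, on a given number field, the same subgroup as a given
automorphism. -/
theorem exists_frobenius_zpowers_eqOn (L : IntermediateField ℚ LL) [FiniteDimensional ℚ L]
    (σ : GG) (S : Finset ℕ) :
    ∃ (ℓ : ℕ) (V : ValuationSubring LL) (τ : GG) (j k : ℕ), ℓ.Prime ∧ ℓ ∉ S ∧ V.LiesOverPrime ℓ ∧
      V.IsFrobeniusAt τ ℓ ∧ ∀ x ∈ L, σ x = (τ ^ k) x ∧ τ x = (σ ^ j) x := by
  let M := IntermediateField.normalClosure ℚ L LL
  have : Normal ℚ M := normalClosure.normal ℚ L LL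
  have : IsGalois ℚ M := {}
  have : NumberField M := NumberField.mk
  let res : GG →* (M ≃ₐ[ℚ] M) := AlgEquiv.restrictNormalHom M
  have hres : ∀ (g : GG) (x : M), ((res g x : M) : LL) = g (x : LL) :=
    fun g x => AlgEquiv.restrictNormal_commutes g M x
  obtain ⟨ℓ, hℓ, hℓS, hun, Q, φ, hQ, hℓQ, hφ, x, hx⟩ := exists_frobenius_sameDivision (res σ) S
  set φ' := x * φ * x⁻¹
  have h1 : res σ ∈ Subgroup.zpowers φ' := hx ▸ Subgroup.mem_zpowers _
  have h2 : φ' ∈ Subgroup.zpowers (res σ) := hx ▸ Subgroup.mem_zpowers _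
  rw [← mem_powers_iff_mem_zpowers, Submonoid.mem_powers_iff] at h1 h2
  obtain ⟨k, hk⟩ := h1
  obtain ⟨j, hj⟩ := h2
  obtain ⟨V₀, hV₀⟩ := exists_liesOverPrime ℓ hℓ
  obtain ⟨τ₀, hτ₀⟩ := exists_isFrobeniusAt V₀ ℓ hℓ hV₀
  let ιM : 𝓞 M →+* integralClosure ℤ LL :=
    RingHom.codRestrict ((algebraMap M LL).comp (algebraMap (𝓞 M) M))
      (integralClosure ℤ LL).toSubring
      (fun b => (RingOfIntegers.isIntegral_coe b).map (IsScalarTower.toAlgHom ℤ M LL))
  let Q₀ : Ideal (𝓞 M) := (centre V₀).comap ιM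
  have hQ₀ : Q₀.IsPrime := Ideal.IsPrime.comap _
  have hℓQ₀ : (ℓ : 𝓞 M) ∈ Q₀ := by
    rw [Ideal.mem_comap, map_natCast, mem_centre_iff]
    simpa [ValuationSubring.LiesOverPrime] using hV₀
  have hφ₀ : IsFrobMod ℓ (res τ₀) Q₀ := by
    intro b
    rw [Ideal.mem_comap, mem_centre_iff]
    have h := ((isFrobeniusAt_iff V₀ τ₀ ℓ).mp hτ₀).2 _ (integralClosure_le V₀ (ιM b))
    show (((ιM (res τ₀ • b - b ^ ℓ)) : integralClosure ℤ LL) : LL) ∈ V₀.nonunits
    rw [map_sub, map_pow]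
    have h2 : ((ιM (res τ₀ • b) : integralClosure ℤ LL) : LL) = τ₀ (ιM b : LL) :=
      hres τ₀ (b : M)
    push_cast
    rw [h2]
    exact h
  obtain ⟨g, hg⟩ := exists_smul_eq_of_mem hℓ hQ₀ hℓQ₀ hQ hℓQ
  obtain ⟨γ, hγ⟩ := AlgEquiv.restrictNormalHom_surjective LL (F := ℚ) (K₁ := M) (x * g)
  have hγ' : res γ = x * g := hγ
  have hφeq : res (γ * τ₀ * γ⁻¹) = φ' := by
    rw [map_mul, map_mul, map_inv, hγ', mul_inv_rev]
    show x * g * res τ₀ * (g⁻¹ * x⁻¹) = x * φ * x⁻¹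
    rw [← IsFrobMod.unique hℓ hun hQ hℓQ (hg ▸ hφ₀.conj g) hφ]
    group
  refine ⟨ℓ, γ • V₀, γ * τ₀ * γ⁻¹, j, k, hℓ, hℓS, liesOverPrime_smul V₀ hV₀,
    isFrobeniusAt_conj V₀ hτ₀, fun y hy => ?_⟩
  have hyM : y ∈ M := IntermediateField.le_normalClosure L hy
  have e1 := congrArg (fun e : M ≃ₐ[ℚ] M => ((e ⟨y, hyM⟩ : M) : LL)) hk
  have e2 := congrArg (fun e : M ≃ₐ[ℚ] M => ((e ⟨y, hyM⟩ : M) : LL)) hj
  simp only [← hφeq, ← map_pow, hres] at e1 e2
  exact ⟨e1.symm, e2.symm⟩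

end Division

variable {p : ℕ} [Fact p.Prime] {O : Type} [CommRing O] [IsDomain O] [IsDiscreteValuationRing O]
  [Algebra ℤ_[p] O]

theorem Setup.exists_separating (S : Setup p O) (hpk : (p : ResidueField O) = 0) (N : ℕ)
    [NeZero N] :
    ∃ (l : ℕ) (V : ValuationSubring LL) (τ : GG), l.Prime ∧ l ∉ S.bad ∧ ¬ l ∣ N ∧
      (l : ZMod N) = 1 ∧ (l : ZMod p) = 1 ∧ V.LiesOverPrime l ∧ V.IsFrobeniusAt τ l ∧
      trGL (S.rb τ) ≠ 2 := by
  haveI : Algebra.IsAlgebraic ℚ LL := AlgebraicClosure.isAlgebraic ℚ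
  obtain ⟨g, h, hgh⟩ := S.rb_big
  set σ := g * h * g⁻¹ * h⁻¹
  obtain ⟨L0, hL0, hL0'⟩ := S.rb_level
  haveI : NeZero (N * p) := ⟨Nat.mul_ne_zero (NeZero.ne N) (Fact.out : p.Prime).ne_zero⟩
  obtain ⟨ζ, hζ⟩ := HasEnoughRootsOfUnity.exists_primitiveRoot LL (N * p)
  haveI := hL0
  haveI : FiniteDimensional ℚ (IntermediateField.adjoin ℚ ({ζ} : Set LL)) :=
    IntermediateField.adjoin.finiteDimensional (Algebra.IsIntegral.isIntegral ζ)
  obtain ⟨l, V, τ, j, k, hl, hlS, hV, hτ, heq⟩ :=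
    exists_frobenius_zpowers_eqOn (L0 ⊔ IntermediateField.adjoin ℚ ({ζ} : Set LL)) σ
      (S.bad ∪ (N * p).primeFactors)
  have hlNp : ¬ l ∣ N * p := fun hd => hlS (Finset.mem_union_right _
    (Nat.mem_primeFactors.mpr ⟨hl, hd, NeZero.ne _⟩))
  -- `σ` fixes the roots of unity
  have hcomm : ∀ (a b : GG) (η : LL), η ^ (N * p) = 1 → a (b η) = b (a η) := by
    intro a b η hη
    obtain ⟨i, -, rfl⟩ := hζ.eq_pow_of_pow_eq_one hη
    obtain ⟨u, -, hu⟩ := hζ.eq_pow_of_pow_eq_one (ξ := a ζ) (by rw [← map_pow, hζ.pow_eq_one, map_one])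
    obtain ⟨w, -, hw⟩ := hζ.eq_pow_of_pow_eq_one (ξ := b ζ) (by rw [← map_pow, hζ.pow_eq_one, map_one])
    simp only [map_pow, ← hw, ← hu, ← pow_mul]
    ring_nf
  have hσζ : σ ζ = ζ := by
    show g (h (g⁻¹ (h⁻¹ ζ))) = ζ
    rw [hcomm g h _ (by rw [← map_pow, ← map_pow, hζ.pow_eq_one, map_one, map_one]),
      ← AlgEquiv.mul_apply g g⁻¹, mul_inv_cancel, AlgEquiv.one_apply, ← AlgEquiv.mul_apply,
      mul_inv_cancel, AlgEquiv.one_apply]
  have hmem : ζ ∈ L0 ⊔ IntermediateField.adjoin ℚ ({ζ} : Set LL) :=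
    (le_sup_right : _ ≤ L0 ⊔ _) (IntermediateField.mem_adjoin_simple_self ℚ ζ)
  have hτζ : τ ζ = ζ := by
    rw [(heq ζ hmem).2]
    clear heq
    induction j with
    | zero => rfl
    | succ j ih => rw [pow_succ, AlgEquiv.mul_apply, hσζ, ih]
  have hl1 : (l : ZMod (N * p)) = 1 := by
    have h1 := DeligneSerre.frobenius_zeta hl hlNp hV hτ hζ.pow_eq_one
    rw [hτζ] at h1
    have hu : IsUnit ζ := hζ.isUnit (NeZero.ne _)
    have h2 : hu.unit ^ 1 = hu.unit ^ l := Units.ext (by simpa using h1)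
    have h3 := pow_eq_pow_iff_modEq.mp h2
    rw [← orderOf_units, IsUnit.unit_spec, ← hζ.eq_orderOf] at h3
    rw [← Nat.cast_one, ZMod.natCast_eq_natCast_iff]
    exact h3.symm
  have hlN : (l : ZMod N) = 1 := by
    simpa using congrArg (ZMod.castHom (dvd_mul_right N p) (ZMod N)) hl1
  have hlp : (l : ZMod p) = 1 := by
    simpa using congrArg (ZMod.castHom (dvd_mul_left p N) (ZMod p)) hl1
  refine ⟨l, V, τ, hl, fun hb => hlS (Finset.mem_union_left _ hb),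
    fun hd => hlNp (dvd_mul_of_dvd_left hd p), hlN, hlp, hV, hτ, fun htr => hgh ?_⟩
  have hk : S.rb σ = S.rb τ ^ k := by
    rw [← map_pow, ← mul_inv_cancel_left (τ ^ k) σ, map_mul, hL0' ((τ ^ k)⁻¹ * σ) fun x hx => ?_,
      mul_one]
    rw [AlgEquiv.mul_apply, (heq x ((le_sup_left : L0 ≤ L0 ⊔ _) hx)).1, ← AlgEquiv.mul_apply,
      inv_mul_cancel, AlgEquiv.one_apply]
  have hdet : detGL (S.rb τ) = 1 := by
    have hlp' : l ≠ p := fun e => hlNp (e ▸ dvd_mul_left p N)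
    rw [S.rb_det τ l (DetCyclo.cycloExponent_frobenius (p := p) hl hlp' hV hτ 1)]
    have h1 : 1 ≤ l := hl.one_lt.le
    obtain ⟨c, hc⟩ : p ∣ l - 1 := by
      rw [← ZMod.natCast_eq_zero_iff]
      rw [Nat.cast_sub h1, hlp]; simp
    rw [show l = p * c + 1 by omega, Nat.cast_add, Nat.cast_mul, hpk]
    simp
  have hpw := Frobenius.trace_pow_eq (A := (S.rb τ : Matrix (Fin 2) (Fin 2) (ResidueField O)))
    (B := 1) (by rw [Matrix.trace_one]; simpa using htr) (by rw [Matrix.det_one]; exact hdet) k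
  show Matrix.trace ((S.rb σ : GL (Fin 2) (ResidueField O)) : Matrix (Fin 2) (Fin 2) (ResidueField O)) = 2
  rw [hk, Units.val_pow_eq_pow_val, hpw, one_pow, Matrix.trace_one]
  simp

end FLTAgent.Lowering
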