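import Fermat.Agent.Lowering.P4.Commute

/-!
# Classes of twisted cocycles as a module over the polynomial Hecke ring
-/

set_option autoImplicit false

noncomputable section

set_option synthInstance.maxHeartbeats 400000

open scoped MatrixGroups
open CongruenceSubgroup

namespace FLTAgent.Lowering.Cocycle

open FLTAgent.PeriodHecke

local notation "SL2Z" => Matrix.SpecialLinearGroup (Fin 2) ℤ

section Group

variable {Γ : Subgroup SL2Z} {A : Type*} [CommRing A] {ψ : Γ →* A}
  {N N' : Type*} [AddCommGroup N] [Module A N] [AddCommGroup N'] [Module A N']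
  {I : Type*} [Fintype I] {F : HeckeFamily Γ I}

variable (ψ N) in
/-- Classes of twisted cocycles. -/
abbrev H1 : Type _ := Z1 ψ N ⧸ LinearMap.range (cobdry ψ N)

/-- The class of a cocycle. -/
abbrev cls (c : Z1 ψ N) : H1 ψ N := Submodule.Quotient.mk c

theorem cls_eq_zero {c : Z1 ψ N} : cls c = 0 ↔ ∃ v, cobdry ψ N v = c := by
  rw [Submodule.Quotient.mk_eq_zero, LinearMap.mem_range]

/-- Change of coefficients on classes. -/
def mapH1 (f : N →ₗ[A] N') : H1 ψ N →ₗ[A] H1 ψ N' :=
  Submodule.mapQ _ _ (mapZ1 ψ f) (by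
    rintro _ ⟨v, rfl⟩
    exact ⟨f v, (mapZ1_cobdry f v).symm⟩)

theorem mapH1_cls (f : N →ₗ[A] N') (c : Z1 ψ N) : mapH1 f (cls c) = cls (mapZ1 ψ f c) := rfl

theorem mapH1_comp {N'' : Type*} [AddCommGroup N''] [Module A N''] (g : N' →ₗ[A] N'')
    (f : N →ₗ[A] N') (x : H1 ψ N) : mapH1 g (mapH1 f x) = mapH1 (g ∘ₗ f) x := by
  induction x using Submodule.Quotient.induction_on
  rfl

theorem mapH1_id (x : H1 ψ N) : mapH1 (LinearMap.id (R := A) (M := N)) x = x := by
  induction x using Submodule.Quotient.induction_on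
  rfl

theorem mapH1_add (f g : N →ₗ[A] N') (x : H1 ψ N) :
    mapH1 (f + g) x = mapH1 f x + mapH1 g x := by
  induction x using Submodule.Quotient.induction_on
  rfl

theorem mapH1_smul (a : A) (f : N →ₗ[A] N') (x : H1 ψ N) :
    mapH1 (a • f) x = a • mapH1 f x := by
  induction x using Submodule.Quotient.induction_on
  rfl

/-- The operator of a weighted family on classes. -/
def heckeH1 (W : Weighting F ψ) : H1 ψ N →ₗ[A] H1 ψ N :=
  Submodule.mapQ _ _ (heckeZ1 W) (by
    rintro _ ⟨v, rfl⟩
    exact ⟨_, (heckeZ1_cobdry W v).symm⟩)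

theorem heckeH1_cls (W : Weighting F ψ) (c : Z1 ψ N) :
    heckeH1 (N := N) W (cls c) = cls (heckeZ1 W c) := rfl

theorem mapH1_heckeH1 (f : N →ₗ[A] N') (W : Weighting F ψ) (x : H1 ψ N) :
    mapH1 f (heckeH1 (N := N) W x) = heckeH1 (N := N') W (mapH1 f x) := by
  induction x using Submodule.Quotient.induction_on with
  | H c => exact congrArg cls (mapZ1_heckeZ1 f W c)

/-- An injective map of coefficients kills only classes killed by `T - w`, for the total weight
`w`. -/
theorem heckeH1_eq_of_mapH1_eq_zero {f : N →ₗ[A] N'} (hf : Function.Injective f) (W : Weighting F ψ)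
    {x : H1 ψ N} (hx : mapH1 f x = 0) : heckeH1 (N := N) W x = (∑ i, W.w i) • x := by
  induction x using Submodule.Quotient.induction_on with
  | H c =>
    obtain ⟨v, hv⟩ := cls_eq_zero.mp hx
    have h : mapZ1 ψ f (heckeZ1 W c) = mapZ1 ψ f ((∑ i, W.w i) • c) := by
      rw [mapZ1_heckeZ1, map_smul, ← hv, heckeZ1_cobdry, map_smul]
    have : heckeZ1 W c = (∑ i, W.w i) • c := Subtype.ext (funext fun g => hf (congrFun
      (congrArg Subtype.val h) g))
    rw [heckeH1_cls, this]
    rfl

/-- Classes killed by a surjection come from its kernel. -/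
theorem exists_of_mapH1_eq_zero {f : N →ₗ[A] N'} (hf : Function.Surjective f) {x : H1 ψ N}
    (hx : mapH1 f x = 0) : ∃ y : H1 ψ (LinearMap.ker f), mapH1 (LinearMap.ker f).subtype y = x := by
  induction x using Submodule.Quotient.induction_on with
  | H c =>
    obtain ⟨v, hv⟩ := cls_eq_zero.mp hx
    obtain ⟨u, rfl⟩ := hf v
    set d := c - cobdry ψ N u
    have hd : ∀ g, d.1 g ∈ LinearMap.ker f := fun g => by
      have := congrFun (congrArg Subtype.val hv) g
      rw [cobdry_apply, mapZ1_apply] at this
      simp [d, cobdry_apply, map_sub, this]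
    refine ⟨cls ⟨fun g => ⟨d.1 g, hd g⟩, fun g h => Subtype.ext (d.2 g h)⟩, ?_⟩
    rw [mapH1_cls, Submodule.Quotient.eq]
    exact ⟨-u, Subtype.ext (funext fun g => by simp [d, mapZ1_apply, cobdry_apply])⟩

theorem mapH1_surjective (hneg : (-1 : SL2Z) ∈ Γ) (hψ : ψ ⟨-1, hneg⟩ = 1) (h6 : IsUnit (6 : A))
    (f : N →ₗ[A] N') (hf : Function.Surjective f) : Function.Surjective (mapH1 (ψ := ψ) f) := by
  intro y
  induction y using Submodule.Quotient.induction_on with
  | H c =>
    obtain ⟨d, rfl⟩ := mapZ1_surjective hneg hψ h6 f hf c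
    exact ⟨cls d, rfl⟩

end Group

/-! ### The action of the polynomial ring on the operators away from a finite set -/

/-- The primes outside a finite set. -/
def GoodPrime (bad : Finset ℕ) : Type := {l : ℕ // l.Prime ∧ l ∉ bad}

instance {bad : Finset ℕ} (l : GoodPrime bad) : Fact l.1.Prime := ⟨l.2.1⟩

variable {M : ℕ} (O : Type) [CommRing O] {A : Type} [CommRing A] [Algebra O A] (χ : ZMod M →* A)
  (bad : Finset ℕ) (N : Type) [AddCommGroup N] [Module A N]

/-- The polynomial Hecke ring. -/
abbrev Poly : Type := MvPolynomial (GoodPrime bad) O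

/-- The standard operator at a prime, on classes. -/
def opAt (l : GoodPrime bad) : Module.End A (H1 (psi χ) N) := heckeH1 (stdWeight (p := l.1) χ)

theorem opAt_comm (l r : GoodPrime bad) : opAt χ bad N l * opAt χ bad N r = opAt χ bad N r * opAt χ bad N l := by
  rcases eq_or_ne l r with rfl | hne
  · rfl
  refine LinearMap.ext fun x => ?_
  induction x using Submodule.Quotient.induction_on with
  | H c =>
    obtain ⟨v, hv⟩ := stdWeight_comm (l := l.1) (r := r.1) (fun h => hne (Subtype.ext h)) χ c
    exact (Submodule.Quotient.eq _).mpr ⟨v, hv.symm⟩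

theorem commute_range : ∀ a ∈ Set.range (opAt χ bad N), ∀ b ∈ Set.range (opAt χ bad N),
    a * b = b * a := by
  rintro _ ⟨l, rfl⟩ _ ⟨r, rfl⟩
  exact opAt_comm χ bad N l r

open scoped IsMulCommutative in
/-- The action of the polynomial ring. -/
def polyHom : Poly O bad →+* Module.End A (H1 (psi χ) N) :=
  letI : Module A (H1 (psi χ) N) := inferInstance
  haveI : IsMulCommutative (Algebra.adjoin A (Set.range (opAt χ bad N))) :=
    Algebra.isMulCommutative_adjoin A (commute_range χ bad N)
  (Algebra.adjoin A (Set.range (opAt χ bad N))).val.toRingHom.comp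
    (MvPolynomial.eval₂Hom
      ((algebraMap A (Algebra.adjoin A (Set.range (opAt χ bad N)))).comp (algebraMap O A))
      (fun l => (⟨opAt χ bad N l, Algebra.subset_adjoin ⟨l, rfl⟩⟩ :
        Algebra.adjoin A (Set.range (opAt χ bad N)))))

theorem polyHom_X (l : GoodPrime bad) :
    polyHom O χ bad N (MvPolynomial.X l) = opAt χ bad N l := by
  simp [polyHom]

theorem polyHom_C (r : O) :
    polyHom O χ bad N (MvPolynomial.C r) = algebraMap A (Module.End A (H1 (psi χ) N)) (algebraMap O A r) := by
  simp [polyHom]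

/-- The classes as a module over the polynomial ring. -/
def Coh {M : ℕ} (O : Type) {A : Type} [CommRing A] (χ : ZMod M →* A) (_bad : Finset ℕ) (N : Type)
    [AddCommGroup N] [Module A N] : Type := H1 (psi χ) N

instance : AddCommGroup (Coh O χ bad N) := inferInstanceAs (AddCommGroup (H1 (psi χ) N))

instance : Module A (Coh O χ bad N) := inferInstanceAs (Module A (H1 (psi χ) N))

/-- Classes, as elements of the module. -/
def toCoh : H1 (psi χ) N ≃ₗ[A] Coh O χ bad N := LinearEquiv.refl A _

instance : Module (Poly O bad) (Coh O χ bad N) := Module.compHom (H1 (psi χ) N) (polyHom O χ bad N)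

theorem poly_smul (r : Poly O bad) (x : H1 (psi χ) N) :
    r • toCoh O χ bad N x = toCoh O χ bad N (polyHom O χ bad N r x) := rfl

theorem poly_X_smul (l : GoodPrime bad) (x : H1 (psi χ) N) :
    (MvPolynomial.X l : Poly O bad) • toCoh O χ bad N x = toCoh O χ bad N (opAt χ bad N l x) := by
  rw [poly_smul, polyHom_X]

theorem poly_C_smul (r : O) (x : Coh O χ bad N) :
    (MvPolynomial.C r : Poly O bad) • x = algebraMap O A r • x := by
  obtain ⟨x, rfl⟩ := (toCoh O χ bad N).surjective x
  rw [poly_smul, polyHom_C, ← map_smul]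
  rfl

instance : SMulCommClass A (Poly O bad) (Coh O χ bad N) where
  smul_comm a r x := ((polyHom O χ bad N r).map_smul a x).symm

instance : SMulCommClass (Poly O bad) A (Coh O χ bad N) := SMulCommClass.symm _ _ _

variable {O N} {N' : Type} [AddCommGroup N'] [Module A N']

theorem polyHom_natural (f : N →ₗ[A] N') (r : Poly O bad) (x : H1 (psi χ) N) :
    mapH1 f (polyHom O χ bad N r x) = polyHom O χ bad N' r (mapH1 f x) := by
  induction r using MvPolynomial.induction_on generalizing x with
  | C a =>
    rw [polyHom_C, polyHom_C, Module.algebraMap_end_apply, Module.algebraMap_end_apply, map_smul]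
  | add p q hp hq => rw [map_add, map_add, LinearMap.add_apply, LinearMap.add_apply, map_add, hp, hq]
  | mul_X p l hp =>
    rw [map_mul, map_mul, Module.End.mul_apply, Module.End.mul_apply, hp, polyHom_X, polyHom_X]
    exact congrArg _ (mapH1_heckeH1 f _ x)

/-- Change of coefficients, linear over the polynomial ring. -/
def mapCoh (f : N →ₗ[A] N') : Coh O χ bad N →ₗ[Poly O bad] Coh O χ bad N' where
  toFun x := toCoh O χ bad N' (mapH1 f ((toCoh O χ bad N).symm x))
  map_add' x y := by simp
  map_smul' r x := by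
    obtain ⟨x, rfl⟩ := (toCoh O χ bad N).surjective x
    rw [poly_smul]
    simp only [LinearEquiv.symm_apply_apply, RingHom.id_apply, poly_smul, polyHom_natural]

theorem mapCoh_apply (f : N →ₗ[A] N') (x : H1 (psi χ) N) :
    mapCoh χ bad f (toCoh O χ bad N x) = toCoh O χ bad N' (mapH1 f x) := rfl

theorem mapCoh_smul (f : N →ₗ[A] N') (a : A) (x : Coh O χ bad N) :
    mapCoh χ bad f (a • x) = a • mapCoh χ bad f x :=
  (mapH1 f).map_smul a ((toCoh O χ bad N).symm x)

end FLTAgent.Lowering.Cocycle
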