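import Fermat.Agent.Lowering.P4.FreeProduct

/-!
# Twisted cocycles of subgroups of the modular group lift along surjections

For a subgroup containing `-1`, a character trivial on `-1` and coefficients in which six is
invertible, every twisted cocycle with values in a quotient lifts: it extends to the whole modular
group with values in the coinduced module, where it is given by two elliptic values.
-/

set_option autoImplicit false

noncomputable section

open scoped MatrixGroups

namespace FLTAgent.Lowering.Cocycle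

local notation "SL2Z" => Matrix.SpecialLinearGroup (Fin 2) ℤ
local notation "S'" => (ModularGroup.S : SL2Z)
local notation "T'" => (ModularGroup.T : SL2Z)
local notation "U'" => ((ModularGroup.T * ModularGroup.S : SL2Z))

section General

variable {G : Type*} [Group G] {A : Type*} [CommRing A] (ψ : G →* A) (N : Type*) [AddCommGroup N]
  [Module A N]

/-- Twisted cocycles. -/
def Z1 : Submodule A (G → N) where
  carrier := {c | ∀ g h, c (g * h) = c g + ψ g • c h}
  zero_mem' := fun g h => by simp
  add_mem' := fun {c d} hc hd g h => by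
    simp only [Pi.add_apply, hc g h, hd g h, smul_add]
    abel
  smul_mem' := fun a c hc g h => by
    simp only [Pi.smul_apply, hc g h, smul_add, smul_comm a]

variable {ψ N}

theorem mem_Z1 {c : G → N} : c ∈ Z1 ψ N ↔ ∀ g h, c (g * h) = c g + ψ g • c h := Iff.rfl

theorem Z1_mul (c : Z1 ψ N) (g h : G) : (c : G → N) (g * h) = c.1 g + ψ g • c.1 h := c.2 g h

theorem Z1_one (c : Z1 ψ N) : (c : G → N) 1 = 0 := by
  have h := Z1_mul c 1 1
  rwa [mul_one, map_one, one_smul, left_eq_add] at h

theorem Z1_inv (c : Z1 ψ N) (g : G) : (c : G → N) g⁻¹ = -(ψ g⁻¹ • c.1 g) := by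
  have h := Z1_mul c g⁻¹ g
  rw [inv_mul_cancel, Z1_one] at h
  exact eq_neg_of_add_eq_zero_left h.symm

variable (ψ N) in
/-- Coboundaries. -/
def cobdry : N →ₗ[A] Z1 ψ N where
  toFun v := ⟨fun g => ψ g • v - v, fun g h => by
    simp only [map_mul, smul_sub, mul_smul]
    abel⟩
  map_add' v w := Subtype.ext (funext fun g => by simp [smul_add]; abel)
  map_smul' a v := Subtype.ext (funext fun g => by simp [smul_comm a, smul_sub])

theorem cobdry_apply (v : N) (g : G) : (cobdry ψ N v : G → N) g = ψ g • v - v := rfl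

variable {N' : Type*} [AddCommGroup N'] [Module A N']

variable (ψ) in
/-- Change of coefficients. -/
def mapZ1 (f : N →ₗ[A] N') : Z1 ψ N →ₗ[A] Z1 ψ N' where
  toFun c := ⟨fun g => f (c.1 g), fun g h => by simp [Z1_mul c g h]⟩
  map_add' c d := Subtype.ext (funext fun g => f.map_add _ _)
  map_smul' a c := Subtype.ext (funext fun g => f.map_smul _ _)

theorem mapZ1_apply (f : N →ₗ[A] N') (c : Z1 ψ N) (g : G) :
    (mapZ1 ψ f c : G → N') g = f (c.1 g) := rfl

theorem mapZ1_cobdry (f : N →ₗ[A] N') (v : N) :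
    mapZ1 ψ f (cobdry ψ N v) = cobdry ψ N' (f v) :=
  Subtype.ext (funext fun g => by simp [mapZ1_apply, cobdry_apply])

end General

section Lift

variable {Γ : Subgroup SL2Z} {A : Type*} [CommRing A] {ψ : Γ →* A}
  {N N' : Type*} [AddCommGroup N] [Module A N] [AddCommGroup N'] [Module A N']

variable (ψ N) in
/-- The coinduced module. -/
def Coind : Submodule A (SL2Z → N) where
  carrier := {f | ∀ (h : Γ) (x : SL2Z), f (h * x) = ψ h • f x}
  zero_mem' := fun h x => by simp
  add_mem' := fun {f g} hf hg h x => by simp only [Pi.add_apply, hf h x, hg h x, smul_add]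
  smul_mem' := fun a f hf h x => by simp only [Pi.smul_apply, hf h x, smul_comm a]

/-- Right translation on the coinduced module. -/
def trans (p : SL2Z) : Coind ψ N →ₗ[A] Coind ψ N where
  toFun f := ⟨fun x => f.1 (x * p), fun h x => by
    show f.1 ((h : SL2Z) * x * p) = _
    rw [mul_assoc]
    exact f.2 h (x * p)⟩
  map_add' _ _ := rfl
  map_smul' _ _ := rfl

theorem trans_apply (p x : SL2Z) (f : Coind ψ N) : (trans p f : SL2Z → N) x = f.1 (x * p) := rfl

theorem trans_trans (p q : SL2Z) (f : Coind ψ N) : trans p (trans q f) = trans (p * q) f :=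
  Subtype.ext (funext fun x => congrArg f.1 (mul_assoc x p q))

theorem trans_one (f : Coind ψ N) : trans 1 f = f :=
  Subtype.ext (funext fun x => congrArg f.1 (mul_one x))

open scoped Classical in
variable (Γ) in
/-- Representatives of the right cosets, with `1` for the trivial one. -/
def rep (x : SL2Z) : SL2Z :=
  if x ∈ Γ then 1 else (Quotient.mk (QuotientGroup.rightRel Γ) x).out

theorem mul_rep_inv_mem (x : SL2Z) : x * (rep Γ x)⁻¹ ∈ Γ := by
  classical
  rw [rep]
  split_ifs with h
  · simpa using h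
  · exact QuotientGroup.rightRel_apply.mp
      (Quotient.exact (Quotient.out_eq (Quotient.mk (QuotientGroup.rightRel Γ) x)))

theorem rep_mul (h : Γ) (x : SL2Z) : rep Γ (h * x) = rep Γ x := by
  classical
  rw [rep, rep, Γ.mul_mem_cancel_left h.2]
  split_ifs
  · rfl
  · refine congrArg Quotient.out (Quotient.sound (QuotientGroup.rightRel_apply.mpr ?_))
    rw [mul_inv_rev, ← mul_assoc, mul_inv_cancel, one_mul]
    exact Γ.inv_mem h.2

variable (Γ) in
/-- The component in the subgroup. -/
def part (x : SL2Z) : Γ := ⟨x * (rep Γ x)⁻¹, mul_rep_inv_mem x⟩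

theorem part_mul_rep (x : SL2Z) : (part Γ x : SL2Z) * rep Γ x = x := inv_mul_cancel_right _ _

theorem part_mul (h : Γ) (x : SL2Z) : part Γ (h * x) = h * part Γ x :=
  Subtype.ext (by simp [part, rep_mul, mul_assoc])

theorem rep_coe (h : Γ) : rep Γ (h : SL2Z) = 1 := by
  classical
  rw [rep, if_pos h.2]

theorem part_coe (h : Γ) : part Γ (h : SL2Z) = h :=
  Subtype.ext (by simp [part, rep_coe])

/-- A potential of a cocycle on the whole group. -/
def pot (c : Z1 ψ N) (x : SL2Z) : N := c.1 (part Γ x)

theorem pot_mul (c : Z1 ψ N) (h : Γ) (x : SL2Z) :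
    pot c (h * x) = c.1 h + ψ h • pot c x := by
  rw [pot, part_mul, Z1_mul]
  rfl

/-- The extended cocycle. -/
def ext (c : Z1 ψ N) (p : SL2Z) : Coind ψ N :=
  ⟨fun x => pot c (x * p) - pot c x, fun h x => by
    show pot c ((h : SL2Z) * x * p) - pot c ((h : SL2Z) * x) = _
    rw [mul_assoc, pot_mul, pot_mul, smul_sub]
    abel⟩

theorem ext_apply (c : Z1 ψ N) (p x : SL2Z) :
    (ext c p : SL2Z → N) x = pot c (x * p) - pot c x := rfl

theorem ext_mul (c : Z1 ψ N) (p q : SL2Z) : ext c (p * q) = ext c p + trans p (ext c q) :=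
  Subtype.ext (funext fun x => by
    simp only [Submodule.coe_add, Pi.add_apply, ext_apply, trans_apply, ← mul_assoc]
    abel)

theorem ext_coe (c : Z1 ψ N) (h : Γ) : (ext c h : SL2Z → N) 1 = c.1 h := by
  rw [ext_apply, one_mul, pot, pot, part_coe, show (1 : SL2Z) = ((1 : Γ) : SL2Z) from rfl, part_coe,
    Z1_one, sub_zero]

variable (hneg : (-1 : SL2Z) ∈ Γ) (hψ : ψ ⟨-1, hneg⟩ = 1)

include hψ

theorem trans_neg (f : Coind ψ N) : trans (-1) f = f :=
  Subtype.ext (funext fun x => by
    rw [trans_apply, show x * (-1) = ((⟨-1, hneg⟩ : Γ) : SL2Z) * x by simp, f.2, hψ, one_smul])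

theorem ext_neg (h2 : IsUnit (2 : A)) (c : Z1 ψ N) : ext c (-1) = 0 := by
  have hc : c.1 ⟨-1, hneg⟩ = 0 := by
    have h := Z1_mul c ⟨-1, hneg⟩ ⟨-1, hneg⟩
    rw [show (⟨-1, hneg⟩ : Γ) * ⟨-1, hneg⟩ = 1 from Subtype.ext (by simp), Z1_one, hψ, one_smul,
      ← two_smul A] at h
    exact (h2.smul_eq_zero).mp h.symm
  refine Subtype.ext (funext fun x => ?_)
  rw [ext_apply, show x * (-1) = ((⟨-1, hneg⟩ : Γ) : SL2Z) * x by simp, pot_mul, hc, hψ, one_smul,
    zero_add, sub_self]
  rfl

/-- **Twisted cocycles lift along surjections of coefficients.** -/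
theorem mapZ1_surjective (h6 : IsUnit (6 : A)) (f : N →ₗ[A] N') (hf : Function.Surjective f) :
    Function.Surjective (mapZ1 ψ f) := by
  intro c
  obtain ⟨s, hs⟩ := hf.hasRightInverse
  have h23 : IsUnit (2 : A) ∧ IsUnit (3 : A) := by
    rw [show (6 : A) = 2 * 3 by norm_num] at h6
    exact IsUnit.mul_iff.mp h6
  obtain ⟨h2, h3⟩ := h23
  let fC : Coind ψ N → Coind ψ N' := fun F => ⟨fun x => f (F.1 x), fun h x => by simp [F.2 h x]⟩
  let liftC : Coind ψ N' → Coind ψ N := fun F =>
    ⟨fun x => ψ (part Γ x) • s (F.1 (rep Γ x)), fun h x => by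
      simp only [part_mul, rep_mul, map_mul, mul_smul]⟩
  have hlift : ∀ F, fC (liftC F) = F := fun F => Subtype.ext (funext fun x => by
    show f (ψ (part Γ x) • s (F.1 (rep Γ x))) = F.1 x
    rw [map_smul, hs, ← F.2, part_mul_rep])
  -- the two elliptic values
  have hsq : S' * S' = -1 := by decide
  have hcube : U' * U' * U' = -1 := by decide
  obtain ⟨u2, hu2⟩ := h2.exists_left_inv
  obtain ⟨u3, hu3⟩ := h3.exists_left_inv
  have hf_smul : ∀ (a : A) F, fC (a • F) = a • fC F := fun a F =>
    Subtype.ext (funext fun x => f.map_smul a _)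
  have hf_sub : ∀ F G, fC (F - G) = fC F - fC G := fun F G =>
    Subtype.ext (funext fun x => f.map_sub _ _)
  have hf_add : ∀ F G, fC (F + G) = fC F + fC G := fun F G =>
    Subtype.ext (funext fun x => f.map_add _ _)
  have hf_trans : ∀ p F, fC (trans p F) = trans p (fC F) := fun p F => rfl
  set FS := liftC (ext c S') with hFS
  set a₀ := u2 • (FS - trans S' FS) with ha₀
  have haS : a₀ + trans S' a₀ = 0 := by
    rw [ha₀, map_smul, map_sub, trans_trans, hsq, trans_neg hneg hψ]
    module
  have hfa : fC a₀ = ext c S' := by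
    have h := ext_mul c S' S'
    rw [hsq, ext_neg hneg hψ h2] at h
    rw [ha₀, hf_smul, hf_sub, hf_trans, hlift, show trans S' (ext c S') = -ext c S' from
      eq_neg_of_add_eq_zero_right h.symm, sub_neg_eq_add, ← two_smul A, smul_smul, hu2, one_smul]
  set FU := liftC (ext c U') with hFU
  set b₀ := FU - u3 • (FU + trans U' FU + trans (U' * U') FU) with hb₀
  have hnm : ∀ (p : SL2Z) (F : Coind ψ N), trans (-1 * p) F = trans p F := fun p F => by
    rw [← trans_trans, trans_neg hneg hψ]
  have hbU : b₀ + trans U' b₀ + trans (U' * U') b₀ = 0 := by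
    have e1 : trans U' (trans (U' * U') FU) = FU := by
      rw [trans_trans, ← mul_assoc, hcube, trans_neg hneg hψ]
    have e2 : trans (U' * U') (trans U' FU) = FU := by
      rw [trans_trans, hcube, trans_neg hneg hψ]
    have e3 : trans (U' * U') (trans (U' * U') FU) = trans U' FU := by
      rw [trans_trans, ← mul_assoc, hcube, hnm]
    have e4 : trans U' (trans U' FU) = trans (U' * U') FU := trans_trans _ _ _
    rw [hb₀]
    simp only [map_sub, map_smul, map_add, e1, e2, e3, e4]
    match_scalars <;> linear_combination -hu3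
  have hfb : fC b₀ = ext c U' := by
    have h := ext_mul c (U' * U') U'
    rw [hcube, ext_neg hneg hψ h2, ext_mul] at h
    rw [hb₀, hf_sub, hf_smul, hf_add, hf_add, hf_trans, hf_trans, hlift, ← h, smul_zero, sub_zero]
  -- the affine action
  let aff (p : SL2Z) (v : Coind ψ N) : Coind ψ N → Coind ψ N := fun F => v + trans p F
  have ha : Function.Involutive (aff S' a₀) := fun F => by
    simp only [aff, map_add, trans_trans, hsq, trans_neg hneg hψ]
    rw [← add_assoc, haS, zero_add]
  have hb3 : ∀ F, aff U' b₀ (aff U' b₀ (aff U' b₀ F)) = F := fun F => by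
    simp only [aff, map_add, trans_trans]
    rw [show U' * (U' * U') = U' * U' * U' from (mul_assoc _ _ _).symm, hcube,
      trans_neg hneg hψ, ← add_assoc, ← add_assoc, hbU, zero_add]
  let b : Equiv.Perm (Coind ψ N) :=
    ⟨aff U' b₀, fun F => aff U' b₀ (aff U' b₀ F), hb3, hb3⟩
  obtain ⟨φ, hφS, hφU, -⟩ := exists_hom_of_elliptic (a := ha.toPerm _) (b := b)
    (Equiv.ext fun F => by rw [sq]; exact ha F)
    (Equiv.ext fun F => by rw [pow_succ, sq]; exact hb3 F)
  set C : SL2Z → Coind ψ N := fun p => φ p 0 with hC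
  have haffine : ∀ p, (∀ F, φ p F = C p + trans p F) ∧ fC (C p) = ext c p := by
    have hmul : ∀ p q, ((∀ F, φ p F = C p + trans p F) ∧ fC (C p) = ext c p) →
        ((∀ F, φ q F = C q + trans q F) ∧ fC (C q) = ext c q) →
        (∀ F, φ (p * q) F = C (p * q) + trans (p * q) F) ∧
          fC (C (p * q)) = ext c (p * q) := by
      intro p q hp hq
      have hpq : C (p * q) = C p + trans p (C q) := by
        simp only [hC, map_mul, Equiv.Perm.mul_apply]
        rw [hp.1 (φ q 0)]
      refine ⟨fun F => ?_, ?_⟩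
      · rw [map_mul, Equiv.Perm.mul_apply, hp.1, hq.1, map_add, trans_trans, hpq, add_assoc]
      · rw [hpq, hf_add, hf_trans, hp.2, hq.2, ext_mul]
    have hone : (∀ F, φ 1 F = C 1 + trans 1 F) ∧ fC (C 1) = ext c 1 := by
      refine ⟨fun F => by simp [hC, trans_one], Subtype.ext (funext fun x => ?_)⟩
      show f ((φ 1 0 : Coind ψ N).1 x) = pot c (x * 1) - pot c x
      simp
    refine ES.smul_generators_induction
      (P := fun p => (∀ F, φ p F = C p + trans p F) ∧ fC (C p) = ext c p) ?_ ?_ hone hmul ?_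
    · have hCS : C S' = a₀ := by
        simp [hC, hφS, Function.Involutive.toPerm, aff]
      refine ⟨fun F => ?_, by rw [hCS, hfa]⟩
      rw [hCS, hφS]
      rfl
    · have hU : (∀ F, φ U' F = C U' + trans U' F) ∧ fC (C U') = ext c U' := by
        have hCU : C U' = b₀ := by simp [hC, hφU, b, aff]
        refine ⟨fun F => ?_, by rw [hCU, hfb]⟩
        rw [hCU, hφU]
        rfl
      have hS : (∀ F, φ S' F = C S' + trans S' F) ∧ fC (C S') = ext c S' := by
        have hCS : C S' = a₀ := by
          simp [hC, hφS, Function.Involutive.toPerm, aff]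
        refine ⟨fun F => ?_, by rw [hCS, hfa]⟩
        rw [hCS, hφS]
        rfl
      rw [show T' = U' * (S' * S' * S') from by decide]
      exact hmul _ _ hU (hmul _ _ (hmul _ _ hS hS) hS)
    · intro p hp
      have hinv : ∀ F, φ p⁻¹ F = trans p⁻¹ (F - C p) := by
        intro F
        rw [map_inv, Equiv.Perm.inv_def, Equiv.symm_apply_eq, hp.1, trans_trans, mul_inv_cancel,
          trans_one, add_sub_cancel]
      refine ⟨fun F => ?_, ?_⟩
      · simp only [hC] at hinv ⊢
        rw [hinv, hinv, ← map_add]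
        congr 1
        abel
      · show fC (φ p⁻¹ 0) = _
        have h0 : fC 0 = 0 := Subtype.ext (funext fun x => f.map_zero)
        rw [hinv, hf_trans, hf_sub, hp.2, h0, zero_sub, map_neg]
        have h := ext_mul c p⁻¹ p
        rw [inv_mul_cancel] at h
        have h1 : ext c 1 = 0 := Subtype.ext (funext fun x => by simp [ext_apply])
        rw [h1] at h
        exact (eq_neg_of_add_eq_zero_left h.symm).symm
  refine ⟨⟨fun h => (C h).1 1, fun g h => ?_⟩, Subtype.ext (funext fun h => ?_)⟩
  · have h1 : C ((g * h : Γ) : SL2Z) = C g + trans (g : SL2Z) (C h) := by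
      simp only [hC, Subgroup.coe_mul, map_mul, Equiv.Perm.mul_apply]
      exact (haffine g).1 _
    show (C ((g * h : Γ) : SL2Z)).1 1 = _
    rw [h1]
    show (C g).1 1 + (C h).1 (1 * (g : SL2Z)) = _
    rw [show (1 : SL2Z) * g = g * 1 by simp, (C h).2]
  · show f ((C h).1 1) = c.1 h
    rw [← ext_coe c h, ← (haffine h).2]

end Lift

end FLTAgent.Lowering.Cocycle
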