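import Fermat.Agent.Lowering.P4.Hecke

/-!
# The standard operators at two primes commute on classes
-/

set_option autoImplicit false

noncomputable section

open scoped MatrixGroups
open CongruenceSubgroup

namespace FLTAgent.Lowering.Cocycle

open FLTAgent.PeriodHecke

local notation "M2" => Matrix (Fin 2) (Fin 2) ℤ

variable {M l r : ℕ}

/-- The upper unipotent element. -/
def unip (n : ℤ) : Gamma0 M := gamma0Mk M 1 n 0 1 (by ring) (dvd_zero _)

theorem mat_unip (n : ℤ) : mat (unip (M := M) n) = !![1, n; 0, 1] := rfl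

theorem psi_unip {A : Type*} [CommRing A] (χ : ZMod M →* A) (n : ℤ) : psi χ (unip (M := M) n) = 1 := by
  rw [psi_apply, mat_unip]
  simp

/-- Two upper triangular matrices with positive diagonal in the same class. -/
theorem class_eq {δ : Gamma0 M} {a b d a' b' d' : ℤ} (ha : 0 < a) (ha' : 0 < a') (hd : 0 < d)
    (h : mat δ * !![a, b; 0, d] = !![a', b'; 0, d']) : a = a' ∧ d = d' ∧ d ∣ b - b' := by
  have h00 := congrFun (congrFun h 0) 0
  have h10 := congrFun (congrFun h 1) 0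
  have h01 := congrFun (congrFun h 0) 1
  have h11 := congrFun (congrFun h 1) 1
  simp [Matrix.mul_apply, Fin.sum_univ_two] at h00 h10 h01 h11
  have hdet := mat_det δ
  rw [Matrix.det_fin_two] at hdet
  have hc : mat δ 1 0 = 0 := h10.resolve_right ha.ne'
  rw [hc] at hdet h11
  simp at hdet h11
  rcases Int.mul_eq_one_iff_eq_one_or_neg_one.mp hdet with ⟨h1, h2⟩ | ⟨h1, h2⟩
  · rw [h1, one_mul] at h00 h01
    rw [h2, one_mul] at h11
    exact ⟨h00, h11, ⟨-(mat δ 0 1), by rw [← h01]; ring⟩⟩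
  · rw [h1] at h00
    omega

theorem coprime_dvd {l r : ℕ} (h : l.Coprime r) {z : ℤ} (hl : (l : ℤ) ∣ z) (hr : (r : ℤ) ∣ z) :
    ((l : ℤ) * r) ∣ z :=
  (Int.isCoprime_iff_nat_coprime.mpr (by simpa using h)).mul_dvd hl hr

variable [Fact l.Prime] [Fact r.Prime]

theorem idxSome_eq {p : ℕ} [Fact p.Prime] {j j' : ZMod p}
    (h : (p : ℤ) ∣ (j.val : ℤ) - j'.val) : idxSome M p j = idxSome M p j' := by
  have h' : ((j.val : ℤ) : ZMod p) = ((j'.val : ℤ) : ZMod p) :=
    ((ZMod.intCast_eq_intCast_iff_dvd_sub _ _ _).mpr h).symm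
  simp only [Int.cast_natCast, ZMod.natCast_zmod_val] at h'
  rw [h']

theorem sub_val_dvd {p : ℕ} [Fact p.Prime] (z : ℤ) : (p : ℤ) ∣ z - ((z : ZMod p).val : ℤ) := by
  rw [← ZMod.intCast_zmod_eq_zero_iff_dvd]
  simp

/-- The index in the swapped product. -/
def swapIdx (x : HeckeIdx M l × HeckeIdx M r) : HeckeIdx M r × HeckeIdx M l :=
  match x with
  | (⟨none, h⟩, ⟨none, h'⟩) => (⟨none, h'⟩, ⟨none, h⟩)
  | (⟨some j, _⟩, ⟨none, h'⟩) => (⟨none, h'⟩, idxSome M l ((r : ZMod l) * j))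
  | (⟨none, h⟩, ⟨some k, _⟩) => (idxSome M r ((k.val : ZMod r) / (l : ZMod r)), ⟨none, h⟩)
  | (⟨some j, _⟩, ⟨some k, _⟩) =>
    (idxSome M r (((j.val : ℤ) + k.val * l : ℤ) : ZMod r),
      idxSome M l (((((j.val : ℤ) + k.val * l -
        ((((j.val : ℤ) + k.val * l : ℤ) : ZMod r).val : ℤ)) / r : ℤ)) : ZMod l))

variable (hlr : l ≠ r)

include hlr

theorem coprime_lr : l.Coprime r := (Nat.coprime_primes Fact.out Fact.out).mpr hlr

theorem natCast_ne : (l : ZMod r) ≠ 0 := fun h =>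
  hlr ((Nat.prime_dvd_prime_iff_eq Fact.out Fact.out).mp ((ZMod.natCast_eq_zero_iff l r).mp h)).symm

theorem exists_unip (x : HeckeIdx M l × HeckeIdx M r) :
    ∃ n : ℤ, (heckeFam M r).α x.2 * (heckeFam M l).α x.1 =
      mat (unip (M := M) n) *
        ((heckeFam M l).α (swapIdx x).2 * (heckeFam M r).α (swapIdx x).1) := by
  obtain ⟨i, i'⟩ := x
  simp only [heckeFam_α]
  rcases HeckeIdx.cases M l i with ⟨hi, rfl⟩ | ⟨j, rfl⟩ <;>
    rcases HeckeIdx.cases M r i' with ⟨hi', rfl⟩ | ⟨k, rfl⟩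
  · refine ⟨0, ?_⟩
    simp [swapIdx, heckeRep, mat_unip, mul_comm]
  · -- none at l, some at r
    set k' : ZMod r := (k.val : ZMod r) / (l : ZMod r) with hk'
    obtain ⟨n, hn⟩ : (r : ℤ) ∣ (k.val : ℤ) - l * k'.val := by
      rw [← ZMod.intCast_zmod_eq_zero_iff_dvd]
      push_cast
      rw [ZMod.natCast_zmod_val k', hk', mul_div_cancel₀ _ (natCast_ne hlr), sub_self]
    refine ⟨n, ?_⟩
    simp [swapIdx, heckeRep, idxSome, mat_unip, ← hk', -ZMod.natCast_val]
    linear_combination hn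
  · -- some at l, none at r
    set j' : ZMod l := (r : ZMod l) * j with hj'
    obtain ⟨n, hn⟩ : (l : ℤ) ∣ (r : ℤ) * j.val - j'.val := by
      rw [← ZMod.intCast_zmod_eq_zero_iff_dvd]
      push_cast
      rw [ZMod.natCast_zmod_val, ZMod.natCast_zmod_val, hj', sub_self]
    refine ⟨n, ?_⟩
    simp [swapIdx, heckeRep, idxSome, mat_unip, ← hj', -ZMod.natCast_val]
    linear_combination hn
  · set B : ℤ := (j.val : ℤ) + k.val * l with hB
    set k' : ZMod r := (B : ZMod r) with hk'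
    obtain ⟨m, hm⟩ : (r : ℤ) ∣ B - k'.val := sub_val_dvd B
    have hdiv : (B - (k'.val : ℤ)) / r = m := by
      rw [hm, Int.mul_ediv_cancel_left _ (Int.natCast_ne_zero.mpr (Fact.out : r.Prime).ne_zero)]
    set j' : ZMod l := (m : ZMod l) with hj'
    obtain ⟨n, hn⟩ : (l : ℤ) ∣ m - j'.val := sub_val_dvd m
    refine ⟨n, ?_⟩
    simp only [swapIdx, idxSome, ← hB, ← hk', hdiv, ← hj', heckeRep]
    simp [mat_unip, mul_comm (r : ℤ) (l : ℤ), -ZMod.natCast_val]
    linear_combination (r : ℤ) * hn + hm + hB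

theorem product_inj (δ : Gamma0 M) (y y' : HeckeIdx M r × HeckeIdx M l)
    (h : mat δ * ((heckeFam M l).α y.2 * (heckeFam M r).α y.1) =
      (heckeFam M l).α y'.2 * (heckeFam M r).α y'.1) : y = y' := by
  have hl : (0 : ℤ) < l := by exact_mod_cast (Fact.out : l.Prime).pos
  have hr : (0 : ℤ) < r := by exact_mod_cast (Fact.out : r.Prime).pos
  have hl1 : (1 : ℤ) < l := by exact_mod_cast (Fact.out : l.Prime).one_lt
  have hr1 : (1 : ℤ) < r := by exact_mod_cast (Fact.out : r.Prime).one_lt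
  have hne : (l : ℤ) ≠ r := by exact_mod_cast hlr
  have hcop : IsCoprime (l : ℤ) (r : ℤ) :=
    Int.isCoprime_iff_nat_coprime.mpr (by simpa using coprime_lr hlr)
  obtain ⟨k, j⟩ := y
  obtain ⟨k', j'⟩ := y'
  simp only [heckeFam_α] at h
  rcases HeckeIdx.cases M r k with ⟨_, rfl⟩ | ⟨k, rfl⟩ <;>
    rcases HeckeIdx.cases M l j with ⟨_, rfl⟩ | ⟨j, rfl⟩ <;>
    rcases HeckeIdx.cases M r k' with ⟨_, rfl⟩ | ⟨k', rfl⟩ <;>
    rcases HeckeIdx.cases M l j' with ⟨_, rfl⟩ | ⟨j', rfl⟩ <;>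
    simp [heckeRep, idxSome, -ZMod.natCast_val] at h <;>
    obtain ⟨h1, h2, h3⟩ := class_eq (by positivity) (by positivity) (by positivity) h <;>
    first
    | rfl
    | (exfalso; exact hne h1)
    | (exfalso; exact hne h1.symm)
    | (exfalso; nlinarith)
    | skip
  · -- some at l only
    exact congrArg (Prod.mk _) (idxSome_eq (p := l) h3)
  · -- some at r only
    refine congrArg (fun a => (a, _)) (idxSome_eq (p := r) ?_)
    refine hcop.symm.dvd_of_dvd_mul_left ?_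
    rw [mul_sub]
    exact h3
  · -- some at both
    obtain ⟨q, hq⟩ := h3
    have hk : (r : ℤ) ∣ (k.val : ℤ) - k'.val :=
      ⟨(l : ℤ) * q - ((j.val : ℤ) - j'.val), by linear_combination hq⟩
    obtain rfl : k = k' := by
      have := idxSome_eq (M := M) hk
      simpa [idxSome] using congrArg Subtype.val this
    refine congrArg (Prod.mk _) (idxSome_eq (p := l) ⟨q, mul_left_cancel₀ hr.ne' ?_⟩)
    linear_combination hq

theorem swapIdx_bijective : Function.Bijective (swapIdx (M := M) (l := l) (r := r)) := by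
  refine (Fintype.bijective_iff_injective_and_card _).mpr ⟨fun x x' h => ?_, ?_⟩
  · obtain ⟨n, hn⟩ := exists_unip hlr x
    obtain ⟨n', hn'⟩ := exists_unip hlr x'
    rw [← h] at hn'
    have h1 := product_inj hlr.symm (unip n' * (unip n)⁻¹) (x.1, x.2) (x'.1, x'.2)
    refine h1 ?_
    rw [hn, hn', mat_mul, mul_assoc, ← mul_assoc (mat (unip n)⁻¹), ← mat_mul, inv_mul_cancel,
      mat_one, one_mul]
  · simp [mul_comm]

/-- The standard operators at two primes commute on classes. -/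
theorem stdWeight_comm {A : Type*} [CommRing A] (χ : ZMod M →* A) {N : Type*} [AddCommGroup N]
    [Module A N] (c : Z1 (psi χ) N) :
    ∃ v : N, heckeZ1 (stdWeight (p := l) χ) (heckeZ1 (stdWeight (p := r) χ) c) -
      heckeZ1 (stdWeight (p := r) χ) (heckeZ1 (stdWeight (p := l) χ) c) =
        cobdry (psi χ) N v := by
  refine heckeZ1_comm _ _ swapIdx (swapIdx_bijective hlr)
    (fun x => unip (exists_unip hlr x).choose) (fun x => (exists_unip hlr x).choose_spec)
    (fun x => ?_) (product_inj hlr) c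
  obtain ⟨i, i'⟩ := x
  rw [psi_unip, mul_one, stdWeight_w, stdWeight_w, stdWeight_w, stdWeight_w]
  rcases HeckeIdx.cases M l i with ⟨_, rfl⟩ | ⟨j, rfl⟩ <;>
    rcases HeckeIdx.cases M r i' with ⟨_, rfl⟩ | ⟨k, rfl⟩ <;>
    simp [swapIdx, idxSome, mul_comm]

end FLTAgent.Lowering.Cocycle
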