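import Mathlib.NumberTheory.Cyclotomic.CyclotomicCharacter
import Fermat.Agent.DeligneSerre.Lift
import Fermat.Agent.EigenReps.Approx

/-!
# Exponents on roots of unity and the shape of two dimensional pseudo-characters

The exponent of an automorphism on the roots of unity of one order, and the algebra of the
operators `U σ + C σ · U σ⁻¹`.
-/

set_option autoImplicit false

noncomputable section

open FLTAgent.DeligneSerre

namespace FLTAgent.Lowering

local notation "LL" => AlgebraicClosure ℚ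
local notation "GG" => (AlgebraicClosure ℚ ≃ₐ[ℚ] AlgebraicClosure ℚ)

section Expo

variable (m : ℕ) [NeZero m]

theorem exists_zeta : ∃ ζ : LL, IsPrimitiveRoot ζ m := by
  haveI : NeZero (m : LL) := ⟨Nat.cast_ne_zero.mpr (NeZero.ne m)⟩
  exact HasEnoughRootsOfUnity.exists_primitiveRoot LL m

/-- The exponent on the roots of unity of order dividing `m`. -/
def expo : GG →* (ZMod m)ˣ := (exists_zeta m).choose_spec.autToPow ℚ

variable {m}

theorem expo_spec (σ : GG) {ζ : LL} (hζ : ζ ^ m = 1) :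
    σ ζ = ζ ^ ((expo m σ : (ZMod m)ˣ) : ZMod m).val := by
  have hμ := (exists_zeta m).choose_spec
  obtain ⟨i, -, rfl⟩ := hμ.eq_pow_of_pow_eq_one hζ
  rw [map_pow, expo, ← hμ.autToPow_spec ℚ σ, ← pow_mul, ← pow_mul, mul_comm]

theorem expo_eq {σ : GG} {c : ℕ} (h : ∀ ζ : LL, ζ ^ m = 1 → σ ζ = ζ ^ c) :
    ((expo m σ : (ZMod m)ˣ) : ZMod m) = (c : ZMod m) := by
  have hμ := (exists_zeta m).choose_spec
  have h1 := (expo_spec σ hμ.pow_eq_one).symm.trans (h _ hμ.pow_eq_one)
  rw [pow_eq_pow_mod _ hμ.pow_eq_one, pow_eq_pow_mod c hμ.pow_eq_one] at h1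
  have h2 := hμ.pow_inj (Nat.mod_lt _ (NeZero.pos m)) (Nat.mod_lt _ (NeZero.pos m)) h1
  rw [← ZMod.natCast_zmod_val ((expo m σ : (ZMod m)ˣ) : ZMod m)]
  exact (ZMod.natCast_eq_natCast_iff' _ _ _).mpr h2

theorem expo_one {σ : GG} (h : ∀ ζ : LL, ζ ^ m = 1 → σ ζ = ζ) : expo m σ = 1 :=
  Units.ext (by rw [expo_eq (c := 1) fun ζ hζ => by rw [h ζ hζ, pow_one], Nat.cast_one, Units.val_one])

theorem expo_cast {d : ℕ} [NeZero d] (hd : d ∣ m) (σ : GG) :
    ZMod.castHom hd (ZMod d) ((expo m σ : (ZMod m)ˣ) : ZMod m) =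
      ((expo d σ : (ZMod d)ˣ) : ZMod d) := by
  rw [expo_eq (m := d) (σ := σ) (c := ((expo m σ : (ZMod m)ˣ) : ZMod m).val) fun ζ hζ => by
      obtain ⟨e, rfl⟩ := hd
      exact expo_spec σ (by rw [pow_mul, hζ, one_pow]),
    ← map_natCast (ZMod.castHom hd (ZMod d)), ZMod.natCast_zmod_val]

theorem expo_frobenius {ℓ : ℕ} (hℓ : ℓ.Prime) (hℓm : ¬ ℓ ∣ m) {V : ValuationSubring LL}
    (hV : V.LiesOverPrime ℓ) {τ : GG} (hτ : V.IsFrobeniusAt τ ℓ) :
    ((expo m τ : (ZMod m)ˣ) : ZMod m) = (ℓ : ZMod m) :=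
  expo_eq fun _ hζ => frobenius_zeta hℓ hℓm hV hτ hζ

theorem expo_inertia {ℓ : ℕ} (hℓ : ℓ.Prime) (hℓm : ¬ ℓ ∣ m) {V : ValuationSubring LL}
    (hV : V.LiesOverPrime ℓ) {τ : GG} (hτ : τ ∈ V.inertiaSubgroupIn ℚ) : expo m τ = 1 :=
  expo_one fun _ hζ => EigenReps.inertia_fix_root hℓ hV hℓm hζ hτ

theorem expo_complexConjugation :
    ((expo m complexConjugation : (ZMod m)ˣ) : ZMod m) = -1 := by
  rw [expo_eq (c := m - 1) fun ζ hζ => by
      rw [complexConjugation_zeta hζ]
      exact inv_eq_of_mul_eq_one_left (by rw [← pow_succ, Nat.sub_add_cancel (NeZero.pos m), hζ]),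
    Nat.cast_sub (NeZero.pos m), ZMod.natCast_self, Nat.cast_one, zero_sub]

variable (m) in
/-- Elements fixing a number field have trivial exponent. -/
theorem exists_expo_level : ∃ L : IntermediateField ℚ LL, FiniteDimensional ℚ L ∧
    ∀ σ : GG, (∀ x ∈ L, σ x = x) → expo m σ = 1 := by
  obtain ⟨ζ, hζ⟩ := exists_zeta m
  refine ⟨IntermediateField.adjoin ℚ ({ζ} : Set LL),
    IntermediateField.adjoin.finiteDimensional
      ((AlgebraicClosure.isAlgebraic ℚ).isAlgebraic ζ).isIntegral, fun σ hσ => expo_one fun η hη => ?_⟩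
  obtain ⟨i, -, rfl⟩ := hζ.eq_pow_of_pow_eq_one hη
  rw [map_pow, hσ ζ (IntermediateField.subset_adjoin ℚ _ rfl)]

end Expo

section Shape

variable {E : Type*} [Ring E] {G : Type*} [Group G] (U C : G →* E)

/-- The operator of an element. -/
def shape (g : G) : E := U g + C g * U g⁻¹

theorem shape_one : shape U C 1 = 2 := by
  rw [shape, inv_one, map_one, map_one, one_mul, one_add_one_eq_two]

theorem shape_mul (hC : ∀ g h, Commute (U g) (C h)) (hCC : ∀ g h, Commute (C g) (C h)) {g h : G}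
    (hh : Commute (U g⁻¹) (shape U C h)) :
    shape U C g * shape U C h = shape U C (g * h) + C h * shape U C (g * h⁻¹) := by
  have h1 : C g * C h = C (g * h) := (map_mul C g h).symm
  have h2 : C h * C (g * h⁻¹) = C g := by
    rw [map_mul, ← mul_assoc, (hCC h g).eq, mul_assoc, ← map_mul, mul_inv_cancel, map_one, mul_one]
  unfold shape at hh ⊢
  rw [add_mul, mul_assoc (C g), hh.eq, mul_add (U g), ← mul_assoc (U g) (C h), (hC g h).eq,
    mul_assoc (C h), add_mul, mul_assoc (C h) (U h⁻¹), mul_add (C g), ← mul_assoc (C g) (C h), h1,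
    mul_add (C h), ← mul_assoc (C h) (C (g * h⁻¹)), h2, ← map_mul, ← map_mul, ← map_mul, ← map_mul,
    mul_inv_rev, mul_inv_rev, inv_inv]
  abel

theorem shape_pow_step (hC : ∀ g h, Commute (U g) (C h)) (hCC : ∀ g h, Commute (C g) (C h)) {g : G}
    (hg : ∀ x, Commute (U x) (shape U C g)) (j : ℕ) :
    shape U C (g ^ (j + 2)) = shape U C (g ^ (j + 1)) * shape U C g - C g * shape U C (g ^ j) := by
  rw [shape_mul U C hC hCC (hg _), ← pow_succ, show g ^ (j + 1) * g⁻¹ = g ^ j by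
    rw [pow_succ, mul_inv_cancel_right]]
  abel

theorem shape_mul_eq {g d : G} (hU : U d = 1) (hC : C (g * d) = C g) :
    shape U C (g * d) = shape U C g := by
  have hUi : U d⁻¹ = 1 := by
    rw [← one_mul (U d⁻¹), ← hU, ← map_mul, mul_inv_cancel, map_one, hU]
  unfold shape
  rw [hC, mul_inv_rev, map_mul, map_mul, hU, hUi, mul_one, one_mul]

end Shape

end FLTAgent.Lowering
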