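import Fermat.Agent.Lowering.P4.Restriction

/-!
# Restriction of localised classes

Restriction to a multiple of the level is semilinear over the substitution `X ↦ X + c / X` at the
primes entering the level, and so passes to the localisations at compatible residual systems.
-/

set_option autoImplicit false

noncomputable section

set_option synthInstance.maxHeartbeats 400000

open scoped MatrixGroups
open CongruenceSubgroup

namespace FLTAgent.Lowering.Cocycle

open FLTAgent.PeriodHecke

theorem resH1_smul {M M' : ℕ} {A A' : Type*} [CommRing A] [CommRing A'] {h : M ∣ M'}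
    {χ : ZMod M →* A} {χ' : ZMod M' →* A'} {N : Type*} [AddCommGroup N] [Module A N] [Module A' N]
    (hc : Compat h χ χ' N) (a : A) (a' : A') (ha : ∀ n : N, a • n = a' • n) (x : H1 (psi χ) N) :
    resH1 hc (a • x) = a' • resH1 hc x := by
  induction x using Submodule.Quotient.induction_on with
  | H c =>
    rw [← Submodule.Quotient.mk_smul]
    show cls (resZ1 hc (a • c)) = a' • cls (resZ1 hc c)
    rw [← Submodule.Quotient.mk_smul]
    exact congrArg cls (Subtype.ext (funext fun γ => ha _))

variable {M M' : ℕ} {O : Type} [CommRing O] {A A' : Type} [CommRing A] [CommRing A'] [Algebra O A]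
  [Algebra O A'] (χ : ZMod M →* A) (χ' : ZMod M' →* A') {bad : Finset ℕ} (N : Type) [AddCommGroup N]
  [Module A N] [Module A' N] {k : Type} [Field k] (θ θ' : Poly O bad →+* k)

/-- A prime of the larger level which does not divide the smaller one. -/
def Entering (M M' : ℕ) (l : GoodPrime bad) : Prop := l.1 ∣ M' ∧ ¬ l.1 ∣ M

/-- The data making restriction pass to the localisations. -/
structure LevelMap where
  dvd : M ∣ M'
  compat : Compat dvd χ χ' N
  scal : ∀ (r : O) (n : N), algebraMap O A r • n = algebraMap O A' r • n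
  cst : GoodPrime bad → O
  cst_spec : ∀ l, Entering M M' l → ∀ n : N,
    χ (l.1 : ZMod M) • n = algebraMap O A (cst l) • n
  sys_C : ∀ r : O, θ (MvPolynomial.C r) = θ' (MvPolynomial.C r)
  sys_old : ∀ l, ¬ Entering M M' l → θ (MvPolynomial.X l) = θ' (MvPolynomial.X l)
  sys_new : ∀ l, Entering M M' l → θ' (MvPolynomial.X l) ≠ 0 ∧
    θ (MvPolynomial.X l) * θ' (MvPolynomial.X l) =
      θ' (MvPolynomial.X l) ^ 2 + θ' (MvPolynomial.C ((l.1 : O) * cst l))

variable {χ χ' N θ θ'} (L : LevelMap χ χ' N θ θ')

namespace LevelMap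

open scoped Classical in
/-- The image of an operator. -/
def subX (l : GoodPrime bad) : Localization (denom θ') :=
  if h : Entering M M' l then
    Localization.mk (MvPolynomial.X l ^ 2 + MvPolynomial.C ((l.1 : O) * L.cst l))
      ⟨MvPolynomial.X l, (L.sys_new l h).1⟩
  else algebraMap (Poly O bad) _ (MvPolynomial.X l)

/-- The substitution. -/
def sub : Poly O bad →+* Localization (denom θ') :=
  MvPolynomial.eval₂Hom ((algebraMap (Poly O bad) (Localization (denom θ'))).comp MvPolynomial.C)
    L.subX

theorem sub_C (r : O) :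
    L.sub (MvPolynomial.C r) = algebraMap (Poly O bad) _ (MvPolynomial.C r) :=
  MvPolynomial.eval₂Hom_C _ _ r

theorem sub_X (l : GoodPrime bad) : L.sub (MvPolynomial.X l) = L.subX l :=
  MvPolynomial.eval₂Hom_X' _ _ l

/-- The residual system on the localisation. -/
def locSys (θ' : Poly O bad →+* k) : Localization (denom θ') →+* k :=
  IsLocalization.lift (M := denom θ') (g := θ') fun s => IsUnit.mk0 _ s.2

theorem locSys_sub : (locSys θ').comp L.sub = θ := by
  classical
  refine MvPolynomial.ringHom_ext (fun r => ?_) fun l => ?_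
  · rw [RingHom.comp_apply, L.sub_C, locSys, IsLocalization.lift_eq, L.sys_C]
  · rw [RingHom.comp_apply, L.sub_X, subX]
    split_ifs with h
    · rw [Localization.mk_eq_mk', locSys, IsLocalization.lift_mk'_spec, map_add, map_pow,
        ← (L.sys_new l h).2, mul_comm]
    · rw [locSys, IsLocalization.lift_eq, L.sys_old l h]

theorem isUnit_sub (s : denom θ) : IsUnit (L.sub s) := by
  obtain ⟨a, t, h⟩ := IsLocalization.exists_mk'_eq (denom θ') (L.sub (s : Poly O bad))
  have h1 : θ' a ≠ 0 := by
    intro h0
    have h2 := RingHom.congr_fun L.locSys_sub (s : Poly O bad)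
    rw [RingHom.comp_apply, ← h, locSys,
      (IsLocalization.lift_mk'_spec (M := denom θ') a (0 : k) t
        (g := θ') (hg := fun s => IsUnit.mk0 _ s.2)).mpr (by rw [h0, mul_zero])] at h2
    exact s.2 h2.symm
  have h3 : IsUnit (algebraMap (Poly O bad) (Localization (denom θ')) a) :=
    IsLocalization.map_units _ (⟨a, h1⟩ : denom θ')
  rw [← IsLocalization.mk'_spec (Localization (denom θ')) a t, h] at h3
  exact isUnit_of_mul_isUnit_left h3

/-- Restriction of classes. -/
def resCoh : Coh O χ bad N →+ Coh O χ' bad N := resH1 L.compat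

theorem resCoh_toCoh (x : H1 (psi χ) N) :
    L.resCoh (toCoh O χ bad N x) = toCoh O χ' bad N (resH1 L.compat x) := rfl

theorem resCoh_X_old (l : GoodPrime bad) (h : ¬ Entering M M' l) (x : Coh O χ bad N) :
    L.resCoh ((MvPolynomial.X l : Poly O bad) • x) =
      (MvPolynomial.X l : Poly O bad) • L.resCoh x := by
  obtain ⟨x, rfl⟩ := (toCoh O χ bad N).surjective x
  rw [poly_X_smul, resCoh_toCoh, resCoh_toCoh, poly_X_smul]
  exact congrArg _ (resH1_heckeH1 L.compat (fun h' => by_contra fun h'' => h ⟨h', h''⟩) x)

theorem resCoh_X_new (l : GoodPrime bad) (h : Entering M M' l) (x : Coh O χ bad N) :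
    (MvPolynomial.X l : Poly O bad) • L.resCoh ((MvPolynomial.X l : Poly O bad) • x) =
      (MvPolynomial.X l ^ 2 + MvPolynomial.C ((l.1 : O) * L.cst l) : Poly O bad) • L.resCoh x := by
  obtain ⟨x, rfl⟩ := (toCoh O χ bad N).surjective x
  have hcop : M.Coprime l.1 := ((l.2.1.coprime_iff_not_dvd).mpr h.2).symm
  have hd : M * l.1 ∣ M' := hcop.mul_dvd_of_dvd_of_dvd L.dvd h.1
  have hc1 : Compat (dvd_mul_right M l.1) χ (liftChar χ l.1) N := compat_liftChar χ l.1
  have hc2 : Compat hd (liftChar χ l.1) χ' N := fun d hu n => by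
    rw [← L.compat d hu n, MonoidHom.comp_apply]
    congr 2
    exact RingHom.congr_fun (ZMod.castHom_comp (dvd_mul_right M l.1) hd) d
  have key := congrArg (resH1 hc2) (resH1_quadratic χ l.1 h.2 x)
  rw [map_add, resH1_heckeH1 hc2 (fun _ => dvd_mul_left _ _),
    resH1_heckeH1 hc2 (fun _ => dvd_mul_left _ _), resH1_heckeH1 hc2 (fun _ => dvd_mul_left _ _),
    resH1_resH1 hc1 hc2 L.compat, resH1_resH1 hc1 hc2 L.compat,
    resH1_smul hc2 (χ (l.1 : ZMod M) * (l.1 : A)) (algebraMap O A' ((l.1 : O) * L.cst l))
      (fun n => ?_), resH1_resH1 hc1 hc2 L.compat] at key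
  · rw [poly_X_smul, resCoh_toCoh, resCoh_toCoh, poly_X_smul, add_smul, sq, mul_smul, poly_X_smul,
      poly_X_smul, poly_C_smul]
    exact congrArg (toCoh O χ' bad N) key
  · rw [mul_comm, mul_smul, L.cst_spec l h, ← mul_smul, ← map_natCast (algebraMap O A), ← map_mul,
      L.scal]

/-- Restriction into the localised classes. -/
def resTo : Coh O χ bad N →+ Loc χ' N θ' := (toLoc χ' N θ').toAddMonoidHom.comp L.resCoh

theorem resTo_apply (x : Coh O χ bad N) : L.resTo x = toLoc χ' N θ' (L.resCoh x) := rfl

/-- Semilinearity. -/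
theorem resTo_smul (r : Poly O bad) (x : Coh O χ bad N) : L.resTo (r • x) = L.sub r • L.resTo x := by
  classical
  induction r using MvPolynomial.induction_on generalizing x with
  | C a =>
    rw [L.sub_C, algebraMap_smul, resTo_apply, resTo_apply, ← map_smul]
    refine congrArg _ ?_
    obtain ⟨x, rfl⟩ := (toCoh O χ bad N).surjective x
    rw [poly_C_smul, ← map_smul, resCoh_toCoh, resH1_smul L.compat _ _ (L.scal a), resCoh_toCoh,
      poly_C_smul, map_smul]
  | add p q hp hq => rw [add_smul, map_add, hp, hq, map_add, add_smul]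
  | mul_X p l hp =>
    rw [mul_smul, hp, map_mul, mul_smul, L.sub_X]
    congr 1
    rw [resTo_apply, resTo_apply, subX]
    split_ifs with h
    · rw [LocalizedModule.mkLinearMap_apply, LocalizedModule.mkLinearMap_apply,
        LocalizedModule.mk_smul_mk, mul_one, LocalizedModule.mk_eq]
      exact ⟨1, by simp only [one_smul, Submonoid.smul_def]; exact L.resCoh_X_new l h x⟩
    · rw [algebraMap_smul, L.resCoh_X_old l h, map_smul]

/-- Restriction of localised classes. -/
def resLoc : Loc χ N θ →+ Loc χ' N θ' where
  toFun x := LocalizedModule.liftOn x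
    (fun z => ((L.isUnit_sub z.2).unit⁻¹ : (Localization (denom θ'))ˣ).val • L.resTo z.1) (by
      rintro ⟨m, s⟩ ⟨m', s'⟩ ⟨u, hu⟩
      have h := congrArg L.resTo hu
      simp only [Submonoid.smul_def, L.resTo_smul] at h
      have h' := (L.isUnit_sub u).smul_left_cancel.mp h
      dsimp only
      set a := (L.isUnit_sub s).unit
      set b := (L.isUnit_sub s').unit
      rw [show L.sub (s' : Poly O bad) = (b : Localization (denom θ')) from rfl,
        show L.sub (s : Poly O bad) = (a : Localization (denom θ')) from rfl] at h'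
      have h'' := congrArg (fun v => ((a⁻¹ * b⁻¹ : (Localization (denom θ'))ˣ) :
        Localization (denom θ')) • v) h'
      simp only [smul_smul, ← Units.val_mul] at h''
      rwa [show a⁻¹ * b⁻¹ * b = a⁻¹ by group, show a⁻¹ * b⁻¹ * a = b⁻¹ by
        rw [mul_comm a⁻¹, mul_assoc, inv_mul_cancel, mul_one]] at h'')
  map_zero' := by
    rw [← LocalizedModule.zero_mk 1, LocalizedModule.liftOn_mk, map_zero, smul_zero]
  map_add' x y := by
    induction x using LocalizedModule.induction_on with
    | h m s =>
    induction y using LocalizedModule.induction_on with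
    | h m' s' =>
      rw [LocalizedModule.mk_add_mk, LocalizedModule.liftOn_mk, LocalizedModule.liftOn_mk,
        LocalizedModule.liftOn_mk]
      dsimp only
      have hu : (L.isUnit_sub (s * s')).unit = (L.isUnit_sub s).unit * (L.isUnit_sub s').unit :=
        Units.ext (map_mul L.sub (s : Poly O bad) (s' : Poly O bad))
      rw [hu, map_add, Submonoid.smul_def, Submonoid.smul_def, L.resTo_smul, L.resTo_smul, smul_add,
        smul_smul, smul_smul]
      set a := (L.isUnit_sub s).unit
      set b := (L.isUnit_sub s').unit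
      rw [show L.sub (s' : Poly O bad) = (b : Localization (denom θ')) from rfl,
        show L.sub (s : Poly O bad) = (a : Localization (denom θ')) from rfl, ← Units.val_mul,
        ← Units.val_mul, mul_inv_rev, mul_comm b⁻¹, mul_assoc, inv_mul_cancel, mul_one,
        mul_comm a⁻¹, mul_assoc, inv_mul_cancel, mul_one]

theorem resLoc_toLoc (x : Coh O χ bad N) : L.resLoc (toLoc χ N θ x) = L.resTo x := by
  show ((L.isUnit_sub 1).unit⁻¹ : (Localization (denom θ'))ˣ).val • L.resTo x = _
  rw [show (L.isUnit_sub 1).unit = 1 from Units.ext (map_one L.sub), inv_one, Units.val_one,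
    one_smul]

theorem resLoc_C_smul (r : O) (x : Loc χ N θ) :
    L.resLoc ((MvPolynomial.C r : Poly O bad) • x) =
      (MvPolynomial.C r : Poly O bad) • L.resLoc x := by
  induction x using LocalizedModule.induction_on with
  | h m s =>
    rw [LocalizedModule.smul'_mk]
    show ((L.isUnit_sub s).unit⁻¹ : (Localization (denom θ'))ˣ).val • L.resTo _ = (MvPolynomial.C r : Poly O bad) • (((L.isUnit_sub s).unit⁻¹ : (Localization (denom θ'))ˣ).val • L.resTo m)
    rw [L.resTo_smul, L.sub_C, ← algebraMap_smul (Localization (denom θ')) (MvPolynomial.C r : Poly O bad),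
      smul_smul, smul_smul, mul_comm]

end LevelMap

end FLTAgent.Lowering.Cocycle
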