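import Fermat.Agent.Lowering.P4.HomDegeneracy
import Fermat.Agent.Lowering.P4.Semilinear

/-!
# A prime entering the level, for untwisted finite coefficients

When the character acts trivially, restriction to the level multiplied by one prime is bijective on
the classes localised at compatible systems, provided the eigenvalue at the prime is regular.
-/

set_option autoImplicit false

noncomputable section

set_option synthInstance.maxHeartbeats 400000

open scoped MatrixGroups
open CongruenceSubgroup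

namespace FLTAgent.Lowering.Cocycle

open FLTAgent.PeriodHecke FLTAgent.LevelRaise

/-! ### Untwisted classes are homomorphisms -/

section Hom

variable {M : ℕ} {A : Type*} [CommRing A] {χ : ZMod M →* A} {N : Type*} [AddCommGroup N]
  [Module A N] (hχ : ∀ d : ZMod M, IsUnit d → ∀ n : N, χ d • n = n)

include hχ in
theorem psi_smul_of_trivial (γ : Gamma0 M) (n : N) : psi χ γ • n = n :=
  hχ _ ((Group.isUnit γ).map (Gamma0Map M)) n

/-- A homomorphism from an untwisted cocycle. -/
def z1Hom : Z1 (psi χ) N →+ (Additive (Gamma0 M) →+ N) where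
  toFun c := AddMonoidHom.mk' (fun γ => c.1 γ.toMul) fun γ δ => by
    rw [toMul_add, Z1_mul, psi_smul_of_trivial hχ]
  map_zero' := rfl
  map_add' _ _ := rfl

/-- Untwisted classes as homomorphisms. -/
def clsHom : H1 (psi χ) N →+ (Additive (Gamma0 M) →+ N) :=
  QuotientAddGroup.lift (LinearMap.range (cobdry (psi χ) N)).toAddSubgroup (z1Hom hχ) (by
    rintro _ ⟨v, rfl⟩
    refine AddMonoidHom.mem_ker.mpr (AddMonoidHom.ext fun γ => ?_)
    show psi χ γ.toMul • v - v = 0
    rw [psi_smul_of_trivial hχ, sub_self])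

theorem clsHom_cls (c : Z1 (psi χ) N) (γ : Gamma0 M) :
    clsHom hχ (cls c) (Additive.ofMul γ) = c.1 γ := rfl

theorem clsHom_injective : Function.Injective (clsHom hχ) := by
  refine (injective_iff_map_eq_zero _).mpr fun x hx => ?_
  induction x using Submodule.Quotient.induction_on with
  | H c =>
    rw [show c = 0 from Subtype.ext (funext fun γ => DFunLike.congr_fun hx (Additive.ofMul γ))]
    rfl

theorem clsHom_surjective : Function.Surjective (clsHom hχ) := fun φ =>
  ⟨cls ⟨fun γ => φ (Additive.ofMul γ), fun γ δ => by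
    show φ (Additive.ofMul (γ * δ)) = φ _ + psi χ γ • φ (Additive.ofMul δ)
    rw [psi_smul_of_trivial hχ, ofMul_mul, map_add]⟩, AddMonoidHom.ext fun _ => rfl⟩

theorem clsHom_heckeH1 {l : ℕ} [Fact l.Prime] (x : H1 (psi χ) N) :
    clsHom hχ (heckeH1 (N := N) (stdWeight (p := l) χ) x) =
      (heckeFam M l).hecke (clsHom hχ x) := by
  induction x using Submodule.Quotient.induction_on with
  | H c =>
    refine AddMonoidHom.ext fun γ => ?_
    obtain ⟨γ, rfl⟩ := Additive.ofMul.surjective γ
    rw [heckeH1_cls, clsHom_cls, heckeZ1_apply, HeckeFamily.hecke_apply]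
    refine Finset.sum_congr rfl fun i _ => ?_
    rw [clsHom_cls]
    rcases HeckeIdx.cases M l i with ⟨hi, rfl⟩ | ⟨j, rfl⟩
    · rw [stdWeight_w, if_pos rfl]
      exact hχ _ ((ZMod.isUnit_iff_coprime l M).mpr
        ((Fact.out : l.Prime).coprime_iff_not_dvd.mpr (hi rfl))) _
    · rw [stdWeight_w, if_neg (show (idxSome M l j).1 ≠ none from Option.some_ne_none j), one_smul]

theorem clsHom_resH1 {M' : ℕ} {A' : Type*} [CommRing A'] [Module A' N] {h : M ∣ M'}
    {χ' : ZMod M' →* A'} (hc : Compat h χ χ' N)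
    (hχ' : ∀ d : ZMod M', IsUnit d → ∀ n : N, χ' d • n = n) (x : H1 (psi χ) N) :
    clsHom hχ' (resH1 hc x) = (clsHom hχ x).comp (incl h).toAdditive := by
  induction x using Submodule.Quotient.induction_on with
  | H c => rfl

end Hom

/-! ### One prime -/

variable {M : ℕ} [NeZero M] {O : Type} [CommRing O] {A A' : Type} [CommRing A] [CommRing A']
  [Algebra O A] [Algebra O A'] {bad : Finset ℕ} {l : GoodPrime bad} [NeZero (M * l.1)]
  {χ : ZMod M →* A} {χ' : ZMod (M * l.1) →* A'} {N : Type} [AddCommGroup N] [Module A N]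
  [Module A' N] {k : Type} [Field k] {θ θ' : Poly O bad →+* k} (L : LevelMap χ χ' N θ θ')
  (hlM : ¬ l.1 ∣ M) (hχ : ∀ d : ZMod M, IsUnit d → ∀ n : N, χ d • n = n)

namespace LevelMap

include hlM in
omit [NeZero M] [NeZero (M * l.1)] in
theorem entering_iff (r : GoodPrime bad) : Entering M (M * l.1) r ↔ r = l := by
  refine ⟨fun h => Subtype.ext ?_, fun h => by subst h; exact ⟨dvd_mul_left _ _, hlM⟩⟩
  exact (Nat.prime_dvd_prime_iff_eq r.2.1 l.2.1).mp ((r.2.1.dvd_mul.mp h.1).resolve_left h.2)

include hlM in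
omit [NeZero M] [NeZero (M * l.1)] in
/-- Operators at the larger level on restricted classes. -/
theorem exists_pair (r : Poly O bad) : ∃ P Q : Poly O bad,
    θ' r = θ P + θ' (MvPolynomial.X l) * θ Q ∧ ∀ m, r • L.resCoh m =
      L.resCoh (P • m) + (MvPolynomial.X l : Poly O bad) • L.resCoh (Q • m) := by
  have hl : Entering M (M * l.1) l := (entering_iff hlM l).mpr rfl
  have hC : ∀ (a : O) (m : Coh O χ bad N),
      (MvPolynomial.C a : Poly O bad) • L.resCoh m = L.resCoh ((MvPolynomial.C a : Poly O bad) • m) :=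
    fun a m => by
    obtain ⟨x, rfl⟩ := (toCoh O χ bad N).surjective m
    rw [poly_C_smul, poly_C_smul, ← map_smul (toCoh O χ bad N), resCoh_toCoh, resCoh_toCoh,
      resH1_smul L.compat _ _ (L.scal a), map_smul]
  induction r using MvPolynomial.induction_on with
  | C a =>
    exact ⟨MvPolynomial.C a, 0, by rw [map_zero, mul_zero, add_zero, L.sys_C],
      fun m => by rw [zero_smul, map_zero, smul_zero, add_zero, hC]⟩
  | add r r' h h' =>
    obtain ⟨P, Q, e, f⟩ := h
    obtain ⟨P', Q', e', f'⟩ := h'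
    refine ⟨P + P', Q + Q', by rw [map_add, map_add, map_add, e, e']; ring, fun m => ?_⟩
    rw [add_smul, f, f', add_smul, add_smul, map_add, map_add, smul_add]
    abel
  | mul_X r s h =>
    obtain ⟨P, Q, e, f⟩ := h
    rcases eq_or_ne s l with rfl | hs
    · refine ⟨-(MvPolynomial.C ((s.1 : O) * L.cst s) * Q), P + MvPolynomial.X s * Q, ?_, fun m => ?_⟩
      · rw [map_mul θ' r, e, map_neg, map_mul θ (MvPolynomial.C _) Q, map_add, map_mul θ _ Q, L.sys_C]
        linear_combination -(θ Q) * (L.sys_new s hl).2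
      · have hq := L.resCoh_X_new s hl (Q • m)
        rw [add_smul, sq, mul_smul] at hq
        rw [mul_comm r, mul_smul, f, smul_add, add_smul, map_add, neg_smul, map_neg, mul_smul,
          ← hC, mul_smul, smul_add, hq]
        abel
    · have hs' : ¬ Entering M (M * l.1) s := fun h => hs ((entering_iff hlM s).mp h)
      refine ⟨MvPolynomial.X s * P, MvPolynomial.X s * Q, ?_, fun m => ?_⟩
      · rw [map_mul, e, map_mul, map_mul, L.sys_old s hs']; ring
      · rw [mul_comm r, mul_smul, f, smul_add, mul_smul, mul_smul, L.resCoh_X_old s hs',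
          L.resCoh_X_old s hs', smul_comm]

omit [NeZero M] [NeZero (M * l.1)] in
include L hlM in
theorem trivial_right (d : ZMod (M * l.1)) (hd : IsUnit d) (hχ : ∀ d : ZMod M, IsUnit d → ∀ n : N, χ d • n = n)
    (n : N) : χ' d • n = n := by
  rw [← L.compat d hd, hχ _ (hd.map _)]

include hlM hχ in
/-- Restriction is injective on localised classes. -/
theorem resLoc_injective (hT : θ (MvPolynomial.X l) ^ 2 ≠ ((l.1 + 1 : ℕ) : k) ^ 2)
    (hsurj : Function.Surjective (toLoc χ N θ)) : Function.Injective L.resLoc := by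
  obtain ⟨B⟩ := exists_bez hlM
  have hχ' := fun d hd n => L.trivial_right hlM d hd hχ n
  refine (injective_iff_map_eq_zero _).mpr fun x hx => ?_
  obtain ⟨m, rfl⟩ := hsurj x
  rw [L.resLoc_toLoc, resTo_apply, LocalizedModule.mkLinearMap_apply, ← LocalizedModule.zero_mk 1,
    LocalizedModule.mk_eq] at hx
  obtain ⟨u, hu⟩ := hx
  simp only [one_smul, smul_zero, Submonoid.smul_def] at hu
  obtain ⟨P, Q, he, hf⟩ := L.exists_pair hlM (u : Poly O bad)
  rw [hf] at hu
  set T : Poly O bad := MvPolynomial.X l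
  set Xm := P • m + T • (Q • m) with hXm
  set Ym := Q • m with hYm
  obtain ⟨x', hx'⟩ := (toCoh O χ bad N).surjective Xm
  obtain ⟨y', hy'⟩ := (toCoh O χ bad N).surjective Ym
  obtain ⟨p', hp'⟩ := (toCoh O χ bad N).surjective (P • m)
  set φX := clsHom hχ x'
  set φY := clsHom hχ y'
  -- `res X = op res Y`
  have hU : resHom φX = opHom B (resHom φY) := by
    rw [← hp', ← hy', resCoh_toCoh, resCoh_toCoh, poly_X_smul, ← map_add] at hu
    have h := congrArg (clsHom hχ') ((toCoh O χ' bad N).injective (hu.trans (map_zero _).symm))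
    rw [map_add, map_zero, opAt, clsHom_heckeH1, clsHom_resH1 hχ L.compat hχ',
      clsHom_resH1 hχ L.compat hχ'] at h
    have hX : φX = clsHom hχ p' + (heckeFam M l.1).hecke φY := by
      rw [← clsHom_heckeH1, ← map_add]
      refine congrArg _ ((toCoh O χ bad N).injective ?_)
      rw [hx', map_add, hp', hXm, ← hy', poly_X_smul]
      rfl
    have h' : resHom (clsHom hχ p') + (heckeFam (M * l.1) l.1).hecke (resHom φY) = 0 := h
    have h3 := resHom_tauHom_opHom B (resHom φY)
    rw [tauHom_opHom_resHom B φY] at h3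
    rw [hX, show resHom (clsHom hχ p' + (heckeFam M l.1).hecke φY) =
      resHom (clsHom hχ p') + resHom ((heckeFam M l.1).hecke φY) from AddMonoidHom.ext fun _ => rfl,
      h3, eq_neg_of_add_eq_zero_left h']
    abel
  have h1 : (l.1 + 1) • φX = (heckeFam M l.1).hecke φY := by
    rw [← tauHom_resHom B, hU, tauHom_opHom_resHom]
  have h2 : (heckeFam M l.1).hecke φX = (l.1 + 1) • φY := by
    rw [← tauHom_opHom_resHom B φX, hU, opHom_opHom, tauHom_resHom B]
  set e : Poly O bad := T ^ 2 - ((l.1 + 1 : ℕ) : Poly O bad) ^ 2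
  have hed : e ∈ denom θ := by
    rw [mem_denom, map_sub, map_pow, map_pow, map_natCast, sub_ne_zero]
    exact hT
  have hke : e • Xm = 0 ∧ e • Ym = 0 := by
    have hTX : T • Xm = (l.1 + 1) • Ym := by
      rw [← hx', ← hy', poly_X_smul, ← map_nsmul]
      exact congrArg _ (clsHom_injective hχ (by rw [opAt, clsHom_heckeH1, map_nsmul]; exact h2))
    have hTY : T • Ym = (l.1 + 1) • Xm := by
      rw [← hx', ← hy', poly_X_smul, ← map_nsmul]
      exact congrArg _ (clsHom_injective hχ (by rw [opAt, clsHom_heckeH1, map_nsmul]; exact h1.symm))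
    constructor
    · rw [sub_smul, sq, mul_smul, hTX, smul_comm T (l.1 + 1) Ym, hTY, ← Nat.cast_pow,
        Nat.cast_smul_eq_nsmul, smul_smul, ← sq, sub_self]
    · rw [sub_smul, sq, mul_smul, hTY, smul_comm T (l.1 + 1) Xm, hTX, ← Nat.cast_pow,
        Nat.cast_smul_eq_nsmul, smul_smul, ← sq, sub_self]
  have hPm : e • P • m = 0 := by
    rw [show P • m = Xm - T • Ym by rw [hXm]; abel, smul_sub, hke.1, smul_comm, hke.2, smul_zero,
      sub_zero]
  rw [LocalizedModule.mkLinearMap_apply, ← LocalizedModule.zero_mk 1, LocalizedModule.mk_eq]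
  by_cases hP : θ P = 0
  · have hQ : Q ∈ denom θ := fun h => u.2 (by rw [he, hP, h, mul_zero, add_zero])
    exact ⟨⟨e, hed⟩ * ⟨Q, hQ⟩, by
      simp only [one_smul, smul_zero, Submonoid.smul_def, Submonoid.coe_mul, mul_smul]; exact hke.2⟩
  · exact ⟨⟨e, hed⟩ * ⟨P, hP⟩, by
      simp only [one_smul, smul_zero, Submonoid.smul_def, Submonoid.coe_mul, mul_smul]; exact hPm⟩

/-- Semilinearity on localised classes. -/
theorem resLoc_smul {M' : ℕ} {χ' : ZMod M' →* A'} {θ θ' : Poly O bad →+* k}
    (L : LevelMap χ χ' N θ θ') (r : Poly O bad) (x : Loc χ N θ) :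
    L.resLoc (r • x) = L.sub r • L.resLoc x := by
  induction x using LocalizedModule.induction_on with
  | h m s =>
    rw [LocalizedModule.smul'_mk]
    show ((L.isUnit_sub s).unit⁻¹ : (Localization (denom θ'))ˣ).val • L.resTo _ =
      L.sub r • (((L.isUnit_sub s).unit⁻¹ : (Localization (denom θ'))ˣ).val • L.resTo m)
    rw [L.resTo_smul, smul_smul, smul_smul, mul_comm]

/-- The elements preserving the image of restriction. -/
def stab {M' : ℕ} {χ' : ZMod M' →* A'} {θ θ' : Poly O bad →+* k} (L : LevelMap χ χ' N θ θ') :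
    Subring (Localization (denom θ')) where
  carrier := {g | ∀ x, ∃ x', L.resLoc x' = g • L.resLoc x}
  one_mem' x := ⟨x, (one_smul _ _).symm⟩
  zero_mem' x := ⟨0, by rw [map_zero, zero_smul]⟩
  add_mem' := fun {g g'} hg hg' x => by
    obtain ⟨a, ha⟩ := hg x
    obtain ⟨b, hb⟩ := hg' x
    exact ⟨a + b, by rw [map_add, ha, hb, add_smul]⟩
  neg_mem' := fun {g} hg x => by
    obtain ⟨a, ha⟩ := hg x
    exact ⟨-a, by rw [map_neg, ha, neg_smul]⟩
  mul_mem' := fun {g g'} hg hg' x => by
    obtain ⟨b, hb⟩ := hg' x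
    obtain ⟨a, ha⟩ := hg b
    exact ⟨a, by rw [ha, hb, mul_smul]⟩

theorem sub_mem_stab {M' : ℕ} {χ' : ZMod M' →* A'} {θ θ' : Poly O bad →+* k}
    (L : LevelMap χ χ' N θ θ') (r : Poly O bad) : L.sub r ∈ L.stab :=
  fun x => ⟨r • x, L.resLoc_smul r x⟩

theorem inv_mem_stab {M' : ℕ} {χ' : ZMod M' →* A'} {θ θ' : Poly O bad →+* k}
    (L : LevelMap χ χ' N θ θ') {s : Poly O bad} (hs : s ∈ denom θ)
    {v : Localization (denom θ')} (hv : v * L.sub s = 1) : v ∈ L.stab := by
  intro x
  obtain ⟨x', rfl⟩ : ∃ x', s • x' = x := by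
    induction x using LocalizedModule.induction_on with
    | h m t =>
      exact ⟨LocalizedModule.mk m (⟨s, hs⟩ * t), by
        rw [LocalizedModule.smul'_mk]; exact LocalizedModule.mk_cancel_common_left ⟨s, hs⟩ t m⟩
  exact ⟨x', by rw [L.resLoc_smul, smul_smul, hv, one_smul]⟩

theorem locSys_algebraMap (θ' : Poly O bad →+* k) (r : Poly O bad) :
    locSys θ' (algebraMap (Poly O bad) (Localization (denom θ')) r) = θ' r :=
  IsLocalization.lift_eq _ _

theorem isUnit_of_locSys_ne (θ' : Poly O bad →+* k) {v : Localization (denom θ')}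
    (hv : locSys θ' v ≠ 0) : IsUnit v := by
  obtain ⟨a, t, rfl⟩ := IsLocalization.exists_mk'_eq (denom θ') v
  have h1 : θ' a ≠ 0 := fun h0 => hv ((IsLocalization.lift_mk'_spec (M := denom θ') a (0 : k) t
    (g := θ') (hg := fun s => IsUnit.mk0 _ s.2)).mpr (by rw [h0, mul_zero]))
  have h3 : IsUnit (algebraMap (Poly O bad) (Localization (denom θ')) a) :=
    IsLocalization.map_units _ (⟨a, h1⟩ : denom θ')
  rw [← IsLocalization.mk'_spec (Localization (denom θ')) a t] at h3
  exact isUnit_of_mul_isUnit_left h3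

include hlM hχ in
/-- Restriction is surjective on localised classes. -/
theorem resLoc_surjective (a : O) (ha : θ' (MvPolynomial.C a) = θ' (MvPolynomial.X l))
    (hne : θ' (MvPolynomial.X l) ^ 2 ≠ θ' (MvPolynomial.C ((l.1 : O) * L.cst l)))
    (hne1 : θ' (MvPolynomial.X l) ^ 2 ≠ 1) [Finite (Loc χ' N θ')]
    (hsurj' : Function.Surjective (toLoc χ' N θ')) : Function.Surjective L.resLoc := by
  classical
  obtain ⟨B⟩ := exists_bez hlM
  have hχ' := fun d hd n => L.trivial_right hlM d hd hχ n
  have hl : Entering M (M * l.1) l := (entering_iff hlM l).mpr rfl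
  set ρ := locSys θ'
  set U : Localization (denom θ') := algebraMap (Poly O bad) _ (MvPolynomial.X l) with hUdef
  set t := L.sub (MvPolynomial.X l) with ht
  set c := L.sub (MvPolynomial.C ((l.1 : O) * L.cst l)) with hc
  set ah := L.sub (MvPolynomial.C a) with hah
  have hquad : t * U = U ^ 2 + c := by
    rw [ht, L.sub_X, subX, dif_pos hl, hc, L.sub_C, hUdef, Localization.mk_eq_mk', ← map_pow,
      ← map_add]
    exact IsLocalization.mk'_spec _ _ _
  have hρU : ρ U = θ' (MvPolynomial.X l) := locSys_algebraMap θ' _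
  have hρa : ρ ah = θ' (MvPolynomial.X l) := by
    rw [hah, L.sub_C, locSys_algebraMap, ha]
  set ε := U - ah
  have hρε : ρ ε = 0 := by rw [map_sub, hρU, hρa, sub_self]
  set d : Poly O bad := 2 * MvPolynomial.C a - MvPolynomial.X l
  have hd : d ∈ denom θ := by
    rw [mem_denom, map_sub, map_mul, map_ofNat, L.sys_C, ha, sub_ne_zero]
    intro h
    refine hne ?_
    have h' := (L.sys_new l hl).2
    rw [← h] at h'
    linear_combination h'
  set u : Localization (denom θ') := ↑((L.isUnit_sub ⟨d, hd⟩).unit⁻¹)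
  have hu : u * L.sub d = 1 := (L.isUnit_sub ⟨d, hd⟩).val_inv_mul
  have huG : u ∈ L.stab := L.inv_mem_stab hd hu
  set s0 := -(ah ^ 2 - t * ah + c) with hs0
  have hs0G : s0 ∈ L.stab :=
    neg_mem (add_mem (sub_mem (pow_mem (L.sub_mem_stab _) 2)
      (mul_mem (L.sub_mem_stab _) (L.sub_mem_stab _))) (L.sub_mem_stab _))
  have heq : L.sub d * ε + ε ^ 2 = s0 := by
    rw [map_sub, map_mul, map_ofNat, ← ht, ← hah, hs0]
    linear_combination -hquad
  have hfix : ε = u * (s0 - ε ^ 2) := by
    rw [← heq, add_sub_cancel_right, ← mul_assoc, hu, one_mul]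
  have hρs0 : ρ s0 = 0 := by rw [← heq, map_add, map_mul, map_pow, hρε]; simp
  let w : ℕ → Localization (denom θ') := fun i => (fun v => u * (s0 - v ^ 2))^[i] 0
  have hw : ∀ i, w (i + 1) = u * (s0 - w i ^ 2) := fun i => Function.iterate_succ_apply' _ i 0
  have hwG : ∀ i, w i ∈ L.stab ∧ ρ (w i) = 0 := by
    intro i
    induction i with
    | zero => exact ⟨zero_mem _, map_zero _⟩
    | succ i ih =>
      refine ⟨hw i ▸ mul_mem huG (sub_mem hs0G (pow_mem ih.1 2)), ?_⟩
      rw [hw, map_mul, map_sub, map_pow, hρs0, ih.2]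
      simp
  have hrec : ∀ i n, ∃ v, ρ v = 0 ∧ ε - w (i + (n + 1)) = v * (ε - w i) := by
    intro i n
    have hstep : ∀ j, ε - w (j + 1) = (-u * (ε + w j)) * (ε - w j) := fun j => by
      rw [hw]
      linear_combination hfix
    have hρstep : ∀ j, ρ (-u * (ε + w j)) = 0 := fun j => by
      rw [map_mul, map_add, hρε, (hwG j).2, add_zero, mul_zero]
    induction n with
    | zero => exact ⟨_, hρstep i, hstep i⟩
    | succ n ih =>
      obtain ⟨v, hv, hv'⟩ := ih
      refine ⟨-u * (ε + w (i + (n + 1))) * v, by rw [map_mul, hρstep, zero_mul], ?_⟩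
      rw [← add_assoc, hstep, hv']
      ring
  -- some iterate acts as `ε`
  obtain ⟨i, hi⟩ : ∃ i, ∀ y : Loc χ' N θ', ε • y = w i • y := by
    obtain ⟨i, j, hij, h⟩ := Finite.exists_ne_map_eq_of_infinite
      (fun i (y : Loc χ' N θ') => (ε - w i) • y)
    wlog hlt : i < j generalizing i j
    · exact this j i hij.symm h.symm (lt_of_le_of_ne (not_lt.mp hlt) hij.symm)
    obtain ⟨n, rfl⟩ : ∃ n, j = i + (n + 1) := ⟨j - i - 1, by omega⟩
    obtain ⟨v, hv, hv'⟩ := hrec i n
    refine ⟨i, fun y => sub_eq_zero.mp ?_⟩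
    refine (sub_smul ε (w i) y).symm.trans ?_
    refine ((isUnit_of_locSys_ne θ' (v := 1 - v) ?_).smul_eq_zero).mp ?_
    · rw [map_sub, map_one, hv, sub_zero]; exact one_ne_zero
    · refine (sub_smul 1 v _).trans (sub_eq_zero.mpr ?_)
      rw [← mul_smul v (ε - w i) y, ← hv']
      exact (one_smul _ _).trans (congrFun h y)
  have hUact : ∀ y : Loc χ' N θ', U • y = (ah + w i) • y := fun y => by
    rw [add_smul, ← hi, ← add_smul, add_sub_cancel]
  set g := (ah + w i) ^ 2 - 1
  have hG : ah + w i ∈ L.stab := add_mem (L.sub_mem_stab _) (hwG i).1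
  have hgG : g ∈ L.stab := sub_mem (pow_mem hG 2) (one_mem _)
  have hgu : IsUnit g := by
    refine isUnit_of_locSys_ne θ' ?_
    rw [map_sub, map_pow, map_add, hρa, (hwG i).2, add_zero, map_one, sub_ne_zero]
    exact hne1
  -- elements of the image
  have hmem : ∀ y, ∃ x, L.resLoc x = g • y := by
    intro y
    obtain ⟨m, rfl⟩ := hsurj' y
    obtain ⟨z, rfl⟩ := (toCoh O χ' bad N).surjective m
    set Φ := clsHom hχ' z
    obtain ⟨a', ha'⟩ := clsHom_surjective hχ (tauHom (dvd_level M l.1) (opHom B Φ))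
    obtain ⟨b', hb'⟩ := clsHom_surjective hχ (tauHom (dvd_level M l.1) Φ)
    have key : (MvPolynomial.X l ^ 2 - 1 : Poly O bad) • toCoh O χ' bad N z =
        (MvPolynomial.X l : Poly O bad) • L.resCoh (toCoh O χ bad N a') -
          L.resCoh (toCoh O χ bad N b') := by
      rw [sub_smul, one_smul, sq, mul_smul, poly_X_smul, poly_X_smul, resCoh_toCoh, resCoh_toCoh,
        poly_X_smul, ← map_sub, ← map_sub]
      refine congrArg _ (clsHom_injective hχ' ?_)
      rw [map_sub, map_sub, opAt, clsHom_heckeH1, clsHom_heckeH1, clsHom_heckeH1,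
        clsHom_resH1 hχ L.compat hχ', clsHom_resH1 hχ L.compat hχ', ha', hb']
      show (heckeFam (M * l.1) l.1).hecke ((heckeFam (M * l.1) l.1).hecke Φ) - Φ =
        (heckeFam (M * l.1) l.1).hecke (resHom (tauHom (dvd_level M l.1) (opHom B Φ))) -
          resHom (tauHom (dvd_level M l.1) Φ)
      have h2 := resHom_tauHom_opHom B (opHom B Φ)
      rw [opHom_opHom] at h2
      rw [resHom_tauHom_opHom, h2, map_add]
      abel
    obtain ⟨xa, hxa⟩ := hG (toLoc χ N θ (toCoh O χ bad N a'))
    refine ⟨xa - toLoc χ N θ (toCoh O χ bad N b'), ?_⟩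
    rw [map_sub, hxa, L.resLoc_toLoc, L.resLoc_toLoc, ← hUact, resTo_apply, resTo_apply,
      hUdef, algebraMap_smul, ← map_smul, ← map_sub, ← key, map_smul, sub_smul, sub_smul,
      one_smul, one_smul, sq, sq, mul_smul, mul_smul, ← hUact, ← hUact, hUdef, algebraMap_smul,
      algebraMap_smul]
  -- `g` is bijective on the finite image
  intro y
  obtain ⟨x, hx⟩ := hmem y
  let R := Set.range L.resLoc
  let f : R → R := fun r => ⟨g • r.1, by obtain ⟨v, hv⟩ := r.2; rw [← hv]; exact hgG v⟩
  have hf : Function.Injective f := fun r r' h =>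
    Subtype.ext (hgu.smul_left_cancel.mp (congrArg Subtype.val h))
  obtain ⟨⟨r, x', hx'⟩, hr⟩ := (Finite.injective_iff_surjective.mp hf) ⟨g • y, x, hx⟩
  exact ⟨x', hx'.trans (hgu.smul_left_cancel.mp (congrArg Subtype.val hr))⟩

end LevelMap

end FLTAgent.Lowering.Cocycle
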