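import Mathlib
import Fermat.Agent.ES.Cocycle

/-!
# The modular group modulo its centre is the free product of cyclic groups of orders two and three

The universal property: elements of orders dividing two and three are the images of `S` and `T S`
under a homomorphism. The proof is the ping-pong on positive and negative irrational numbers.
-/

set_option autoImplicit false

noncomputable section

open scoped MatrixGroups
open Monoid (CoprodI)

namespace FLTAgent.Lowering.Cocycle

local notation "SL2Z" => Matrix.SpecialLinearGroup (Fin 2) ℤ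
local notation "S'" => (ModularGroup.S : SL2Z)
local notation "T'" => (ModularGroup.T : SL2Z)
local notation "U'" => ((ModularGroup.T * ModularGroup.S : SL2Z))

variable {X : Type*} [Group X]

/-- The homomorphism of a cyclic group given by an element. -/
def cyc (n : ℕ) [NeZero n] (a : X) (h : a ^ n = 1) : Multiplicative (ZMod n) →* X :=
  MonoidHom.mk' (fun x => a ^ (Multiplicative.toAdd x).val) fun x y => by
    rw [← pow_add, toAdd_mul, ZMod.val_add]
    exact (pow_eq_pow_mod _ h).symm

theorem cyc_gen (n : ℕ) [NeZero n] [Fact (1 < n)] (a : X) (h : a ^ n = 1) :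
    cyc n a h (Multiplicative.ofAdd 1) = a := by
  show a ^ (1 : ZMod n).val = a
  rw [ZMod.val_one, pow_one]

/-- The order of a factor. -/
abbrev ord (i : Bool) : ℕ := bif i then 3 else 2

instance (i : Bool) : NeZero (ord i) := ⟨by cases i <;> decide⟩
instance (i : Bool) : Fact (1 < ord i) := ⟨by cases i <;> decide⟩

/-- The factors. -/
abbrev Fac (i : Bool) : Type := Multiplicative (ZMod (ord i))

/-- Homomorphisms of the factors from two elements. -/
def facHom {a b : X} (ha : a ^ 2 = 1) (hb : b ^ 3 = 1) : ∀ i, Fac i →* X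
  | false => cyc 2 a ha
  | true => cyc 3 b hb

/-- The action on the projective line over the real numbers. -/
def projPerm : SL2Z →* Equiv.Perm (OnePoint ℝ) :=
  (MulAction.toPermHom (GL (Fin 2) ℝ) (OnePoint ℝ)).comp
    (Matrix.SpecialLinearGroup.toGL.comp
      (Matrix.SpecialLinearGroup.map (Int.castRingHom ℝ)))

theorem projPerm_coe (g : SL2Z) (x : ℝ)
    (h : ((g 1 0 : ℤ) : ℝ) * x + ((g 1 1 : ℤ) : ℝ) ≠ 0) :
    projPerm g (x : OnePoint ℝ) =
      ((((g 0 0 : ℤ) : ℝ) * x + ((g 0 1 : ℤ) : ℝ)) /
        (((g 1 0 : ℤ) : ℝ) * x + ((g 1 1 : ℤ) : ℝ)) : ℝ) := by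
  show (Matrix.SpecialLinearGroup.toGL (Matrix.SpecialLinearGroup.map (Int.castRingHom ℝ) g)) •
    (x : OnePoint ℝ) = _
  rw [OnePoint.smul_some_eq_ite]
  simp [Matrix.SpecialLinearGroup.toGL, h]

theorem projPerm_S_sq : projPerm S' ^ 2 = 1 := by
  refine Equiv.ext fun x => ?_
  rw [← map_pow, show S' ^ 2 = -1 from by decide]
  cases x with
  | infty =>
    show (Matrix.SpecialLinearGroup.toGL
      (Matrix.SpecialLinearGroup.map (Int.castRingHom ℝ) (-1 : SL2Z))) • (OnePoint.infty : OnePoint ℝ) = _
    rw [OnePoint.smul_infty_eq_ite]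
    simp [Matrix.SpecialLinearGroup.toGL]
  | coe x =>
    rw [projPerm_coe _ _ (by simp)]
    simp

theorem projPerm_U_cube : projPerm U' ^ 3 = 1 := by
  rw [← map_pow, show U' ^ 3 = S' ^ 2 from by decide, map_pow, projPerm_S_sq]

/-- The sets of the ping-pong. -/
def side : Bool → Set (OnePoint ℝ)
  | false => {z | ∃ x : ℝ, z = (x : OnePoint ℝ) ∧ x < 0 ∧ Irrational x}
  | true => {z | ∃ x : ℝ, z = (x : OnePoint ℝ) ∧ 0 < x ∧ Irrational x}

theorem lift_facHom_injective :
    Function.Injective (CoprodI.lift (facHom projPerm_S_sq projPerm_U_cube)) := by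
  refine CoprodI.lift_injective_of_ping_pong _ (Or.inr ⟨true, ?_⟩) side ?_ ?_ ?_
  · simp [Fac, ord]
  · have h : Irrational √2 := irrational_sqrt_two
    have h0 : (0 : ℝ) < √2 := by positivity
    rintro (_ | _)
    · exact ⟨_, -√2, rfl, by linarith, h.neg⟩
    · exact ⟨_, √2, rfl, h0, h⟩
  · rintro (_ | _) (_ | _) hne <;> first | exact absurd rfl hne | skip
    all_goals
      simp only [Function.onFun, Set.disjoint_left, side, Set.mem_ofPred_eq]
      rintro _ ⟨x, rfl, hx, -⟩ ⟨y, hy, hy', -⟩
      rw [OnePoint.coe_eq_coe] at hy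
      linarith
  · rintro (_ | _) (_ | _) hne h hh <;> first | exact absurd rfl hne | skip
    · rintro _ ⟨_, ⟨x, rfl, hx, hirr⟩, rfl⟩
      have hh' : h = Multiplicative.ofAdd 1 := by revert h; decide
      subst hh'
      show cyc 2 (projPerm S') projPerm_S_sq (Multiplicative.ofAdd 1) • (x : OnePoint ℝ) ∈ _
      rw [cyc_gen, Equiv.Perm.smul_def, projPerm_coe _ _ (by simp [ModularGroup.coe_S, hirr.ne_zero])]
      refine ⟨-1 / x, by simp [ModularGroup.coe_S], div_neg_of_neg_of_pos (by norm_num) hx, ?_⟩
      rw [neg_div, one_div]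
      exact hirr.inv.neg
    · rintro _ ⟨_, ⟨x, rfl, hx, hirr⟩, rfl⟩
      have hh' : h = Multiplicative.ofAdd 1 ∨ h = Multiplicative.ofAdd 2 := by revert h; decide
      have h1x : (1 : ℝ) - x ≠ 0 := sub_ne_zero.mpr hirr.ne_one.symm
      rcases hh' with rfl | rfl
      · show cyc 3 (projPerm U') projPerm_U_cube (Multiplicative.ofAdd 1) • (x : OnePoint ℝ) ∈ _
        rw [cyc_gen, Equiv.Perm.smul_def,
          projPerm_coe _ _ (by simp [ModularGroup.coe_S, ModularGroup.coe_T, hirr.ne_zero])]
        refine ⟨1 - x⁻¹, ?_, by have := inv_neg''.mpr hx; linarith, ?_⟩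
        · simp [ModularGroup.coe_S, ModularGroup.coe_T, sub_div, hirr.ne_zero, ← sub_eq_add_neg]
        · exact_mod_cast hirr.inv.intCast_sub 1
      · show cyc 3 (projPerm U') projPerm_U_cube (Multiplicative.ofAdd 2) • (x : OnePoint ℝ) ∈ _
        show (projPerm U' ^ (2 : ZMod 3).val) • (x : OnePoint ℝ) ∈ _
        rw [show (2 : ZMod 3).val = 2 from rfl, ← map_pow, Equiv.Perm.smul_def,
          projPerm_coe _ _ (by
            simp [sq, ModularGroup.coe_S, ModularGroup.coe_T]
            intro h; exact h1x (by linarith))]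
        refine ⟨(1 - x)⁻¹, ?_, inv_pos.mpr (by linarith), ?_⟩
        · simp [sq, ModularGroup.coe_S, ModularGroup.coe_T]
          rw [div_eq_iff (by intro h; exact h1x (by linarith)), ← div_eq_inv_mul, eq_div_iff h1x]
          ring
        · exact (by exact_mod_cast hirr.intCast_sub 1 : Irrational (1 - x)).inv

theorem projPerm_mem_range (g : SL2Z) :
    projPerm g ∈ (CoprodI.lift (facHom projPerm_S_sq projPerm_U_cube)).range := by
  set R := (CoprodI.lift (facHom projPerm_S_sq projPerm_U_cube)).range with hR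
  have hS : projPerm S' ∈ R :=
    ⟨CoprodI.of (i := false) (Multiplicative.ofAdd 1), by
      rw [CoprodI.lift_of]; exact cyc_gen 2 (projPerm S') projPerm_S_sq⟩
  have hU : projPerm U' ∈ R :=
    ⟨CoprodI.of (i := true) (Multiplicative.ofAdd 1), by
      rw [CoprodI.lift_of]; exact cyc_gen 3 (projPerm U') projPerm_U_cube⟩
  clear_value R
  refine ES.smul_generators_induction (P := fun g => projPerm g ∈ R) hS ?_
    (by simp only [map_one]; exact one_mem R)
    (fun a b ha hb => by rw [map_mul]; exact mul_mem ha hb)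
    (fun a ha => by rw [map_inv]; exact inv_mem ha) g
  rw [show T' = U' * S'⁻¹ from (mul_inv_cancel_right _ _).symm, map_mul, map_inv]
  exact mul_mem hU (inv_mem hS)

/-- Elements of orders dividing two and three are the images of `S` and `T S`. -/
theorem exists_hom_of_elliptic {a b : X} (ha : a ^ 2 = 1) (hb : b ^ 3 = 1) :
    ∃ φ : SL2Z →* X, φ S' = a ∧ φ U' = b ∧ φ (-1) = 1 := by
  set L := CoprodI.lift (facHom projPerm_S_sq projPerm_U_cube)
  let inv' : SL2Z →* CoprodI Fac :=
    (MonoidHom.ofInjective lift_facHom_injective).symm.toMonoidHom.comp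
      (projPerm.codRestrict L.range projPerm_mem_range)
  have hinv : ∀ g, L (inv' g) = projPerm g := fun g =>
    congrArg Subtype.val ((MonoidHom.ofInjective lift_facHom_injective).apply_symm_apply
      ⟨projPerm g, projPerm_mem_range g⟩)
  have key : ∀ g w, L w = projPerm g → (CoprodI.lift (facHom ha hb)) (inv' g) =
      CoprodI.lift (facHom ha hb) w := fun g w h => by
    rw [lift_facHom_injective ((hinv g).trans h.symm)]
  refine ⟨(CoprodI.lift (facHom ha hb)).comp inv', ?_, ?_, ?_⟩
  · rw [MonoidHom.comp_apply, key S' (CoprodI.of (i := false) (Multiplicative.ofAdd 1))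
      (by rw [CoprodI.lift_of]; exact cyc_gen 2 (projPerm S') projPerm_S_sq), CoprodI.lift_of]
    exact cyc_gen 2 a ha
  · rw [MonoidHom.comp_apply, key U' (CoprodI.of (i := true) (Multiplicative.ofAdd 1))
      (by rw [CoprodI.lift_of]; exact cyc_gen 3 (projPerm U') projPerm_U_cube), CoprodI.lift_of]
    exact cyc_gen 3 b hb
  · rw [MonoidHom.comp_apply, key (-1) 1 (by
      rw [map_one, show (-1 : SL2Z) = S' ^ 2 from by decide, map_pow, projPerm_S_sq]), map_one]

/-- A homomorphism is determined by the images of `S` and `T S`. -/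
theorem hom_ext_elliptic {φ ψ : SL2Z →* X} (hS : φ S' = ψ S') (hU : φ U' = ψ U') : φ = ψ := by
  refine MonoidHom.ext fun g => ES.smul_generators_induction (P := fun g => φ g = ψ g) hS ?_
    (by simp) (fun a b ha hb => by rw [map_mul, map_mul, ha, hb])
    (fun a ha => by rw [map_inv, map_inv, ha]) g
  rw [show T' = U' * S'⁻¹ from (mul_inv_cancel_right _ _).symm, map_mul φ U' S'⁻¹,
    map_mul ψ U' S'⁻¹, map_inv, map_inv, hS, hU]

end FLTAgent.Lowering.Cocycle
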