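import Mathlib.NumberTheory.Cyclotomic.CyclotomicCharacter
import Fermat.Agent.Lowering.P4.Cyclo
import Fermat.Agent.DetCyclo.Basic

/-!
# The `p`-adic cyclotomic character in the form used for determinants
-/

set_option autoImplicit false

noncomputable section

namespace FLTAgent.Lowering

local notation "LL" => AlgebraicClosure ℚ
local notation "GG" => (AlgebraicClosure ℚ ≃ₐ[ℚ] AlgebraicClosure ℚ)

variable (p : ℕ) [Fact p.Prime]

/-- The `p`-adic cyclotomic character. -/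
def cycZ : GG →* ℤ_[p] :=
  (Units.coeHom ℤ_[p]).comp ((cyclotomicCharacter LL p).comp
    (MonoidHom.mk' (fun σ : GG => σ.toRingEquiv) fun _ _ => rfl))

theorem hasRoots_pow (i : ℕ) : HasEnoughRootsOfUnity LL (p ^ i) := by
  haveI : NeZero ((p ^ i : ℕ) : LL) :=
    ⟨Nat.cast_ne_zero.mpr (pow_ne_zero _ (Fact.out : p.Prime).ne_zero)⟩
  infer_instance

theorem toZModPow_cycZ (n : ℕ) (σ : GG) :
    haveI : NeZero (p ^ n) := ⟨pow_ne_zero _ (Fact.out : p.Prime).ne_zero⟩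
    PadicInt.toZModPow n (cycZ p σ) = ((expo (p ^ n) σ : (ZMod (p ^ n))ˣ) : ZMod (p ^ n)) := by
  haveI : NeZero (p ^ n) := ⟨pow_ne_zero _ (Fact.out : p.Prime).ne_zero⟩
  haveI := hasRoots_pow p
  rw [expo_eq (c := (PadicInt.toZModPow n (cycZ p σ)).val)
    fun ζ hζ => cyclotomicCharacter.spec p σ.toRingEquiv ζ hζ, ZMod.natCast_zmod_val]

theorem cycZ_sub_mem {n : ℕ} {σ : GG} {c : ℕ} (h : DetCyclo.CycloExponent p n σ c) :
    cycZ p σ - (c : ℤ_[p]) ∈ Ideal.span {(p : ℤ_[p]) ^ n} := by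
  haveI : NeZero (p ^ n) := ⟨pow_ne_zero _ (Fact.out : p.Prime).ne_zero⟩
  rw [← PadicInt.ker_toZModPow, RingHom.mem_ker, map_sub, toZModPow_cycZ, expo_eq h, map_natCast,
    sub_self]

theorem cycZ_sub_mem_of_expo {n : ℕ} [NeZero (p ^ n)] {σ τ : GG}
    (h : expo (p ^ n) σ = expo (p ^ n) τ) :
    cycZ p σ - cycZ p τ ∈ Ideal.span {(p : ℤ_[p]) ^ n} := by
  rw [← PadicInt.ker_toZModPow, RingHom.mem_ker, map_sub, toZModPow_cycZ, toZModPow_cycZ, h,
    sub_self]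

theorem cycZ_frobenius {ℓ : ℕ} (hℓ : ℓ.Prime) (hℓp : ℓ ≠ p) {V : ValuationSubring LL}
    (hV : V.LiesOverPrime ℓ) {τ : GG} (hτ : V.IsFrobeniusAt τ ℓ) : cycZ p τ = (ℓ : ℤ_[p]) := by
  refine PadicInt.ext_of_toZModPow.mp fun n => ?_
  haveI : NeZero (p ^ n) := ⟨pow_ne_zero _ (Fact.out : p.Prime).ne_zero⟩
  rw [toZModPow_cycZ, map_natCast, expo_frobenius hℓ
    (fun h => hℓp ((Nat.prime_dvd_prime_iff_eq hℓ Fact.out).mp (hℓ.dvd_of_dvd_pow h))) hV hτ]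

theorem cycZ_inertia {ℓ : ℕ} (hℓ : ℓ.Prime) (hℓp : ℓ ≠ p) {V : ValuationSubring LL}
    (hV : V.LiesOverPrime ℓ) {τ : GG} (hτ : τ ∈ V.inertiaSubgroupIn ℚ) : cycZ p τ = 1 := by
  refine PadicInt.ext_of_toZModPow.mp fun n => ?_
  haveI : NeZero (p ^ n) := ⟨pow_ne_zero _ (Fact.out : p.Prime).ne_zero⟩
  rw [toZModPow_cycZ, map_one, expo_inertia hℓ
    (fun h => hℓp ((Nat.prime_dvd_prime_iff_eq hℓ Fact.out).mp (hℓ.dvd_of_dvd_pow h))) hV hτ,
    Units.val_one]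

theorem cycZ_complexConjugation : cycZ p complexConjugation = -1 := by
  refine PadicInt.ext_of_toZModPow.mp fun n => ?_
  haveI : NeZero (p ^ n) := ⟨pow_ne_zero _ (Fact.out : p.Prime).ne_zero⟩
  rw [toZModPow_cycZ, expo_complexConjugation, map_neg, map_one]

end FLTAgent.Lowering
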