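import Fermat.Agent.DeligneSerre.Interface

/-!
# Operators on torsion valued homomorphisms extended to free coefficients

An operator on homomorphisms with values in `ℤ/m` acts on homomorphisms with values in a finite
free `ℤ/m`-module, coordinatewise and naturally.
-/

set_option autoImplicit false

noncomputable section

open CongruenceSubgroup
open scoped MatrixGroups

namespace FLTAgent.Lowering

open FLTAgent.PeriodHecke FLTAgent.DeligneSerre

local notation "SL2Z" => Matrix.SpecialLinearGroup (Fin 2) ℤ

variable {Γ : Subgroup SL2Z} {m d : ℕ}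

section Split

variable {V : Type*} [AddCommGroup V] (E : V ≃+ (Fin d → ZMod m))

/-- A coordinate of a homomorphism. -/
def coordHpar (i : Fin d) : Hpar Γ V →+ Hpar Γ (ZMod m) :=
  mapHpar ((Pi.evalAddMonoidHom (fun _ => ZMod m) i).comp E.toAddMonoidHom)

/-- The coordinates of a homomorphism. -/
def hparEquiv : Hpar Γ V ≃+ (Fin d → Hpar Γ (ZMod m)) where
  toFun φ i := coordHpar E i φ
  invFun f := ⟨E.symm.toAddMonoidHom.comp
      (AddMonoidHom.mk' (fun x i => (f i).1 x) fun x y => funext fun i => map_add (f i).1 x y),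
    fun γ hγ => by
      show E.symm (fun i => (f i).1 (Additive.ofMul γ)) = 0
      rw [show (fun i => (f i).1 (Additive.ofMul γ)) = 0 from funext fun i => (f i).2 γ hγ, map_zero]⟩
  left_inv φ := Subtype.ext (AddMonoidHom.ext fun x => E.symm_apply_apply _)
  right_inv f := funext fun i => Subtype.ext (AddMonoidHom.ext fun x => by
    show E (E.symm (fun i => (f i).1 x)) i = _
    rw [E.apply_symm_apply])
  map_add' φ ψ := funext fun i => map_add (coordHpar E i) φ ψ

theorem hparEquiv_apply (φ : Hpar Γ V) (i : Fin d) : hparEquiv E φ i = coordHpar E i φ := rfl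

/-- The coordinatewise extension of an operator. -/
def extEnd : AddMonoid.End (Hpar Γ (ZMod m)) →* AddMonoid.End (Hpar Γ V) where
  toFun f := ((hparEquiv E).symm.toAddMonoidHom.comp
    (AddMonoidHom.mk' (fun g i => f (g i)) fun g h => funext fun i => map_add f (g i) (h i))).comp
      (hparEquiv E).toAddMonoidHom
  map_one' := AddMonoidHom.ext fun φ => by exact (hparEquiv E).symm_apply_apply φ
  map_mul' f g := AddMonoidHom.ext fun φ => by
    show (hparEquiv E).symm (fun i => f (g (hparEquiv E φ i))) =
      (hparEquiv E).symm (fun i => f (hparEquiv E ((hparEquiv E).symm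
        (fun i => g (hparEquiv E φ i))) i))
    rw [(hparEquiv E).apply_symm_apply]

theorem coordHpar_extEnd (f : AddMonoid.End (Hpar Γ (ZMod m))) (φ : Hpar Γ V) (i : Fin d) :
    coordHpar E i (extEnd E f φ) = f (coordHpar E i φ) :=
  congrFun ((hparEquiv E).apply_symm_apply fun i => f (hparEquiv E φ i)) i

theorem coordHpar_ext {φ ψ : Hpar Γ V} (h : ∀ i, coordHpar E i φ = coordHpar E i ψ) : φ = ψ :=
  (hparEquiv E).injective (funext h)

theorem mapHpar_nsmul {A B : Type*} [AddCommGroup A] [AddCommGroup B] (k : ℕ) (f : A →+ B)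
    (φ : Hpar Γ A) : mapHpar (k • f) φ = k • mapHpar f φ :=
  Subtype.ext (AddMonoidHom.ext fun _ => rfl)

theorem mapHpar_sum {A B : Type*} [AddCommGroup A] [AddCommGroup B] {ι : Type*} (s : Finset ι)
    (f : ι → A →+ B) (φ : Hpar Γ A) :
    mapHpar (∑ i ∈ s, f i) φ = ∑ i ∈ s, mapHpar (f i) φ := by
  classical
  induction s using Finset.induction_on with
  | empty => exact Subtype.ext (AddMonoidHom.ext fun _ => rfl)
  | insert a s ha ih =>
    rw [Finset.sum_insert ha, Finset.sum_insert ha, ← ih]
    exact Subtype.ext (AddMonoidHom.ext fun _ => rfl)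

/-- The extension is natural in the coefficients. -/
theorem extEnd_mapHpar [NeZero m] (f : AddMonoid.End (Hpar Γ (ZMod m))) (g : V →+ V)
    (φ : Hpar Γ V) : extEnd E f (mapHpar g φ) = mapHpar g (extEnd E f φ) := by
  refine coordHpar_ext E fun j => ?_
  set π : Fin d → V →+ ZMod m := fun i =>
    (Pi.evalAddMonoidHom (fun _ => ZMod m) i).comp E.toAddMonoidHom
  set k : Fin d → ℕ := fun i => (E (g (E.symm (Pi.single i 1))) j).val
  have hg : (π j).comp g = ∑ i, k i • π i := by
    refine AddMonoidHom.ext fun v => ?_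
    rw [AddMonoidHom.finsetSum_apply]
    have hv : v = ∑ i, (E v i).val • E.symm (Pi.single i 1) := by
      apply E.injective
      funext a
      simp [Finset.sum_apply, Pi.single_apply, -ZMod.natCast_val, ZMod.natCast_zmod_val]
    conv_lhs => rw [hv]
    simp only [map_sum, map_nsmul]
    refine Finset.sum_congr rfl fun i _ => ?_
    show (E v i).val • E (g (E.symm (Pi.single i 1))) j = k i • E v i
    simp only [k, nsmul_eq_mul, ZMod.natCast_zmod_val, mul_comm]
  have hc : ∀ ψ : Hpar Γ V, coordHpar E j (mapHpar g ψ) = ∑ i, k i • coordHpar E i ψ := fun ψ => by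
    show mapHpar ((π j).comp g) ψ = _
    rw [hg, mapHpar_sum]
    exact Finset.sum_congr rfl fun i _ => mapHpar_nsmul _ _ _
  rw [coordHpar_extEnd, hc, hc, map_sum]
  exact Finset.sum_congr rfl fun i _ => by rw [map_nsmul, coordHpar_extEnd]

/-- The extension commutes with the operators commuting with the given one. -/
theorem extEnd_heckePar {I : Type*} [Fintype I] (F : HeckeFamily Γ I)
    (f : AddMonoid.End (Hpar Γ (ZMod m))) (hf : ∀ ψ, f (F.heckePar ψ) = F.heckePar (f ψ))
    (φ : Hpar Γ V) : extEnd E f (F.heckePar φ) = F.heckePar (extEnd E f φ) := by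
  refine coordHpar_ext E fun i => ?_
  rw [coordHpar_extEnd, coordHpar, ← F.heckePar_mapHpar, ← F.heckePar_mapHpar, hf]
  exact congrArg _ (coordHpar_extEnd E f φ i).symm

end Split

theorem extEnd_diamond {M : ℕ} {V : Type*} [AddCommGroup V] (E : V ≃+ (Fin d → ZMod m))
    (γ : Gamma0 M) (f : AddMonoid.End (Hpar (Gamma1 M) (ZMod m)))
    (hf : ∀ ψ, f (diamond M γ ψ) = diamond M γ (f ψ)) (φ : Hpar (Gamma1 M) V) :
    extEnd E f (diamond M γ φ) = diamond M γ (extEnd E f φ) := by
  refine coordHpar_ext E fun i => ?_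
  rw [coordHpar_extEnd]
  exact (hf _).trans (congrArg (diamond M γ) (coordHpar_extEnd E f φ i).symm)

end FLTAgent.Lowering
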