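import Fermat.Agent.Lowering.P4.CocycleLift
import Fermat.Agent.PeriodHecke.Families

/-!
# Hecke operators on twisted cocycles

A family of representatives with compatible weights gives an operator on twisted cocycles; it
preserves coboundaries and commutes with change of coefficients. Two such operators commute on
classes when their products agree up to left multiplication.
-/

set_option autoImplicit false

noncomputable section

open scoped MatrixGroups
open CongruenceSubgroup

namespace FLTAgent.Lowering.Cocycle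

open FLTAgent.PeriodHecke

local notation "SL2Z" => Matrix.SpecialLinearGroup (Fin 2) ℤ
local notation "M2" => Matrix (Fin 2) (Fin 2) ℤ

variable {Γ : Subgroup SL2Z} {A : Type*} [CommRing A] {ψ : Γ →* A}
  {N N' : Type*} [AddCommGroup N] [Module A N] [AddCommGroup N'] [Module A N']
  {I J : Type*} [Fintype I] [Fintype J]

/-- Weights of representatives compatible with a character. -/
structure Weighting (F : HeckeFamily Γ I) (ψ : Γ →* A) where
  w : I → A
  rel : ∀ γ i, w i * ψ (F.coc γ i) = ψ γ * w (F.next γ i)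

variable {F : HeckeFamily Γ I}

/-- The operator of a weighted family on cocycles. -/
def heckeZ1 (W : Weighting F ψ) : Z1 ψ N →ₗ[A] Z1 ψ N where
  toFun c := ⟨fun γ => ∑ i, W.w i • c.1 (F.coc γ i), fun g h => by
    have e : ∀ i, W.w i • c.1 (F.coc (g * h) i) =
        W.w i • c.1 (F.coc g i) + ψ g • (W.w (F.next g i) • c.1 (F.coc h (F.next g i))) := fun i => by
      rw [(F.mul_rel g h i).2, Z1_mul, smul_add, smul_smul, smul_smul, W.rel]
    simp only [e, Finset.sum_add_distrib, ← Finset.smul_sum]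
    congr 2
    exact Equiv.sum_comp (F.perm g) (fun i => W.w i • c.1 (F.coc h i))⟩
  map_add' c d := Subtype.ext (funext fun γ => by simp [smul_add, Finset.sum_add_distrib])
  map_smul' a c := Subtype.ext (funext fun γ => by simp [Finset.smul_sum, smul_comm a])

theorem heckeZ1_apply (W : Weighting F ψ) (c : Z1 ψ N) (γ : Γ) :
    (heckeZ1 W c : Γ → N) γ = ∑ i, W.w i • c.1 (F.coc γ i) := rfl

theorem heckeZ1_cobdry (W : Weighting F ψ) (v : N) :
    heckeZ1 W (cobdry ψ N v) = cobdry ψ N ((∑ i, W.w i) • v) := by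
  refine Subtype.ext (funext fun γ => ?_)
  simp only [heckeZ1_apply, cobdry_apply, smul_sub, smul_smul, W.rel, Finset.sum_sub_distrib,
    ← Finset.sum_smul, ← Finset.mul_sum]
  rw [show ∑ i, W.w (F.next γ i) = ∑ i, W.w i from Equiv.sum_comp (F.perm γ) W.w]

theorem mapZ1_heckeZ1 (f : N →ₗ[A] N') (W : Weighting F ψ) (c : Z1 ψ N) :
    mapZ1 ψ f (heckeZ1 W c) = heckeZ1 W (mapZ1 ψ f c) :=
  Subtype.ext (funext fun γ => by simp [heckeZ1_apply, mapZ1_apply])

/-- Operators whose products agree up to left multiplication commute up to a coboundary. -/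
theorem heckeZ1_comm {G : HeckeFamily Γ J} (W : Weighting F ψ) (V : Weighting G ψ) (e : I × J → J × I)
    (he : Function.Bijective e) (κ : I × J → Γ)
    (hκ : ∀ x, G.α x.2 * F.α x.1 = mat (κ x) * (F.α (e x).2 * G.α (e x).1))
    (hw : ∀ x, W.w x.1 * V.w x.2 * ψ (κ x) = V.w (e x).1 * W.w (e x).2)
    (hinj : ∀ (δ : Γ) y y', mat δ * (F.α y.2 * G.α y.1) = F.α (Prod.snd (α := J) y') * G.α y'.1 → y = y')
    (c : Z1 ψ N) :
    ∃ v : N, heckeZ1 W (heckeZ1 V c) - heckeZ1 V (heckeZ1 W c) = cobdry ψ N v := by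
  classical
  refine ⟨-∑ x : I × J, (W.w x.1 * V.w x.2) • c.1 (κ x), Subtype.ext (funext fun g => ?_)⟩
  let dP : I × J → Γ := fun x => G.coc (F.coc g x.1) x.2
  let nP : I × J → I × J := fun x => (F.next g x.1, G.next (F.coc g x.1) x.2)
  let dQ : J × I → Γ := fun y => F.coc (G.coc g y.1) y.2
  let nQ : J × I → J × I := fun y => (G.next g y.1, F.next (G.coc g y.1) y.2)
  have hP : ∀ x : I × J, G.α x.2 * F.α x.1 * mat g =
      mat (dP x) * (G.α (nP x).2 * F.α (nP x).1) := fun x => by
    rw [mul_assoc, F.rel, ← mul_assoc, G.rel, mul_assoc]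
  have hQ : ∀ y : J × I, F.α y.2 * G.α y.1 * mat g =
      mat (dQ y) * (F.α (nQ y).2 * G.α (nQ y).1) := fun y => by
    rw [mul_assoc, G.rel, ← mul_assoc, F.rel, mul_assoc]
  have hcancel : ∀ (δ δ' : Γ) (y : J × I),
      mat δ * (F.α y.2 * G.α y.1) = mat δ' * (F.α y.2 * G.α y.1) → δ = δ' := fun δ δ' y h => by
    apply mat_injective
    have hd : (F.α y.2 * G.α y.1).det ≠ 0 := by
      rw [Matrix.det_mul]; exact mul_ne_zero (F.det_ne _) (G.det_ne _)
    have h' := congrArg (fun X => X * Matrix.adjugate (F.α y.2 * G.α y.1)) h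
    simp only [Matrix.mul_assoc (mat _), Matrix.mul_adjugate, Matrix.mul_smul, mul_one] at h'
    exact smul_right_injective M2 hd h'
  have key : ∀ x, nQ (e x) = e (nP x) ∧ κ x * dQ (e x) = dP x * κ (nP x) := fun x => by
    have h1 : mat (κ x * dQ (e x)) * (F.α (nQ (e x)).2 * G.α (nQ (e x)).1) =
        mat (dP x * κ (nP x)) * (F.α (e (nP x)).2 * G.α (e (nP x)).1) := by
      rw [mat_mul, mat_mul, mul_assoc, ← hQ, ← mul_assoc, ← hκ, hP, hκ (nP x), mul_assoc]
    have h2 : nQ (e x) = e (nP x) := hinj ((dP x * κ (nP x))⁻¹ * (κ x * dQ (e x))) _ _ (by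
      rw [mat_mul, mul_assoc, h1, ← mul_assoc, ← mat_mul, inv_mul_cancel, mat_one, one_mul])
    rw [h2] at h1
    exact ⟨h2, hcancel _ _ _ h1⟩
  have hperm : Function.Bijective nP := by
    refine Finite.injective_iff_bijective.mp fun x x' h => ?_
    have h1 : F.next g x.1 = F.next g x'.1 := congrArg Prod.fst h
    have h2 : x.1 = x'.1 := (F.perm g).injective h1
    have h3 : G.next (F.coc g x.1) x.2 = G.next (F.coc g x'.1) x'.2 := congrArg Prod.snd h
    rw [h2] at h3
    exact Prod.ext h2 ((G.perm (F.coc g x'.1)).injective h3)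
  have hV : ∀ y : J × I, V.w y.1 * W.w y.2 * ψ (dQ y) = ψ g * (V.w (nQ y).1 * W.w (nQ y).2) :=
    fun y => by
    simp only [dQ, nQ]
    linear_combination V.w y.1 * W.rel (G.coc g y.1) y.2 + W.w (F.next (G.coc g y.1) y.2) * V.rel g y.1
  set u : I × J → A := fun x => W.w x.1 * V.w x.2
  have hterm : ∀ x, u x • c.1 (dP x) = u x • c.1 (κ x) +
      (V.w (e x).1 * W.w (e x).2) • c.1 (dQ (e x)) - ψ g • (u (nP x) • c.1 (κ (nP x))) := fun x => by
    obtain ⟨hn, hd⟩ := key x
    have h1 := Z1_mul c (κ x) (dQ (e x))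
    rw [hd, Z1_mul] at h1
    rw [eq_sub_of_add_eq h1, smul_sub, smul_add, smul_smul, hw, smul_smul, smul_smul]
    congr 2
    have h2 : V.w (e x).1 * W.w (e x).2 * ψ (dQ (e x)) = u x * ψ (dP x) * ψ (κ (nP x)) := by
      rw [← hw x]
      have := congrArg ψ hd
      simp only [map_mul] at this
      linear_combination (W.w x.1 * V.w x.2) * this
    have h3 := hV (e x)
    rw [h2, hn, ← hw (nP x)] at h3
    have hunit : ψ (κ (nP x)) * ψ (κ (nP x))⁻¹ = 1 := by rw [← map_mul, mul_inv_cancel, map_one]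
    linear_combination ψ (κ (nP x))⁻¹ * h3 -
      (u x * ψ (dP x) - ψ g * u (nP x)) * hunit
  have hL : (heckeZ1 W (heckeZ1 V c) : Γ → N) g = ∑ x, u x • c.1 (dP x) := by
    simp only [heckeZ1_apply, Finset.smul_sum, smul_smul, Fintype.sum_prod_type]
    rfl
  have hR : (heckeZ1 V (heckeZ1 W c) : Γ → N) g =
      ∑ y, (V.w y.1 * W.w y.2) • c.1 (dQ y) := by
    simp only [heckeZ1_apply, Finset.smul_sum, smul_smul, Fintype.sum_prod_type]
    rfl
  show (heckeZ1 W (heckeZ1 V c) : Γ → N) g - (heckeZ1 V (heckeZ1 W c) : Γ → N) g = _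
  rw [hL, hR, cobdry_apply, Finset.sum_congr rfl fun x _ => hterm x, Finset.sum_sub_distrib,
    Finset.sum_add_distrib, Function.Bijective.sum_comp he
      (fun y => (V.w y.1 * W.w y.2) • c.1 (dQ y)),
    ← Finset.smul_sum, Function.Bijective.sum_comp hperm (fun x => u x • c.1 (κ x)), smul_neg]
  abel

/-! ### The standard families -/

variable {M p : ℕ}

/-- The character of `Γ₀(M)` given by the lower right entry. -/
def psi (χ : ZMod M →* A) : Gamma0 M →* A := χ.comp (Gamma0Map M)

theorem psi_apply (χ : ZMod M →* A) (γ : Gamma0 M) :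
    psi χ γ = χ ((mat γ 1 1 : ℤ) : ZMod M) := rfl

theorem psi_neg_one (χ : ZMod M →* A) (hχ : χ (-1) = 1) (h : (-1 : SL2Z) ∈ Gamma0 M) :
    psi χ ⟨-1, h⟩ = 1 := by
  rw [psi_apply]
  simpa [mat] using hχ

theorem coe_low_eq_zero (γ : Gamma0 M) : ((mat γ 1 0 : ℤ) : ZMod M) = 0 := Gamma0_mem.mp γ.2

variable [Fact p.Prime]

/-- The weights of the standard representatives: `χ(p)` at `diag(p, 1)`, `1` elsewhere. -/
def stdWeight (χ : ZMod M →* A) : Weighting (heckeFam M p) (psi χ) where
  w i := if i.1 = none then χ (p : ZMod M) else 1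
  rel γ i := by
    have h := (heckeFam M p).rel γ i
    generalize (heckeFam M p).coc γ i = δ at h
    generalize (heckeFam M p).next γ i = j at h
    rw [heckeFam_α] at h
    have h11 := congrFun (congrFun h 1) 1
    have h10 := congrFun (congrFun h 1) 0
    simp only [Matrix.mul_apply, Fin.sum_univ_two] at h11 h10
    have c11 := congrArg (fun z : ℤ => (z : ZMod M)) h11
    simp only [psi_apply]
    rcases HeckeIdx.cases M p i with ⟨hi, rfl⟩ | ⟨a, rfl⟩ <;>
      rcases HeckeIdx.cases M p j with ⟨hj, rfl⟩ | ⟨b, rfl⟩ <;>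
      simp [heckeRep, idxSome, coe_low_eq_zero, -ZMod.natCast_val] at c11 h11 h10 ⊢
    · rw [← c11, mul_comm]
    · rw [c11, map_mul, mul_comm]
    · rw [← c11, map_mul, mul_comm]
    · have hp0 : (p : ℤ) ≠ 0 := Int.natCast_ne_zero.mpr (Fact.out : p.Prime).ne_zero
      have hz : mat δ 1 1 = mat γ 1 1 - mat γ 1 0 * (b.val : ℤ) := by
        refine mul_left_cancel₀ hp0 ?_
        linear_combination -h11 + (b.val : ℤ) * h10
      rw [hz]
      push_cast
      rw [coe_low_eq_zero, zero_mul, sub_zero]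

theorem stdWeight_w (χ : ZMod M →* A) (i : HeckeIdx M p) :
    (stdWeight χ).w i = if i.1 = none then χ (p : ZMod M) else 1 := rfl

end FLTAgent.Lowering.Cocycle
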