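import Fermat.Agent.Lowering.P4.Localisation
import Fermat.Agent.LevelRaise.Transfer

/-!
# Restriction of classes to a multiple of the level

Restriction of twisted classes along `Γ₀(M') ⊆ Γ₀(M)` together with a change of the character and
of the coefficient ring. It commutes with the operators at the primes dividing both levels or
none, and satisfies the quadratic relation at a prime entering the level.
-/

set_option autoImplicit false

noncomputable section

set_option synthInstance.maxHeartbeats 400000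

open scoped MatrixGroups
open CongruenceSubgroup

namespace FLTAgent.Lowering.Cocycle

open FLTAgent.PeriodHecke

local notation "SL2Z" => Matrix.SpecialLinearGroup (Fin 2) ℤ
local notation "M2" => Matrix (Fin 2) (Fin 2) ℤ

variable {M M' : ℕ}

/-- The inclusion of the subgroup of a multiple of the level. -/
def sub0 (h : M ∣ M') : Gamma0 M' →* Gamma0 M := LevelRaise.incl h

theorem mat_sub0 (h : M ∣ M') (γ : Gamma0 M') : mat (sub0 h γ) = mat γ := rfl

theorem Gamma0Map_sub0 (h : M ∣ M') (γ : Gamma0 M') :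
    Gamma0Map M (sub0 h γ) = ZMod.castHom h (ZMod M) (Gamma0Map M' γ) :=
  (map_intCast (ZMod.castHom h (ZMod M)) _).symm

/-- The two characters act alike on the module. -/
def Compat {A A' : Type*} [CommRing A] [CommRing A'] (h : M ∣ M') (χ : ZMod M →* A)
    (χ' : ZMod M' →* A') (N : Type*) [AddCommGroup N] [Module A N] [Module A' N] : Prop :=
  ∀ d : ZMod M', IsUnit d → ∀ n : N, χ (ZMod.castHom h (ZMod M) d) • n = χ' d • n

section Res

variable {A A' : Type*} [CommRing A] [CommRing A'] {h : M ∣ M'} {χ : ZMod M →* A}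
  {χ' : ZMod M' →* A'} {N : Type*} [AddCommGroup N] [Module A N] [Module A' N]
  (hc : Compat h χ χ' N)

include hc in
theorem psi_sub0 (γ : Gamma0 M') (n : N) : psi χ (sub0 h γ) • n = psi χ' γ • n := by
  show χ (Gamma0Map M (sub0 h γ)) • n = _
  rw [Gamma0Map_sub0]
  exact hc _ ((Group.isUnit γ).map (Gamma0Map M')) n

/-- Restriction of cocycles. -/
def resZ1 : Z1 (psi χ) N →+ Z1 (psi χ') N where
  toFun c := ⟨fun γ => c.1 (sub0 h γ), fun γ δ => by
    show c.1 (sub0 h (γ * δ)) = c.1 (sub0 h γ) + psi χ' γ • c.1 (sub0 h δ)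
    rw [map_mul, Z1_mul, psi_sub0 hc]⟩
  map_zero' := rfl
  map_add' _ _ := rfl

theorem resZ1_apply (c : Z1 (psi χ) N) (γ : Gamma0 M') :
    (resZ1 hc c : Gamma0 M' → N) γ = c.1 (sub0 h γ) := rfl

theorem resZ1_cobdry (v : N) : resZ1 hc (cobdry (psi χ) N v) = cobdry (psi χ') N v :=
  Subtype.ext (funext fun γ => by rw [resZ1_apply, cobdry_apply, cobdry_apply, psi_sub0 hc])

/-- Restriction of classes. -/
def resH1 : H1 (psi χ) N →+ H1 (psi χ') N :=
  QuotientAddGroup.map (LinearMap.range (cobdry (psi χ) N)).toAddSubgroup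
    (LinearMap.range (cobdry (psi χ') N)).toAddSubgroup (resZ1 hc) (by
      rintro _ ⟨v, rfl⟩
      exact ⟨v, (resZ1_cobdry hc v).symm⟩)

theorem resH1_cls (c : Z1 (psi χ) N) : resH1 hc (cls c) = cls (resZ1 hc c) := rfl

/-- The index at the smaller level. -/
def idxDown (h : M ∣ M') {l : ℕ} (i : HeckeIdx M' l) : HeckeIdx M l :=
  ⟨i.1, fun he hl => i.2 he (hl.trans h)⟩

theorem heckeRep_idxDown (h : M ∣ M') {l : ℕ} [Fact l.Prime] (i : HeckeIdx M' l) :
    heckeRep M l (idxDown h i) = heckeRep M' l i := by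
  rcases HeckeIdx.cases M' l i with ⟨hi, rfl⟩ | ⟨j, rfl⟩ <;> rfl

theorem coc_idxDown (h : M ∣ M') {l : ℕ} [Fact l.Prime] (γ : Gamma0 M') (i : HeckeIdx M' l) :
    (heckeFam M l).coc (sub0 h γ) (idxDown h i) = sub0 h ((heckeFam M' l).coc γ i) :=
  ((heckeFam M l).eq_of_rel (j := idxDown h ((heckeFam M' l).next γ i)) (by
    rw [heckeFam_α, mat_sub0, mat_sub0, heckeRep_idxDown, heckeRep_idxDown]
    exact (heckeFam M' l).rel γ i)).2

/-- Restriction commutes with the operators at primes dividing both levels or none. -/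
theorem resZ1_heckeZ1 {l : ℕ} [Fact l.Prime] (hl : l ∣ M' → l ∣ M) (c : Z1 (psi χ) N) :
    resZ1 hc (heckeZ1 (stdWeight (p := l) χ) c) = heckeZ1 (stdWeight (p := l) χ') (resZ1 hc c) := by
  refine Subtype.ext (funext fun γ => ?_)
  have hb : Function.Bijective (idxDown h : HeckeIdx M' l → HeckeIdx M l) :=
    ⟨fun _ _ e => Subtype.ext (congrArg Subtype.val e : _),
      fun i => ⟨⟨i.1, fun he hM' => i.2 he (hl hM')⟩, rfl⟩⟩
  rw [resZ1_apply, heckeZ1_apply, heckeZ1_apply, ← (Equiv.ofBijective _ hb).sum_comp]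
  refine Finset.sum_congr rfl fun i _ => ?_
  rw [Equiv.ofBijective_apply, coc_idxDown, resZ1_apply]
  rcases HeckeIdx.cases M' l i with ⟨hi, rfl⟩ | ⟨j, rfl⟩
  · simp only [stdWeight_w, idxDown, if_true]
    rw [← map_natCast (ZMod.castHom h (ZMod M)) l]
    exact hc _ ((ZMod.isUnit_iff_coprime l M').mpr
      ((Fact.out : l.Prime).coprime_iff_not_dvd.mpr (hi rfl))) _
  · simp [stdWeight_w, idxDown, idxSome]

theorem resH1_heckeH1 {l : ℕ} [Fact l.Prime] (hl : l ∣ M' → l ∣ M) (x : H1 (psi χ) N) :
    resH1 hc (heckeH1 (N := N) (stdWeight (p := l) χ) x) =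
      heckeH1 (N := N) (stdWeight (p := l) χ') (resH1 hc x) := by
  induction x using Submodule.Quotient.induction_on with
  | H c => exact congrArg cls (resZ1_heckeZ1 hc hl c)

/-- Composition of restrictions. -/
theorem resH1_resH1 {M'' : ℕ} {A'' : Type*} [CommRing A''] [Module A'' N] {χ'' : ZMod M'' →* A''}
    {h' : M' ∣ M''} {h'' : M ∣ M''} (hc' : Compat h' χ' χ'' N) (hc'' : Compat h'' χ χ'' N)
    (x : H1 (psi χ) N) : resH1 hc' (resH1 hc x) = resH1 hc'' x := by
  induction x using Submodule.Quotient.induction_on with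
  | H c => rfl

end Res

/-! ### A prime entering the level -/

section Quadratic

variable {A : Type*} [CommRing A] (χ : ZMod M →* A) (q : ℕ) [Fact q.Prime] {N : Type*}
  [AddCommGroup N] [Module A N]

/-- The character at the larger level. -/
abbrev liftChar : ZMod (M * q) →* A :=
  χ.comp (ZMod.castHom (dvd_mul_right M q) (ZMod M)).toMonoidHom

theorem compat_liftChar : Compat (dvd_mul_right M q) χ (liftChar χ q) N := fun _ _ _ => rfl

theorem exists_conjDiag (γ : Gamma0 (M * q)) :
    ∃ δ : Gamma0 M, !![(q : ℤ), 0; 0, 1] * mat γ = mat δ * !![(q : ℤ), 0; 0, 1] := by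
  obtain ⟨e, he⟩ := dvd_lower_left (M * q) γ
  have hdet := mat_det γ
  rw [Matrix.det_fin_two] at hdet
  push_cast at he
  refine ⟨gamma0Mk M (mat γ 0 0) (q * mat γ 0 1) (M * e) (mat γ 1 1)
    (by linear_combination hdet + mat γ 0 1 * he) (dvd_mul_right _ _), ?_⟩
  rw [mat_gamma0Mk]
  ext i j
  fin_cases i <;> fin_cases j <;> simp [Matrix.mul_apply, Fin.sum_univ_two] <;>
    first | ring1 | linear_combination he

/-- Conjugation by `diag(q, 1)`. -/
def conjDiag : Gamma0 (M * q) →* Gamma0 M :=
  MonoidHom.mk' (fun γ => (exists_conjDiag q γ).choose) fun γ δ => by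
    apply mat_injective
    refine mul_right_cancel_det (B := !![(q : ℤ), 0; 0, 1])
      (by simp [Matrix.det_fin_two_of, (Fact.out : q.Prime).ne_zero]) ?_
    have h1 := (exists_conjDiag q (γ * δ)).choose_spec
    have h2 := (exists_conjDiag q γ).choose_spec
    have h3 := (exists_conjDiag q δ).choose_spec
    generalize (exists_conjDiag q (γ * δ)).choose = a at h1 ⊢
    generalize (exists_conjDiag q γ).choose = b at h2 ⊢
    generalize (exists_conjDiag q δ).choose = d at h3 ⊢
    rw [← h1, mat_mul, mat_mul, mul_assoc (mat b), ← h3, ← mul_assoc, h2, mul_assoc]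
where
  mul_right_cancel_det {X Y B : M2} (hB : B.det ≠ 0) (e : X * B = Y * B) : X = Y := by
    have h' := congrArg (fun Z => Z * Matrix.adjugate B) e
    simp only [Matrix.mul_assoc, Matrix.mul_adjugate, Matrix.mul_smul, mul_one] at h'
    exact smul_right_injective M2 hB h'

theorem conjDiag_rel (γ : Gamma0 (M * q)) :
    !![(q : ℤ), 0; 0, 1] * mat γ = mat (conjDiag q γ) * !![(q : ℤ), 0; 0, 1] :=
  (exists_conjDiag q γ).choose_spec

theorem psi_conjDiag (γ : Gamma0 (M * q)) : psi χ (conjDiag q γ) = psi (liftChar χ q) γ := by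
  have h := congrFun (congrFun (conjDiag_rel q γ) 1) 1
  simp [Matrix.mul_apply, Fin.sum_univ_two] at h
  rw [psi_apply, psi_apply, MonoidHom.comp_apply, ← h]
  exact congrArg χ (map_intCast (ZMod.castHom (dvd_mul_right M q) (ZMod M)) _).symm

/-- The second degeneracy map on cocycles. -/
def degZ1 (c : Z1 (psi χ) N) : Z1 (psi (liftChar χ q)) N :=
  ⟨fun γ => c.1 (conjDiag q γ), fun γ δ => by
    show c.1 (conjDiag q (γ * δ)) = c.1 _ + psi (liftChar χ q) γ • c.1 (conjDiag q δ)
    rw [map_mul, Z1_mul, psi_conjDiag]⟩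

theorem degZ1_apply (c : Z1 (psi χ) N) (γ : Gamma0 (M * q)) :
    (degZ1 χ q c : Gamma0 (M * q) → N) γ = c.1 (conjDiag q γ) := rfl

variable (hq : ¬ q ∣ M)

/-- The translation by a residue. -/
def transl (j : ZMod q) : Gamma0 M := gamma0Mk M 1 (j.val : ℤ) 0 1 (by ring) (dvd_zero _)

theorem psi_transl (j : ZMod q) : psi χ (transl (M := M) q j) = 1 := by
  rw [psi_apply, transl, mat_gamma0Mk]
  simp

include hq in
/-- `res T = U res + χ(q) deg`. -/
theorem resZ1_hecke_q (c : Z1 (psi χ) N) :
    resZ1 (compat_liftChar χ q) (heckeZ1 (stdWeight (p := q) χ) c) =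
      heckeZ1 (stdWeight (p := q) (liftChar χ q)) (resZ1 (compat_liftChar χ q) c) +
        χ (q : ZMod M) • degZ1 χ q c := by
  classical
  refine Subtype.ext (funext fun γ => ?_)
  set h := dvd_mul_right M q
  set i0 : HeckeIdx M q := ⟨none, fun _ => hq⟩
  rw [resZ1_apply, heckeZ1_apply, Submodule.coe_add, Pi.add_apply, heckeZ1_apply,
    ← Finset.add_sum_erase _ _ (Finset.mem_univ i0), add_comm]
  have hinj : Function.Injective (idxDown h : HeckeIdx (M * q) q → HeckeIdx M q) :=
    fun _ _ e => Subtype.ext (congrArg Subtype.val e : _)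
  congr 1
  · rw [show Finset.univ.erase i0 = (Finset.univ : Finset (HeckeIdx (M * q) q)).map
      ⟨idxDown h, hinj⟩ from ?_, Finset.sum_map]
    · refine Finset.sum_congr rfl fun i _ => ?_
      rw [Function.Embedding.coeFn_mk, coc_idxDown, resZ1_apply]
      rcases HeckeIdx.cases (M * q) q i with ⟨hi, rfl⟩ | ⟨j, rfl⟩
      · exact absurd (dvd_mul_left q M) (hi rfl)
      · simp [stdWeight_w, idxDown, idxSome]
    · ext i
      simp only [Finset.mem_erase, Finset.mem_univ, and_true, Finset.mem_map,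
        Function.Embedding.coeFn_mk, true_and]
      rcases HeckeIdx.cases M q i with ⟨hi, rfl⟩ | ⟨j, rfl⟩
      · refine ⟨fun e => absurd rfl e, ?_⟩
        rintro ⟨i', e⟩ -
        exact i'.2 (congrArg Subtype.val e) (dvd_mul_left q M)
      · exact ⟨fun _ => ⟨idxSome (M * q) q j, rfl⟩, fun _ e => by
          simp [i0, idxSome] at e
          exact Option.some_ne_none j (congrArg Subtype.val e)⟩
  · have h1 := ((heckeFam M q).eq_of_rel (γ := sub0 h γ) (i := i0) (j := i0) (δ := conjDiag q γ)
      (conjDiag_rel q γ)).2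
    rw [h1]
    simp [stdWeight_w, i0, degZ1_apply]

/-- `U deg = q res` up to a coboundary. -/
theorem hecke_degZ1 (c : Z1 (psi χ) N) :
    heckeZ1 (stdWeight (p := q) (liftChar χ q)) (degZ1 χ q c) =
      (q : A) • resZ1 (compat_liftChar χ q) c +
        cobdry (psi (liftChar χ q)) N (-∑ j : ZMod q, c.1 (transl (M := M) q j)) := by
  classical
  refine Subtype.ext (funext fun γ => ?_)
  set h := dvd_mul_right M q
  rw [heckeZ1_apply, Submodule.coe_add, Pi.add_apply, Submodule.coe_smul, Pi.smul_apply,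
    resZ1_apply, cobdry_apply]
  let e : ZMod q ≃ HeckeIdx (M * q) q :=
    { toFun := idxSome (M * q) q
      invFun := fun i => i.1.getD 0
      left_inv := fun j => rfl
      right_inv := fun i => by
        rcases HeckeIdx.cases (M * q) q i with ⟨hi, rfl⟩ | ⟨j, rfl⟩
        · exact absurd (dvd_mul_left q M) (hi rfl)
        · rfl }
  have key : ∀ j : ZMod q, ∀ j' : ZMod q, e j' = (heckeFam (M * q) q).next γ (e j) →
      c.1 (conjDiag q ((heckeFam (M * q) q).coc γ (e j))) =
        c.1 (transl q j) + c.1 (sub0 h γ) - psi (liftChar χ q) γ • c.1 (transl q j') := by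
    intro j j' hj'
    set δ := (heckeFam (M * q) q).coc γ (e j)
    have hr := (heckeFam (M * q) q).rel γ (e j)
    rw [← hj', heckeFam_α] at hr
    have hD : ∀ k : ZMod q, !![(q : ℤ), 0; 0, 1] * heckeRep (M * q) q (e k) =
        (q : ℤ) • mat (transl (M := M) q k) := fun k => by
      show _ * !![1, (k.val : ℤ); 0, (q : ℤ)] = _
      rw [transl, mat_gamma0Mk]
      ext a b
      fin_cases a <;> fin_cases b <;> simp [Matrix.mul_apply, Fin.sum_univ_two]
    have hδ : conjDiag q δ = transl q j * sub0 h γ * (transl q j')⁻¹ := by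
      rw [eq_mul_inv_iff_mul_eq]
      apply mat_injective
      refine smul_right_injective M2 (Int.natCast_ne_zero.mpr (Fact.out : q.Prime).ne_zero : (q : ℤ) ≠ 0) ?_
      show (q : ℤ) • mat (conjDiag q δ * transl q j') = (q : ℤ) • mat (transl q j * sub0 h γ)
      rw [mat_mul, mat_mul, ← Matrix.mul_smul, ← hD, ← mul_assoc, ← conjDiag_rel, mul_assoc, ← hr,
        ← mul_assoc, hD, Matrix.smul_mul, mat_sub0]
    rw [hδ, Z1_mul, Z1_mul, Z1_inv, map_mul, psi_transl, one_smul, one_mul,
      psi_sub0 (compat_liftChar χ q), smul_neg, smul_smul]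
    rw [show psi χ (transl (M := M) q j')⁻¹ = 1 by
      have h1 := map_mul (psi χ) (transl (M := M) q j') (transl q j')⁻¹
      rw [mul_inv_cancel, map_one, psi_transl, one_mul] at h1
      exact h1.symm]
    rw [mul_one, sub_eq_add_neg]
  rw [← e.sum_comp]
  let σ : ZMod q ≃ ZMod q := e.trans (((heckeFam (M * q) q).perm γ).trans e.symm)
  have hk : ∀ j, (stdWeight (p := q) (liftChar χ q)).w (e j) •
      (degZ1 χ q c).1 ((heckeFam (M * q) q).coc γ (e j)) =
      c.1 (transl q j) + c.1 (sub0 h γ) - psi (liftChar χ q) γ • c.1 (transl q (σ j)) := fun j => by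
    rw [degZ1_apply, key j (σ j) (e.apply_symm_apply _), stdWeight_w,
      if_neg (show (e j).1 ≠ none from Option.some_ne_none j), one_smul]
  rw [Finset.sum_congr rfl fun j _ => hk j, Finset.sum_sub_distrib, Finset.sum_add_distrib,
    Finset.sum_const, Finset.card_univ, ZMod.card, ← Finset.smul_sum,
    σ.sum_comp (fun j => c.1 (transl (M := M) q j)), Nat.cast_smul_eq_nsmul, smul_neg]
  abel

include hq in
/-- **The quadratic relation.** -/
theorem resH1_quadratic (x : H1 (psi χ) N) :
    heckeH1 (N := N) (stdWeight (p := q) (liftChar χ q))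
        (resH1 (compat_liftChar χ q) (heckeH1 (N := N) (stdWeight (p := q) χ) x)) =
      heckeH1 (N := N) (stdWeight (p := q) (liftChar χ q))
          (heckeH1 (N := N) (stdWeight (p := q) (liftChar χ q))
            (resH1 (compat_liftChar χ q) x)) +
        (χ (q : ZMod M) * q) • resH1 (compat_liftChar χ q) x := by
  induction x using Submodule.Quotient.induction_on with
  | H c =>
    simp only [heckeH1_cls, resH1_cls]
    rw [resZ1_hecke_q χ q hq, map_add, map_smul, hecke_degZ1]
    show Submodule.Quotient.mk _ = Submodule.Quotient.mk _ + _ • Submodule.Quotient.mk _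
    rw [← Submodule.Quotient.mk_smul, ← Submodule.Quotient.mk_add, Submodule.Quotient.eq, smul_add,
      smul_smul]
    exact ⟨χ (q : ZMod M) • -∑ j : ZMod q, c.1 (transl (M := M) q j), by rw [map_smul]; abel⟩

end Quadratic

end FLTAgent.Lowering.Cocycle
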