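import Fermat.Agent.LevelRaise.Degeneracy
import Fermat.Agent.Lowering.P4.Restriction

/-!
# Degeneracy maps on homomorphisms

Untwisted classes are homomorphisms. The transfer to the level `N` from the level `N ℓ` composed
with restriction and with conjugation by the Atkin–Lehner matrix gives the operators at `ℓ`.
-/

set_option autoImplicit false

noncomputable section

open scoped MatrixGroups
open CongruenceSubgroup FLTAgent.PeriodHecke FLTAgent.LevelRaise

namespace FLTAgent.Lowering.Cocycle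

local notation "SL2Z" => Matrix.SpecialLinearGroup (Fin 2) ℤ
local notation "M2" => Matrix (Fin 2) (Fin 2) ℤ

variable {N ℓ : ℕ} [Fact ℓ.Prime] [NeZero N] [NeZero (N * ℓ)] (B : Bez N ℓ) {A : Type*}
  [AddCommGroup A]

/-- Restriction of homomorphisms. -/
def resHom (φ : Additive (Gamma0 N) →+ A) : Additive (Gamma0 (N * ℓ)) →+ A :=
  φ.comp (incl (dvd_level N ℓ)).toAdditive

omit [Fact ℓ.Prime] [NeZero N] [NeZero (N * ℓ)] in
theorem resHom_apply (φ : Additive (Gamma0 N) →+ A) (γ : Gamma0 (N * ℓ)) :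
    resHom φ (Additive.ofMul γ) = φ (Additive.ofMul (incl (dvd_level N ℓ) γ)) := rfl

/-- Conjugation by the Atkin–Lehner matrix. -/
def opHom (Φ : Additive (Gamma0 (N * ℓ)) →+ A) : Additive (Gamma0 (N * ℓ)) →+ A :=
  Φ.comp B.c.toAdditive

omit [NeZero (N * ℓ)] in
theorem opHom_apply (Φ : Additive (Gamma0 (N * ℓ)) →+ A) (γ : Gamma0 (N * ℓ)) :
    opHom B Φ (Additive.ofMul γ) = Φ (Additive.ofMul (B.c γ)) := rfl

omit [NeZero (N * ℓ)] in
theorem opHom_opHom (Φ : Additive (Gamma0 (N * ℓ)) →+ A) : opHom B (opHom B Φ) = Φ := by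
  refine AddMonoidHom.ext fun γ => ?_
  obtain ⟨γ, rfl⟩ := Additive.ofMul.surjective γ
  rw [opHom_apply, opHom_apply, B.c_c, ofMul_mul, ofMul_mul, map_add, map_add, ofMul_inv, map_neg]
  abel

theorem tauHom_fib (x : Additive (Gamma0 (N * ℓ)) →+ A) (γ : Gamma0 N) :
    tauHom (dvd_level N ℓ) x (Additive.ofMul γ) = ∑ z ∈ fib N ℓ, cosetCoc x (γ : SL2Z) z := rfl

include B in
/-- The transfer of a restriction. -/
theorem tauHom_resHom (φ : Additive (Gamma0 N) →+ A) :
    tauHom (dvd_level N ℓ) (resHom φ) = (ℓ + 1) • φ := by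
  classical
  refine AddMonoidHom.ext fun γ => ?_
  obtain ⟨γ, rfl⟩ := Additive.ofMul.surjective γ
  let g : Cos (N * ℓ) → A := fun x => if hx : (x.out : SL2Z) ∈ Gamma0 N then
    φ (Additive.ofMul ⟨_, hx⟩) else 0
  have key : ∀ x ∈ fib N ℓ, cosetCoc (resHom φ) (γ : SL2Z) x =
      φ (Additive.ofMul γ) + (g x - g ((γ : SL2Z) • x)) := by
    intro x hx
    have hxm := mem_fib.mp hx
    have hym := mem_fib.mp ((smul_mem_fib γ x).mpr hx)
    have hk : incl (dvd_level N ℓ) ⟨_, ES.cocycle_mem (γ : SL2Z) x⟩ =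
        (⟨_, hym⟩ : Gamma0 N)⁻¹ * γ * ⟨_, hxm⟩ := rfl
    rw [cosetCoc, resHom_apply, hk, ofMul_mul, ofMul_mul, map_add, map_add, ofMul_inv, map_neg]
    simp only [g, dif_pos hxm, dif_pos hym]
    abel
  rw [tauHom_fib, Finset.sum_congr rfl key, Finset.sum_add_distrib, Finset.sum_sub_distrib,
    Finset.sum_const, B.card_fib]
  rw [show ∑ x ∈ fib N ℓ, g ((γ : SL2Z) • x) = ∑ x ∈ fib N ℓ, g x from
    Finset.sum_equiv (MulAction.toPerm (γ : SL2Z)) (fun x => (smul_mem_fib γ x).symm) fun _ _ => rfl,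
    sub_self, add_zero]
  rfl

/-- The operator at `ℓ` through the degeneracy maps. -/
theorem tauHom_opHom_resHom (φ : Additive (Gamma0 N) →+ A) :
    tauHom (dvd_level N ℓ) (opHom B (resHom φ)) = (heckeFam N ℓ).hecke φ := by
  refine AddMonoidHom.ext fun γ => ?_
  obtain ⟨γ, rfl⟩ := Additive.ofMul.surjective γ
  rw [tauHom_fib]
  exact B.sum_eq_hecke (dvd_level N ℓ) _ subset_rfl γ (smul_mem_fib γ) B.exists_index
    B.exists_fib_index φ

/-- The operator `U` through the degeneracy maps. -/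
theorem resHom_tauHom_opHom (Φ : Additive (Gamma0 (N * ℓ)) →+ A) :
    resHom (tauHom (dvd_level N ℓ) (opHom B Φ)) =
      opHom B Φ + (heckeFam (N * ℓ) ℓ).hecke Φ := by
  classical
  refine AddMonoidHom.ext fun γ => ?_
  obtain ⟨γ, rfl⟩ := Additive.ofMul.surjective γ
  set b := ((1 : SL2Z) : Cos (N * ℓ))
  have hb : b ∈ fib N ℓ := mk_mem_fib (1 : Gamma0 N)
  have hfix : (γ : SL2Z) • b = b := smul_base γ
  rw [resHom_apply, tauHom_fib, ← Finset.add_sum_erase _ _ hb, AddMonoidHom.add_apply]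
  congr 1
  · exact cosetCoc_base _ γ
  · refine (Finset.sum_congr rfl fun x _ => ?_).trans
      (B.sum_eq_hecke (M := N * ℓ) dvd_rfl ((fib N ℓ).erase b) (Finset.erase_subset _ _) γ
        (fun x => ?_) (fun x hx => ?_) (fun i => ?_) Φ)
    · rfl
    · rw [Finset.mem_erase, Finset.mem_erase, show (γ : SL2Z) = ((incl (dvd_level N ℓ) γ : Gamma0 N) : SL2Z) from rfl,
        smul_mem_fib, coe_incl]
      refine and_congr_left fun _ => not_congr ⟨fun h => ?_, fun h => by rw [h, hfix]⟩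
      exact MulAction.injective (γ : SL2Z) (h.trans hfix.symm)
    · obtain ⟨hxb, hxf⟩ := Finset.mem_erase.mp hx
      obtain ⟨h10, h00⟩ := B.W_mul_lower (x.out⁻¹ : SL2Z)
      have hN : (N : ℤ) ∣ ((x.out⁻¹ : SL2Z) : M2) 1 0 :=
        dvd_lower_left N ⟨_, inv_mem (mem_fib.mp hxf)⟩
      refine exists_heckeRep _ ℓ _ (B.det_W_mul _) ?_ fun _ hdvd => hxb ?_
      · rw [h10]; push_cast
        exact dvd_add (dvd_mul_right _ _) (by
          rw [mul_comm (ℓ : ℤ)]; exact mul_dvd_mul_right hN _)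
      · rw [h00, dvd_add_right (dvd_mul_of_dvd_left (dvd_mul_right _ _) _)] at hdvd
        have hℓ : Prime (ℓ : ℤ) := Nat.prime_iff_prime_int.mp (Fact.out : ℓ.Prime)
        have hmem : (x.out⁻¹ : SL2Z) ∈ Gamma0 (N * ℓ) := by
          rw [Gamma0_mem, ZMod.intCast_zmod_eq_zero_iff_dvd]
          push_cast
          exact IsCoprime.mul_dvd (Int.isCoprime_iff_nat_coprime.mpr (by
            simpa using (((Fact.out : ℓ.Prime).coprime_iff_not_dvd).mpr B.not_dvd).symm)) hN
            ((hℓ.dvd_or_dvd hdvd).resolve_left B.not_dvd_b)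
        rw [← QuotientGroup.out_eq' x, QuotientGroup.eq, mul_one]
        exact hmem
    · rcases HeckeIdx.cases _ ℓ i with ⟨h, rfl⟩ | ⟨j, rfl⟩
      · exact absurd (dvd_mul_left ℓ N) (h rfl)
      · refine ⟨_, Finset.mem_erase.mpr ⟨fun hk => ?_, mk_mem_fib ((B.unipInv j.val)⁻¹)⟩,
          B.exists_index_of_mk dvd_rfl (δ₀ := 1) ?_⟩
        · rw [QuotientGroup.eq, mul_one] at hk
          simp only [Subgroup.coe_inv, inv_inv] at hk
          rw [Gamma0_mem, ZMod.intCast_zmod_eq_zero_iff_dvd] at hk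
          have h1 : ((N * ℓ : ℕ) : ℤ) ∣ ((N : ℕ) : ℤ) := by
            rw [← dvd_neg]; exact hk
          have h2 := Nat.le_of_dvd (Nat.pos_of_ne_zero (NeZero.ne N)) (Int.natCast_dvd_natCast.mp h1)
          have h3 : N * 2 ≤ N * ℓ := Nat.mul_le_mul_left N (Fact.out : ℓ.Prime).two_le
          have h4 : 0 < N := Nat.pos_of_ne_zero (NeZero.ne N)
          omega
        · rw [mat_one, one_mul, heckeRep_idxSome]
          exact B.W_unipInv _

omit [NeZero (N * ℓ)] in
/-- The second degeneracy map is restriction followed by conjugation. -/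
theorem opHom_resHom_apply (φ : Additive (Gamma0 N) →+ A) (γ : Gamma0 (N * ℓ)) :
    opHom B (resHom φ) (Additive.ofMul γ) = φ (Additive.ofMul (conjDiag ℓ γ)) := by
  set g : Gamma0 N := gamma0Mk N B.a B.b N ℓ (by linear_combination B.eq) dvd_rfl
  have hW : B.W = mat g * !![(ℓ : ℤ), 0; 0, 1] := by
    rw [mat_gamma0Mk]
    ext r s
    fin_cases r <;> fin_cases s <;> simp [Bez.W, Matrix.mul_apply, Fin.sum_univ_two] <;> ring
  have h : incl (dvd_level N ℓ) (B.c γ) = g * conjDiag ℓ γ * g⁻¹ := by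
    rw [eq_mul_inv_iff_mul_eq]
    apply mat_injective
    refine conjDiag.mul_right_cancel_det (B := !![(ℓ : ℤ), 0; 0, 1])
      (by simp [Matrix.det_fin_two_of, (Fact.out : ℓ.Prime).ne_zero]) ?_
    rw [mat_mul, mat_mul, mul_assoc, ← hW, mul_assoc, ← conjDiag_rel, ← mul_assoc, ← hW]
    exact (B.c_rel γ).symm
  rw [opHom_apply, resHom_apply, h, ofMul_mul, ofMul_mul, map_add, map_add, ofMul_inv, map_neg]
  abel

end FLTAgent.Lowering.Cocycle
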