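import Fermat.Agent.Lowering.P4.Levels

/-!
# The modules of a level, their coinvariants and their congruence
-/

set_option autoImplicit false

noncomputable section

set_option synthInstance.maxHeartbeats 400000
set_option maxHeartbeats 800000

open IsLocalRing FLTAgent.Lowering.Cocycle

namespace FLTAgent.Lowering

variable {p : ℕ} [Fact p.Prime] {O : Type} [CommRing O] [IsDomain O] [IsDiscreteValuationRing O]
  [Algebra ℤ_[p] O] [Module.Finite ℤ_[p] O] {S : Setup p O} (X : Aux S)

namespace Cocycle

variable {O : Type} [CommRing O] {bad : Finset ℕ} {k : Type} [Field k]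

theorem exists_eq_cls {M : ℕ} {A : Type} [CommRing A] [Algebra O A] {χ : ZMod M →* A} {N : Type}
    [AddCommGroup N] [Module A N] {θ : Poly O bad →+* k} [NeZero M]
    (hsurj : Function.Surjective (toLoc χ N θ)) (x : Loc χ N θ) :
    ∃ c : Z1 (psi χ) N, toLoc χ N θ (toCoh O χ bad N (cls c)) = x := by
  obtain ⟨m, rfl⟩ := hsurj x
  obtain ⟨z, rfl⟩ := (toCoh O χ bad N).surjective m
  induction z using Submodule.Quotient.induction_on with
  | H c => exact ⟨c, rfl⟩

theorem mapLoc_cls {M : ℕ} [NeZero M] {A : Type} [CommRing A] [Algebra O A] {χ : ZMod M →* A}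
    {N N' : Type} [AddCommGroup N] [Module A N] [AddCommGroup N'] [Module A N'] {θ : Poly O bad →+* k}
    (f : N →ₗ[A] N') (c : Z1 (psi χ) N) :
    mapLoc χ θ f (toLoc χ N θ (toCoh O χ bad N (cls c))) =
      toLoc χ N' θ (toCoh O χ bad N' (cls (mapZ1 (psi χ) f c))) := by
  rw [LocalizedModule.mkLinearMap_apply, mapLoc_mk]
  rfl

theorem resLoc_cls {M M' : ℕ} [NeZero M] [NeZero M'] {A A' : Type} [CommRing A] [CommRing A']
    [Algebra O A] [Algebra O A'] {χ : ZMod M →* A} {χ' : ZMod M' →* A'} {N : Type} [AddCommGroup N]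
    [Module A N] [Module A' N] {θ θ' : Poly O bad →+* k} (L : LevelMap χ χ' N θ θ')
    (c : Z1 (psi χ) N) :
    L.resLoc (toLoc χ N θ (toCoh O χ bad N (cls c))) =
      toLoc χ' N θ' (toCoh O χ' bad N (cls (resZ1 L.compat c))) := by
  rw [L.resLoc_toLoc]
  rfl

end Cocycle

namespace Aux

/-- The module of a level: `false` untwisted, `true` twisted. -/
def Mod (e : Bool) : Type := Loc (X.chi e) X.Coef X.sys

instance (e : Bool) : AddCommGroup (X.Mod e) :=
  inferInstanceAs (AddCommGroup (Loc (X.chi e) X.Coef X.sys))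

instance (e : Bool) : Module X.Coef (X.Mod e) :=
  inferInstanceAs (Module X.Coef (Loc (X.chi e) X.Coef X.sys))

instance (e : Bool) : Module O (X.Mod e) := Module.compHom _ (algebraMap O X.Coef)

theorem mod_smul (e : Bool) (r : O) (x : X.Mod e) : r • x = algebraMap O X.Coef r • x := rfl

instance (e : Bool) : IsScalarTower O X.Coef (X.Mod e) :=
  IsScalarTower.of_algebraMap_smul fun r x => rfl

instance (e : Bool) : SMulCommClass X.Coef O (X.Mod e) :=
  ⟨fun a r x => (smul_smul a (algebraMap O X.Coef r) x).trans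
    ((congrArg (· • x) (mul_comm a (algebraMap O X.Coef r))).trans
      (smul_smul (algebraMap O X.Coef r) a x).symm)⟩

/-- An element of the module as a localised class. -/
def modL (e : Bool) : X.Mod e ≃ₗ[X.Coef] Loc (X.chi e) X.Coef X.sys where
  toFun x := x
  invFun x := x
  map_add' _ _ := rfl
  map_smul' _ _ := rfl
  left_inv _ := rfl
  right_inv _ := rfl

theorem surjective_toLoc_coef {N : Type} [AddCommGroup N] [Module X.Coef N]
    [Module.Finite X.Coef N] (χ : ZMod X.level →* X.Coef) :
    Function.Surjective (toLoc χ N X.sys) :=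
  haveI := X.finite_coef
  haveI : IsNoetherianRing X.Coef := IsNoetherianRing.of_finite ℤ_[p] X.Coef
  toLoc_surjective (N := N) χ X.sys p (residue_natCast_eq_zero p O)

theorem mod_finite_free (e : Bool) :
    Module.Finite X.Coef (X.Mod e) ∧ Module.Free X.Coef (X.Mod e) := by
  obtain ⟨r, b, hb⟩ := X.exists_universal_chi e
  let E : (Fin r → X.Coef) ≃ₗ[X.Coef] X.Mod e :=
    (LinearEquiv.ofBijective (comparison b X.Coef) (hb X.Coef)).trans (X.modL e).symm
  exact ⟨Module.Finite.equiv E, Module.Free.of_equiv E⟩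

theorem mem_smul_top_iff {A : Type*} [CommRing A] {V W : Type*} [AddCommGroup V] [Module A V]
    [AddCommGroup W] [Module A W] (I : Ideal A) (f : V ≃ₗ[A] W) (x : V) :
    f x ∈ (I • ⊤ : Submodule A W) ↔ x ∈ (I • ⊤ : Submodule A V) := by
  have h : Submodule.map (f : V →ₗ[A] W) (I • ⊤) = I • ⊤ := by
    rw [Submodule.map_smul'', Submodule.map_top, LinearEquiv.range]
  rw [← h, Submodule.mem_map_equiv, LinearEquiv.symm_apply_apply]

/-! ### Augmentation -/

/-- The augmentation quotient. -/
abbrev AugQuot : Type := X.Coef ⧸ RingHom.ker X.aug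

theorem aug_surjective : Function.Surjective X.aug := fun r =>
  ⟨algebraMap O X.Coef r, X.aug.commutes r⟩

/-- It is the base ring. -/
def augEquiv : X.AugQuot ≃ₗ[O] O :=
  (Ideal.quotientKerAlgEquivOfSurjective X.aug_surjective).toLinearEquiv

theorem augEquiv_mk (a : X.Coef) : X.augEquiv (Submodule.Quotient.mk a) = X.aug a := rfl

/-- From diamond coefficients to the augmentation quotient. -/
def augMap (e : Bool) :
    LevelMap (X.chi e) (S.charO X.dvd_M0_level e) X.AugQuot X.sys X.sys :=
  changeMap X.sys (fun d hd n => by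
    obtain ⟨a, rfl⟩ := Submodule.Quotient.mk_surjective _ n
    rw [← Submodule.Quotient.mk_smul, ← Submodule.Quotient.mk_smul, Submodule.Quotient.eq,
      RingHom.mem_ker, map_sub, smul_eq_mul, Algebra.smul_def, map_mul, map_mul, X.aug_chi e hd,
      AlgHom.commutes]
    simp) fun r n => by rw [Algebra.algebraMap_self, RingHom.id_apply, algebraMap_smul]

theorem augMap_bijective (e : Bool) : Function.Bijective (X.augMap e).resLoc :=
  changeMap_bijective X.sys _ _ (X.surjective_toLoc_coef _)
    (toLoc_surjective (N := X.AugQuot) _ X.sys p (residue_natCast_eq_zero p O))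

/-- Reduction along the augmentation. -/
def toAug (e : Bool) : X.Mod e →ₗ[O] Loc (S.charO X.dvd_M0_level e) O X.sys where
  toFun x := mapLoc (S.charO X.dvd_M0_level e) X.sys X.augEquiv.toLinearMap
    ((X.augMap e).resLoc
      (mapLoc (X.chi e) X.sys (RingHom.ker X.aug : Submodule X.Coef X.Coef).mkQ (X.modL e x)))
  map_add' x y := by rw [map_add, map_add, map_add, map_add]
  map_smul' r x := by
    rw [mod_smul, map_smul, mapLoc_smul, LevelMap.resLoc_algebraMap_smul, mapLoc_smul]
    rfl

theorem toAug_surjective (e : Bool) : Function.Surjective (X.toAug e) := by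
  intro y
  obtain ⟨z, hz⟩ := mapLoc_surjective (S.charO X.dvd_M0_level e) X.sys (S.charO_neg _ e) S.isUnit_six
    X.augEquiv.toLinearMap X.augEquiv.surjective y
  obtain ⟨w, hw⟩ := (X.augMap_bijective e).2 z
  obtain ⟨x, hx⟩ := mapLoc_surjective (X.chi e) X.sys (X.chi_neg e)
    (map_ofNat (algebraMap O X.Coef) 6 ▸ S.isUnit_six.map (algebraMap O X.Coef))
    (RingHom.ker X.aug : Submodule X.Coef X.Coef).mkQ (Submodule.mkQ_surjective _) w
  exact ⟨(X.modL e).symm x, by
    show mapLoc _ _ _ ((X.augMap e).resLoc (mapLoc _ _ _ (X.modL e ((X.modL e).symm x)))) = y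
    rw [LinearEquiv.apply_symm_apply, hx, hw, hz]⟩

theorem toAug_eq_zero_iff (e : Bool) (x : X.Mod e) :
    X.toAug e x = 0 ↔ x ∈ (RingHom.ker X.aug • ⊤ : Submodule X.Coef (X.Mod e)) := by
  obtain ⟨r, b, hb⟩ := X.exists_universal_chi e
  have hinj : Function.Injective
      (mapLoc (S.charO X.dvd_M0_level e) X.sys X.augEquiv.toLinearMap) := fun u v h => by
    have hh := congrArg (mapLoc (S.charO X.dvd_M0_level e) X.sys X.augEquiv.symm.toLinearMap) h
    rwa [mapLoc_comp, mapLoc_comp, LinearEquiv.symm_comp, mapLoc_id, mapLoc_id] at hh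
  have h := mapLoc_eq_zero_iff hb (RingHom.ker X.aug : Submodule X.Coef X.Coef).mkQ (X.modL e x)
  rw [Submodule.ker_mkQ] at h
  refine Iff.trans ⟨fun h0 => ?_, fun h0 => ?_⟩ (h.trans (mem_smul_top_iff _ _ _))
  · have h1 : (X.augMap e).resLoc (mapLoc (X.chi e) X.sys
        (RingHom.ker X.aug : Submodule X.Coef X.Coef).mkQ (X.modL e x)) = 0 :=
      hinj (h0.trans (map_zero _).symm)
    exact (X.augMap_bijective e).1 (h1.trans (map_zero _).symm)
  · show mapLoc _ _ _ ((X.augMap e).resLoc _) = 0
    rw [h0, map_zero, map_zero]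

/-! ### Coinvariants -/

instance : Subsingleton (Aux.empty S).Dia := by
  haveI : IsEmpty (Aux.empty S).Q := ⟨fun q => Finset.notMem_empty _ q.2⟩
  haveI : Subsingleton (Aux.empty S).Units' := inferInstance
  exact inferInstanceAs (Subsingleton ((Aux.empty S).Units' ⧸ (Aux.empty S).coSylow))

theorem ker_aug_empty : RingHom.ker (Aux.empty S).aug = ⊥ := by
  refine (RingHom.injective_iff_ker_eq_bot _).mp fun a b h => ?_
  have key : ∀ c : (Aux.empty S).Coef,
      c = algebraMap O (Aux.empty S).Coef ((Aux.empty S).aug c) := by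
    intro c
    induction c using MonoidAlgebra.induction_on with
    | of g => rw [Subsingleton.elim g 1, map_one, map_one, map_one]
    | add a b ha hb => rw [map_add, map_add, ← ha, ← hb]
    | smul r a ha => rw [map_smul, smul_eq_mul, map_mul, ← ha, Algebra.smul_def]
  rw [key a, key b, h]

theorem toAug_empty_bijective (e : Bool) : Function.Bijective ((Aux.empty S).toAug e) := by
  refine ⟨(injective_iff_map_eq_zero _).mpr fun x hx => ?_, (Aux.empty S).toAug_surjective e⟩
  have h := ((Aux.empty S).toAug_eq_zero_iff e x).mp hx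
  rwa [ker_aug_empty, Submodule.bot_smul, Submodule.mem_bot] at h

/-- Restriction from the base level with base coefficients. -/
def baseLin (e : Bool) : Loc (S.charO (Aux.empty S).dvd_M0_level e) O (Aux.empty S).sys →ₗ[O]
    Loc (S.charO X.dvd_M0_level e) O X.sys where
  toFun := (X.fromBase e O).resLoc
  map_add' := map_add _
  map_smul' r x := (X.fromBase e O).resLoc_algebraMap_smul r x

/-- The base module in the classes of the level. -/
def baseEquiv (e : Bool) :
    (Aux.empty S).Mod e ≃ₗ[O] Loc (S.charO X.dvd_M0_level e) O X.sys :=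
  LinearEquiv.ofBijective ((X.baseLin e).comp ((Aux.empty S).toAug e))
    ((X.fromBase_bijective e).comp (toAug_empty_bijective e))

/-- The map to the module of the base level. -/
def coinv (e : Bool) : X.Mod e →ₗ[O] (Aux.empty S).Mod e :=
  (X.baseEquiv e).symm.toLinearMap.comp (X.toAug e)

theorem coinv_surjective (e : Bool) : Function.Surjective (X.coinv e) :=
  (X.baseEquiv e).symm.surjective.comp (X.toAug_surjective e)

theorem coinv_eq_zero_iff (e : Bool) (x : X.Mod e) :
    X.coinv e x = 0 ↔ x ∈ (RingHom.ker X.aug • ⊤ : Submodule X.Coef (X.Mod e)) :=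
  (X.baseEquiv e).symm.map_eq_zero_iff.trans (X.toAug_eq_zero_iff e x)

theorem baseEquiv_coinv (e : Bool) (x : X.Mod e) : X.baseEquiv e (X.coinv e x) = X.toAug e x :=
  (X.baseEquiv e).apply_symm_apply _

/-! ### Congruence -/

/-- The extension of the maximal ideal. -/
abbrev modIdeal : Ideal X.Coef := (maximalIdeal O).map (algebraMap O X.Coef)

/-- The reduced coefficients. -/
abbrev ModQuot : Type := X.Coef ⧸ X.modIdeal

/-- From the untwisted to the twisted character modulo the maximal ideal. -/
def twistMap : LevelMap (X.chi false) (X.chi true) X.ModQuot X.sys X.sys :=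
  changeMap X.sys (fun d hd n => by
    obtain ⟨a, rfl⟩ := Submodule.Quotient.mk_surjective _ n
    rw [← hd.unit_spec, ← Submodule.Quotient.mk_smul, ← Submodule.Quotient.mk_smul,
      Submodule.Quotient.eq, ← sub_smul, X.chi_coe, X.chi_coe, ← sub_mul, ← map_sub, smul_eq_mul]
    refine Ideal.mul_mem_right _ _ (Ideal.mul_mem_right _ _ (Ideal.mem_map_of_mem _ ?_))
    rw [← residue_eq_zero_iff, map_sub, ← S.charO_coe, ← S.charO_coe,
      S.residue_charO _ _ hd.unit.isUnit, S.residue_charO _ _ hd.unit.isUnit, sub_self]) fun _ _ => rfl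

theorem twistMap_bijective : Function.Bijective X.twistMap.resLoc :=
  changeMap_bijective X.sys _ _ (X.surjective_toLoc_coef _) (X.surjective_toLoc_coef _)

instance moduleModQuotLoc : Module O (Loc (X.chi true) X.ModQuot X.sys) :=
  Module.compHom _ (algebraMap O X.Coef)

/-- Reduction of the untwisted module. -/
def redFalse : X.Mod false →ₗ[O] Loc (X.chi true) X.ModQuot X.sys :=
  { toFun := fun x => X.twistMap.resLoc (mapLoc (X.chi false) X.sys X.modIdeal.mkQ (X.modL false x))
    map_add' := fun x y => by rw [map_add, map_add, map_add]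
    map_smul' := fun r x => by
      rw [mod_smul, map_smul, mapLoc_smul, LevelMap.resLoc_algebraMap_smul]
      rfl }

end Aux

end FLTAgent.Lowering
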