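import Fermat.Agent.Lowering.P4.Restriction
import Fermat.Agent.DeligneSerre.Interface

/-!
# Restriction of twisted classes to `Γ₁(M)`

For `N ∣ M` a twisted class on `Γ₀(N)` restricts to a homomorphism on `Γ₁(M)`. The restriction is
equivariant for the operators away from `M`, the diamonds act through the character, and at a
prime congruent to one modulo `M` the operator multiplies the classes killed by restriction by
`l + 1`.
-/

set_option autoImplicit false

noncomputable section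

set_option synthInstance.maxHeartbeats 400000

open scoped MatrixGroups
open CongruenceSubgroup

namespace FLTAgent.Lowering.Cocycle

open FLTAgent.PeriodHecke FLTAgent.DeligneSerre

local notation "SL2Z" => Matrix.SpecialLinearGroup (Fin 2) ℤ

variable {N M : ℕ}

/-- The inclusion of `Γ₁(M)` in `Γ₀(N)`. -/
def toGamma0 (h : N ∣ M) : Gamma1 M →* Gamma0 N :=
  (sub0 h).comp (Subgroup.inclusion (Gamma1_in_Gamma0 M))

theorem mat_toGamma0 (h : N ∣ M) (γ : Gamma1 M) : mat (toGamma0 h γ) = mat γ := rfl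

theorem coe_toGamma0 (h : N ∣ M) (γ : Gamma1 M) : (toGamma0 h γ : SL2Z) = (γ : SL2Z) := rfl

variable {A : Type*} [CommRing A] (χ : ZMod N →* A) {V : Type*} [AddCommGroup V] [Module A V]
  (h : N ∣ M)

theorem psi_toGamma0 (γ : Gamma1 M) : psi χ (toGamma0 h γ) = 1 := by
  have h1 : ((mat γ 1 1 : ℤ) : ZMod M) = 1 := ((Gamma1_mem M _).mp γ.2).2.1
  rw [psi_apply, mat_toGamma0, ← map_intCast (ZMod.castHom h (ZMod N)), h1, map_one, map_one]

theorem psi_mul_inv (γ : Gamma0 N) : psi χ γ * psi χ γ⁻¹ = 1 := by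
  rw [← map_mul, mul_inv_cancel, map_one]

/-- The homomorphism of a cocycle. -/
def homZ1 (c : Z1 (psi χ) V) : Additive (Gamma1 M) →+ V :=
  AddMonoidHom.mk' (fun γ => c.1 (toGamma0 h (Additive.toMul γ))) fun a b => by
    show c.1 (toGamma0 h (Additive.toMul a * Additive.toMul b)) = _
    rw [map_mul, Z1_mul, psi_toGamma0, one_smul]

theorem homZ1_apply (c : Z1 (psi χ) V) (γ : Gamma1 M) :
    homZ1 χ h c (Additive.ofMul γ) = c.1 (toGamma0 h γ) := rfl

theorem homZ1_cobdry (v : V) : homZ1 χ h (cobdry (psi χ) V v) = 0 := by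
  refine AddMonoidHom.ext fun x => ?_
  obtain ⟨γ, rfl⟩ := Additive.ofMul.surjective x
  rw [homZ1_apply, cobdry_apply, psi_toGamma0, one_smul, sub_self]
  rfl

/-- Restriction of classes. -/
def resGamma1 : H1 (psi χ) V →+ (Additive (Gamma1 M) →+ V) :=
  QuotientAddGroup.lift (LinearMap.range (cobdry (psi χ) V)).toAddSubgroup
    (AddMonoidHom.mk' (homZ1 χ h) fun _ _ => rfl) (by
      rintro _ ⟨v, rfl⟩
      exact homZ1_cobdry χ h v)

theorem resGamma1_cls (c : Z1 (psi χ) V) (γ : Gamma1 M) :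
    resGamma1 χ h (cls c) (Additive.ofMul γ) = c.1 (toGamma0 h γ) := rfl

theorem resGamma1_smul (a : A) (x : H1 (psi χ) V) (γ : Additive (Gamma1 M)) :
    resGamma1 χ h (a • x) γ = a • resGamma1 χ h x γ := by
  induction x using Submodule.Quotient.induction_on with
  | H c => rfl

theorem resGamma1_diamond (γ : Gamma0 M) (x : H1 (psi χ) V) (δ : Gamma1 M) :
    resGamma1 χ h x (Additive.ofMul (conjGamma1 M γ δ)) =
      psi χ (sub0 h γ) • resGamma1 χ h x (Additive.ofMul δ) := by
  induction x using Submodule.Quotient.induction_on with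
  | H c =>
    have he : toGamma0 h (conjGamma1 M γ δ) = sub0 h γ * toGamma0 h δ * (sub0 h γ)⁻¹ :=
      Subtype.ext rfl
    rw [resGamma1_cls, resGamma1_cls, he, Z1_mul, Z1_mul, Z1_inv, map_mul, psi_toGamma0, mul_one,
      smul_neg, smul_smul, psi_mul_inv, one_smul]
    abel

variable {l : ℕ} [Fact l.Prime]

theorem idxDown_bijective (hl : ¬ l ∣ M) :
    Function.Bijective (idxDown h : HeckeIdx M l → HeckeIdx N l) :=
  ⟨fun _ _ e => Subtype.ext (congrArg Subtype.val e : _), fun i => ⟨⟨i.1, fun _ => hl⟩, rfl⟩⟩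

/-- Restriction commutes with the operators away from `M`. -/
theorem resGamma1_heckeH1 (hl : ¬ l ∣ M) (x : H1 (psi χ) V) :
    resGamma1 χ h (heckeH1 (N := V) (stdWeight (p := l) χ) x) =
      (heckeFam1 hl).hecke (resGamma1 χ h x) := by
  classical
  induction x using Submodule.Quotient.induction_on with
  | H c =>
  refine AddMonoidHom.ext fun y => ?_
  obtain ⟨γ, rfl⟩ := Additive.ofMul.surjective y
  rw [heckeH1_cls, resGamma1_cls, HeckeFamily.hecke_apply, heckeZ1_apply,
    ← (Equiv.ofBijective _ (idxDown_bijective h hl)).sum_comp]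
  have hterm : ∀ i, (stdWeight (p := l) χ).w (idxDown h i) •
      c.1 ((heckeFam N l).coc (toGamma0 h γ) (idxDown h i)) =
      resGamma1 χ h (cls c) (Additive.ofMul ((heckeFam1 hl).coc γ i)) +
        (c.1 (sub0 h (corr1 hl ((heckeFam1 hl).next γ i))) - c.1 (sub0 h (corr1 hl i))) := by
    intro i
    set j := (heckeFam1 hl).next γ i
    set δ := (heckeFam1 hl).coc γ i
    have hw : (stdWeight (p := l) χ).w (idxDown h i) = psi χ (sub0 h (corr1 hl i)) := by
      rw [stdWeight_w, psi_apply, mat_sub0]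
      rcases HeckeIdx.cases M l i with ⟨hi, rfl⟩ | ⟨a, rfl⟩
      · simp [idxDown, corr1, mat, gammaLower_entry]
      · simp [idxDown, idxSome, corr1, mat]
    have hco : (heckeFam N l).coc (toGamma0 h γ) (idxDown h i) =
        (sub0 h (corr1 hl i))⁻¹ * toGamma0 h δ * sub0 h (corr1 hl j) := by
      refine ((heckeFam N l).eq_of_rel (j := idxDown h j) ?_).2
      have hr : mat (corr1 hl i) * heckeRep M l i * mat γ =
          mat δ * (mat (corr1 hl j) * heckeRep M l j) := (heckeFam1 hl).rel γ i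
      rw [heckeFam_α, heckeRep_idxDown, heckeRep_idxDown, mat_toGamma0, mul_assoc, mat_mul,
        mat_mul, mat_toGamma0, ← map_inv, mat_sub0, mat_sub0]
      calc heckeRep M l i * mat γ = mat (corr1 hl i)⁻¹ * (mat (corr1 hl i) * heckeRep M l i * mat γ) := by
            rw [mul_assoc (mat (corr1 hl i)), ← mul_assoc, ← mat_mul, inv_mul_cancel, mat_one,
              one_mul]
        _ = _ := by rw [hr]; simp only [mul_assoc]
    rw [hw, hco, resGamma1_cls, Z1_mul, Z1_mul, Z1_inv, map_mul, psi_toGamma0, mul_one, smul_add,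
      smul_add, smul_neg, smul_smul, smul_smul, smul_smul, psi_mul_inv]
    simp only [one_smul]
    abel
  simp only [Equiv.ofBijective_apply]
  rw [Finset.sum_congr rfl fun i _ => hterm i, Finset.sum_add_distrib, Finset.sum_sub_distrib]
  rw [show ∑ i, c.1 (sub0 h (corr1 hl ((heckeFam1 hl).next γ i))) =
    ∑ i, c.1 (sub0 h (corr1 hl i)) from
    Equiv.sum_comp ((heckeFam1 hl).perm γ) (fun i => c.1 (sub0 h (corr1 hl i))), sub_self,
    add_zero]

/-- Classes killed by restriction are multiplied by `l + 1` at the primes `l ≡ 1`. -/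
theorem heckeH1_eq_of_resHom_eq_zero (hl : ¬ l ∣ M) (h1 : (l : ZMod M) = 1) {x : H1 (psi χ) V}
    (hx : resGamma1 χ h x = 0) :
    heckeH1 (N := V) (stdWeight (p := l) χ) x = (l + 1) • x := by
  classical
  induction x using Submodule.Quotient.induction_on with
  | H c =>
  have hc : ∀ δ : Gamma0 N, (δ : SL2Z) ∈ Gamma1 M → c.1 δ = 0 := fun δ hδ => by
    rw [show δ = toGamma0 h ⟨δ, hδ⟩ from Subtype.ext rfl]
    exact DFunLike.congr_fun hx (Additive.ofMul ⟨(δ : SL2Z), hδ⟩)
  have hlN : ¬ l ∣ N := fun h' => hl (h'.trans h)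
  let f := Matrix.SpecialLinearGroup.map (n := Fin 2) (Int.castRingHom (ZMod M))
  let τ : Option (ZMod l) → Gamma0 N := fun o =>
    gamma0Mk N 1 (o.elim 0 fun a => (a.val : ℤ)) 0 1 (by ring) (dvd_zero _)
  have hτ : ∀ o, c.1 (τ o) = 0 := fun o => hc _ (by
    rw [Gamma1_mem]
    show ((mat (τ o) 0 0 : ℤ) : ZMod M) = 1 ∧ ((mat (τ o) 1 1 : ℤ) : ZMod M) = 1 ∧
      ((mat (τ o) 1 0 : ℤ) : ZMod M) = 0
    simp [τ])
  have hψτ : ∀ o, psi χ (τ o) = 1 := fun o => by simp [psi_apply, τ]
  have hval : ∀ (γ : Gamma0 N) i, c.1 ((heckeFam N l).coc γ i) = c.1 γ := fun γ i => by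
    set j := (heckeFam N l).next γ i
    set δ := (heckeFam N l).coc γ i
    have hr := (heckeFam N l).rel γ i
    rw [heckeFam_α] at hr
    have hrep : ∀ k, (heckeRep N l k).map (Int.cast : ℤ → ZMod M) =
        (mat (τ k.1)).map (Int.cast : ℤ → ZMod M) := fun k => by
      rcases HeckeIdx.cases N l k with ⟨hk, rfl⟩ | ⟨a, rfl⟩ <;>
        ext u v <;> fin_cases u <;> fin_cases v <;> simp [heckeRep, idxSome, τ, h1]
    have hmap : f ((τ i.1 * γ : Gamma0 N) : SL2Z) = f ((δ * τ j.1 : Gamma0 N) : SL2Z) := by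
      refine Subtype.ext ?_
      show (mat (τ i.1 * γ)).map (Int.cast : ℤ → ZMod M) = (mat (δ * τ j.1)).map Int.cast
      rw [mat_mul, mat_mul, Matrix.map_mul_intCast, Matrix.map_mul_intCast, ← hrep, ← hrep,
        ← Matrix.map_mul_intCast, ← Matrix.map_mul_intCast, hr]
    set ε : Gamma0 N := (τ i.1 * γ)⁻¹ * (δ * τ j.1)
    have hε : (ε : SL2Z) ∈ Gamma1 M := by
      have h2 : (ε : SL2Z) ∈ Gamma M := by
        rw [Gamma_mem']
        show f _ = 1
        rw [show (ε : SL2Z) = (((τ i.1 * γ : Gamma0 N) : SL2Z))⁻¹ *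
          ((δ * τ j.1 : Gamma0 N) : SL2Z) from rfl, map_mul, map_inv, hmap, inv_mul_cancel]
      rw [Gamma1_mem]
      rw [Gamma_mem] at h2
      exact ⟨h2.1, h2.2.2.2, h2.2.2.1⟩
    have e1 : c.1 (δ * τ j.1) = c.1 δ := by rw [Z1_mul, hτ, smul_zero, add_zero]
    have e2 : c.1 (τ i.1 * γ * ε) = c.1 γ := by
      rw [Z1_mul, Z1_mul, hτ, hψτ, one_smul, zero_add, hc ε hε, smul_zero, add_zero]
    rw [← e1, ← e2, mul_inv_cancel_left]
  refine congrArg cls (Subtype.ext (funext fun γ => ?_)) |>.trans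
    (Submodule.Quotient.mk_smul (LinearMap.range (cobdry (psi χ) V)) (l + 1) c)
  rw [heckeZ1_apply]
  have hw : ∀ i : HeckeIdx N l, (stdWeight (p := l) χ).w i = 1 := fun i => by
    rw [stdWeight_w]
    split_ifs
    · rw [← map_natCast (ZMod.castHom h (ZMod N)), h1, map_one, map_one]
    · rfl
  simp only [hw, one_smul, hval, Finset.sum_const, Finset.card_univ]
  have hcard : Fintype.card (HeckeIdx N l) = l + 1 := by
    let e : HeckeIdx N l ≃ Option (ZMod l) :=
      ⟨fun x => x.1, fun x => ⟨x, fun _ => hlN⟩, fun x => rfl, fun x => rfl⟩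
    rw [Fintype.card_congr e, Fintype.card_option, ZMod.card]
  rw [hcard]
  rfl

end FLTAgent.Lowering.Cocycle
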