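import Fermat.Agent.Lowering.P4.Congruence

/-!
# The algebra of twisted traces of a level

The Hecke operators away from the level, multiplied by the inverse square root of the character,
generate a local algebra acting faithfully on the two modules.
-/

set_option autoImplicit false

noncomputable section

set_option synthInstance.maxHeartbeats 400000
set_option maxHeartbeats 800000

open IsLocalRing FLTAgent.Lowering.Cocycle

namespace FLTAgent.Lowering

variable {p : ℕ} [Fact p.Prime] {O : Type} [CommRing O] [IsDomain O] [IsDiscreteValuationRing O]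
  [Algebra ℤ_[p] O] [Module.Finite ℤ_[p] O] {S : Setup p O} (X : Aux S)

namespace Aux

/-! ### The square root of the inverse character -/

/-- The exponent of a square root of the characters, which have odd order. -/
def halfExp : ℕ := (p ^ (Nat.card X.Units' + 1) + 1) / 2

theorem two_mul_halfExp : 2 * X.halfExp = p ^ (Nat.card X.Units' + 1) + 1 := by
  have hodd : Odd (p ^ (Nat.card X.Units' + 1)) :=
    (((Fact.out : p.Prime).eq_two_or_odd').resolve_left (by have := S.p_gt; omega)).pow
  obtain ⟨j, hj⟩ := hodd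
  unfold halfExp
  omega

theorem chiU_pow (e : Bool) (u : (ZMod X.level)ˣ) :
    X.chiU e u ^ p ^ (Nat.card X.Units' + 1) = 1 := by
  refine Units.ext ?_
  have h1 : (S.eps X.dvd_M0_level e u : O) ^ p ^ (Nat.card X.Units' + 1) = 1 := by
    rw [pow_succ', pow_mul, ← Units.val_pow_eq_pow_val, S.eps_pow, Units.val_one, one_pow]
  have h2 : X.dia u ^ p ^ (Nat.card X.Units' + 1) = 1 := by
    rw [pow_succ, pow_mul, X.dia_pow, one_pow]
  rw [Units.val_pow_eq_pow_val]
  show (algebraMap O X.Coef (S.eps X.dvd_M0_level e u : O) *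
    MonoidAlgebra.of O X.Dia (X.dia u)) ^ _ = 1
  rw [mul_pow, ← map_pow, ← map_pow, h1, h2, map_one, map_one, one_mul]

/-- The inverse square root of the character. -/
def half (e : Bool) : (ZMod X.level)ˣ →* X.Coefˣ :=
  invMonoidHom.comp ((powMonoidHom X.halfExp).comp (X.chiU e))

theorem half_apply (e : Bool) (u : (ZMod X.level)ˣ) :
    X.half e u = (X.chiU e u ^ X.halfExp)⁻¹ := rfl

theorem half_sq_mul (e : Bool) (u : (ZMod X.level)ˣ) :
    X.half e u * X.half e u * X.chiU e u = 1 := by
  rw [half_apply, ← mul_inv, ← pow_add, ← two_mul, X.two_mul_halfExp, pow_succ, X.chiU_pow,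
    one_mul, inv_mul_cancel]

theorem residue_aug_half (e : Bool) (u : (ZMod X.level)ˣ) :
    residue O (X.aug (X.half e u : X.Coef)) = 1 := by
  have h1 : Units.map ((residue O).comp X.aug.toRingHom).toMonoidHom (X.chiU e u) = 1 := Units.ext (by
    show residue O (X.aug (X.chiU e u : X.Coef)) = 1
    rw [show (X.chiU e u : X.Coef) = X.chi e (u : ZMod X.level) from
      (MulChar.ofUnitHom_coe (X.chiU e) u).symm, X.aug_chi e u.isUnit,
      S.residue_charO _ e u.isUnit])
  have h2 : Units.map ((residue O).comp X.aug.toRingHom).toMonoidHom (X.half e u) = 1 := by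
    rw [half_apply, map_inv, map_pow, h1, one_pow, inv_one]
  exact congrArg Units.val h2

/-! ### The operators -/

/-- The action of the polynomial ring on a module. -/
def opMod (e : Bool) : Poly O S.bad →+* Module.End X.Coef (X.Mod e) where
  toFun r :=
    { toFun := fun x => (X.modL e).symm (r • X.modL e x)
      map_add' := fun x y => by rw [map_add, smul_add, map_add]
      map_smul' := fun a x =>
        (congrArg (fun z => (X.modL e).symm (r • z)) ((X.modL e).map_smul a x)).trans
          ((congrArg (X.modL e).symm (smul_comm r a (X.modL e x))).trans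
            ((X.modL e).symm.map_smul a _)) }
  map_one' := LinearMap.ext fun x => one_smul (Poly O S.bad) (X.modL e x)
  map_mul' r s := LinearMap.ext fun x => mul_smul r s (X.modL e x)
  map_zero' := LinearMap.ext fun x => zero_smul (Poly O S.bad) (X.modL e x)
  map_add' r s := LinearMap.ext fun x => add_smul r s (X.modL e x)

theorem modL_opMod (e : Bool) (r : Poly O S.bad) (x : X.Mod e) :
    X.modL e (X.opMod e r x) = r • X.modL e x := rfl

/-- The primes away from the level. -/
abbrev TrPrime : Type := {l : GoodPrime S.bad // ¬ l.1 ∣ X.level}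

/-- The residue of a prime away from the level. -/
def unitOf (l : X.TrPrime) : (ZMod X.level)ˣ :=
  ZMod.unitOfCoprime l.1.1 ((l.1.2.1.coprime_iff_not_dvd).mpr l.2)

/-- A twisted trace on one module. -/
def genE (e : Bool) (l : X.TrPrime) : Module.End X.Coef (X.Mod e) :=
  (X.half e (X.unitOf l) : X.Coef) • X.opMod e (MvPolynomial.X l.1)

/-- The pair of modules' endomorphisms. -/
abbrev EndPair : Type := Module.End X.Coef (X.Mod false) × Module.End X.Coef (X.Mod true)

/-- A twisted trace. -/
def gen (l : X.TrPrime) : X.EndPair := (X.genE false l, X.genE true l)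

theorem genE_comm (e : Bool) (l r : X.TrPrime) : X.genE e l * X.genE e r = X.genE e r * X.genE e l := by
  unfold genE
  rw [smul_mul_smul_comm, smul_mul_smul_comm, ← map_mul, ← map_mul,
    mul_comm (MvPolynomial.X l.1), mul_comm (X.half e (X.unitOf l) : X.Coef)]

theorem commute_gen : ∀ a ∈ Set.range X.gen, ∀ b ∈ Set.range X.gen, a * b = b * a := by
  rintro _ ⟨l, rfl⟩ _ ⟨r, rfl⟩
  exact Prod.ext (X.genE_comm false l r) (X.genE_comm true l r)

open scoped IsMulCommutative in
/-- Evaluation at the twisted traces. -/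
def evalTr : MvPolynomial X.TrPrime O →ₐ[O] X.EndPair :=
  haveI : IsMulCommutative (Algebra.adjoin O (Set.range X.gen)) :=
    Algebra.isMulCommutative_adjoin O X.commute_gen
  (Algebra.adjoin O (Set.range X.gen)).val.comp
    (MvPolynomial.aeval fun l : X.TrPrime =>
      (⟨X.gen l, Algebra.subset_adjoin ⟨l, rfl⟩⟩ : Algebra.adjoin O (Set.range X.gen)))

theorem evalTr_X (l : X.TrPrime) : X.evalTr (MvPolynomial.X l) = X.gen l := by
  simp [evalTr]

/-- The algebra of twisted traces. -/
abbrev TR : Type := MvPolynomial X.TrPrime O ⧸ RingHom.ker X.evalTr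

/-- Its action on the pair. -/
def actPair : X.TR →ₐ[O] X.EndPair := Ideal.kerLiftAlg X.evalTr

theorem actPair_injective : Function.Injective X.actPair := Ideal.kerLiftAlg_injective _

theorem actPair_mk (P : MvPolynomial X.TrPrime O) :
    X.actPair (Ideal.Quotient.mk _ P) = X.evalTr P := Ideal.kerLiftAlg_mk X.evalTr P

/-- Its action on one module. -/
def actTR : ∀ e : Bool, X.TR →ₐ[O] Module.End X.Coef (X.Mod e)
  | false => (AlgHom.fst O _ _).comp X.actPair
  | true => (AlgHom.snd O _ _).comp X.actPair

theorem actTR_faithful (t : X.TR) (h : ∀ e, X.actTR e t = 0) : t = 0 :=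
  X.actPair_injective ((Prod.ext (h false) (h true)).trans (map_zero X.actPair).symm)

/-- The twisted trace at a prime. -/
def trace (l : X.TrPrime) : X.TR := Ideal.Quotient.mk _ (MvPolynomial.X l)

theorem actTR_trace (e : Bool) (l : X.TrPrime) : X.actTR e (X.trace l) = X.genE e l := by
  have h : X.actPair (X.trace l) = X.gen l := (X.actPair_mk _).trans (X.evalTr_X l)
  cases e
  · exact congrArg Prod.fst h
  · exact congrArg Prod.snd h

/-- Induction over the twisted traces. -/
theorem TR_induction {motive : X.TR → Prop} (hC : ∀ r : O, motive (algebraMap O X.TR r))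
    (hX : ∀ l, motive (X.trace l)) (hadd : ∀ a b, motive a → motive b → motive (a + b))
    (hmul : ∀ a b, motive a → motive b → motive (a * b)) (t : X.TR) : motive t := by
  obtain ⟨P, rfl⟩ := Ideal.Quotient.mk_surjective t
  induction P using MvPolynomial.induction_on with
  | C r => rw [← MvPolynomial.algebraMap_eq, Ideal.Quotient.mk_algebraMap]; exact hC r
  | add a b ha hb => rw [map_add]; exact hadd _ _ ha hb
  | mul_X a l ha => rw [map_mul]; exact hmul _ _ ha (hX l)

theorem adjoin_trace_eq_top : Algebra.adjoin O (Set.range X.trace) = ⊤ :=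
  eq_top_iff.mpr fun t _ => X.TR_induction (motive := (· ∈ Algebra.adjoin O (Set.range X.trace)))
    (fun r => Subalgebra.algebraMap_mem _ r) (fun l => Algebra.subset_adjoin ⟨l, rfl⟩)
    (fun _ _ ha hb => add_mem ha hb) (fun _ _ ha hb => mul_mem ha hb) t

theorem finite_mod_base (e : Bool) : Module.Finite O (X.Mod e) :=
  haveI := (X.mod_finite_free e).1
  Module.Finite.trans X.Coef (X.Mod e)

theorem finite_endPair : Module.Finite O X.EndPair := by
  haveI := fun e => (X.mod_finite_free e).1
  haveI := fun e => (X.mod_finite_free e).2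
  haveI : ∀ e, Module.Finite X.Coef (Module.End X.Coef (X.Mod e)) := fun e => inferInstance
  haveI : ∀ e, Module.Finite O (Module.End X.Coef (X.Mod e)) := fun e =>
    Module.Finite.trans X.Coef _
  infer_instance

theorem finite_TR : Module.Finite O X.TR :=
  haveI := X.finite_endPair
  Module.Finite.of_injective X.actPair.toLinearMap X.actPair_injective

/-! ### Reduction -/

/-- The residual value of a polynomial in the twisted traces. -/
def resTr : MvPolynomial X.TrPrime O →ₐ[O] ResidueField O :=
  MvPolynomial.aeval fun l => S.tr0 l.1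

theorem mk_C (r : O) : (Ideal.Quotient.mk (RingHom.ker X.evalTr) (MvPolynomial.C r) : X.TR) =
    algebraMap O X.TR r := by
  rw [← MvPolynomial.algebraMap_eq, Ideal.Quotient.mk_algebraMap]

theorem actTR_algebraMap (e : Bool) (r : O) (x : X.Mod e) :
    X.actTR e (algebraMap O X.TR r) x = r • x := by
  rw [AlgHom.commutes, Module.algebraMap_end_apply]

theorem opMod_C (e : Bool) (r : O) (x : X.Mod e) : X.opMod e (MvPolynomial.C r) x = r • x :=
  (X.modL e).injective ((X.modL_opMod e _ x).trans ((C_smul (X.chi e) X.Coef X.sys r _).trans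
    (((X.modL e).map_smul (algebraMap O X.Coef r) x).symm)))

theorem exists_congr_op (e : Bool) (P : MvPolynomial X.TrPrime O) :
    ∃ Q : Poly O S.bad, X.sys Q = X.resTr P ∧ ∀ x : X.Mod e,
      X.actTR e (Ideal.Quotient.mk _ P) x - X.opMod e Q x ∈
        (maximalIdeal X.Coef • ⊤ : Submodule X.Coef (X.Mod e)) := by
  induction P using MvPolynomial.induction_on with
  | C r =>
    refine ⟨MvPolynomial.C r, ?_, fun x => ?_⟩
    · rw [resTr, MvPolynomial.aeval_C, sys, X.sysOn_C]
      rfl
    · rw [X.mk_C, X.actTR_algebraMap, X.opMod_C, sub_self]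
      exact zero_mem _
  | add a b ha hb =>
    obtain ⟨Qa, ha1, ha2⟩ := ha
    obtain ⟨Qb, hb1, hb2⟩ := hb
    refine ⟨Qa + Qb, by rw [map_add, map_add, ha1, hb1], fun x => ?_⟩
    rw [map_add, map_add, map_add, LinearMap.add_apply, LinearMap.add_apply, add_sub_add_comm]
    exact add_mem (ha2 x) (hb2 x)
  | mul_X a l ha =>
    obtain ⟨Q, h1, h2⟩ := ha
    refine ⟨Q * MvPolynomial.X l.1, ?_, fun x => ?_⟩
    · rw [map_mul, map_mul, h1, resTr, MvPolynomial.aeval_X, sys, X.sysOn_not_mem]
      exact fun hm => l.2 (dvd_mul_of_dvd_right (Finset.dvd_prod_of_mem _ hm) _)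
    · set u : X.Coef := (X.half e (X.unitOf l) : X.Coef)
      set y : X.Mod e := X.opMod e (MvPolynomial.X l.1) x
      have hu : u - 1 ∈ maximalIdeal X.Coef := by
        rw [mem_maximalIdeal, mem_nonunits_iff, X.isUnit_iff_aug, ← residue_ne_zero_iff_isUnit,
          map_sub, map_one, map_sub, X.residue_aug_half, map_one, sub_self]
        exact fun h => h rfl
      rw [map_mul, map_mul, Module.End.mul_apply, map_mul, Module.End.mul_apply,
        show X.actTR e (Ideal.Quotient.mk _ (MvPolynomial.X l)) x = u • y from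
          congrArg (fun f : Module.End X.Coef (X.Mod e) => f x) (X.actTR_trace e l),
        show X.opMod e Q y = X.opMod e Q y - X.opMod e Q (u • y) + X.opMod e Q (u • y) from
          (sub_add_cancel _ _).symm, ← map_sub, sub_add_eq_sub_sub_swap]
      refine sub_mem (h2 (u • y)) ?_
      rw [show y - u • y = (1 - u) • y from ((sub_smul (1 : X.Coef) u y).trans
        (congrArg (· - u • y) (one_smul X.Coef y))).symm, map_smul]
      exact Submodule.smul_mem_smul (by rw [← neg_sub]; exact neg_mem hu) Submodule.mem_top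

theorem bijective_of_resTr (e : Bool) (P : MvPolynomial X.TrPrime O) (hP : X.resTr P ≠ 0) :
    Function.Bijective (X.actTR e (Ideal.Quotient.mk _ P)) := by
  haveI := X.finite_coef
  haveI := (X.mod_finite_free e).1
  obtain ⟨Q, h1, h2⟩ := X.exists_congr_op e P
  have hQ : Function.Bijective fun z : Loc (X.chi e) X.Coef X.sys => Q • z :=
    (Module.End.isUnit_iff _).mp (IsLocalizedModule.map_units (toLoc (X.chi e) X.Coef X.sys)
      (⟨Q, by rw [mem_denom, h1]; exact hP⟩ : denom X.sys))
  set f := X.actTR e (Ideal.Quotient.mk _ P)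
  have hle : (⊤ : Submodule X.Coef (X.Mod e)) ≤ LinearMap.range f ⊔ maximalIdeal X.Coef • ⊤ := by
    intro y _
    obtain ⟨z, hz⟩ := hQ.2 (X.modL e y)
    have hy : X.opMod e Q ((X.modL e).symm z) = y :=
      (X.modL e).injective (by rw [X.modL_opMod, LinearEquiv.apply_symm_apply]; exact hz)
    rw [show y = f ((X.modL e).symm z) + -(f ((X.modL e).symm z) - X.opMod e Q ((X.modL e).symm z))
      by rw [hy]; abel]
    exact Submodule.add_mem_sup (LinearMap.mem_range_self _ _) (neg_mem (h2 _))
  have hsurj : Function.Surjective f := LinearMap.range_eq_top.mp (eq_top_iff.mpr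
    (Submodule.le_of_le_smul_of_le_jacobson_bot Module.Finite.fg_top
      (maximalIdeal_le_jacobson _) hle))
  exact ⟨OrzechProperty.injective_of_surjective_endomorphism f hsurj, hsurj⟩

/-- The invertible elements. -/
theorem isUnit_of_resTr (P : MvPolynomial X.TrPrime O) (hP : X.resTr P ≠ 0) :
    IsUnit (Ideal.Quotient.mk (RingHom.ker X.evalTr) P : X.TR) := by
  haveI := X.finite_endPair
  haveI : IsNoetherian O X.EndPair := isNoetherian_of_isNoetherianRing_of_finite _ _
  set t : X.TR := Ideal.Quotient.mk _ P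
  obtain ⟨u0, hu0⟩ := ((Module.End.isUnit_iff _).mpr (X.bijective_of_resTr false P hP)).exists_left_inv
  obtain ⟨u1, hu1⟩ := ((Module.End.isUnit_iff _).mpr (X.bijective_of_resTr true P hP)).exists_left_inv
  set u : X.EndPair := (u0, u1)
  have hut : u * X.actPair t = 1 := Prod.ext hu0 hu1
  let W : ℕ →o Submodule O X.EndPair :=
    { toFun := fun n => (LinearMap.range X.actPair.toLinearMap).map (LinearMap.mulLeft O (u ^ n))
      monotone' := monotone_nat_of_le_succ fun n => by
        rintro _ ⟨_, ⟨r, rfl⟩, rfl⟩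
        refine ⟨X.actPair (t * r), ⟨t * r, rfl⟩, ?_⟩
        show u ^ (n + 1) * X.actPair (t * r) = u ^ n * X.actPair r
        rw [map_mul, pow_succ, mul_assoc, ← mul_assoc u, hut, one_mul] }
  obtain ⟨n, hn⟩ := monotone_stabilizes_iff_noetherian.2 ‹_› W
  have h1 : u ^ (n + 1) * X.actPair 1 ∈ W (n + 1) := ⟨_, ⟨1, rfl⟩, rfl⟩
  rw [← hn (n + 1) n.le_succ] at h1
  obtain ⟨_, ⟨r, rfl⟩, hr⟩ := h1
  change u ^ n * X.actPair r = u ^ (n + 1) * X.actPair 1 at hr
  refine IsUnit.of_mul_eq_one r (X.actPair_injective ?_)
  rw [map_one, mul_one] at hr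
  have hcomm : Commute u (X.actPair t) := by
    have hb : Function.Bijective (X.actPair t).1 ∧ Function.Bijective (X.actPair t).2 :=
      ⟨X.bijective_of_resTr false P hP, X.bijective_of_resTr true P hP⟩
    refine Prod.ext (LinearMap.ext fun x => ?_) (LinearMap.ext fun x => ?_)
    · obtain ⟨w, rfl⟩ := hb.1.2 x
      show u0 ((X.actPair t).1 ((X.actPair t).1 w)) = (X.actPair t).1 (u0 ((X.actPair t).1 w))
      have e1 : ∀ v, u0 ((X.actPair t).1 v) = v := fun v => LinearMap.congr_fun hu0 v
      rw [e1, e1]
    · obtain ⟨w, rfl⟩ := hb.2.2 x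
      show u1 ((X.actPair t).2 ((X.actPair t).2 w)) = (X.actPair t).2 (u1 ((X.actPair t).2 w))
      have e1 : ∀ v, u1 ((X.actPair t).2 v) = v := fun v => LinearMap.congr_fun hu1 v
      rw [e1, e1]
  have htu : X.actPair t * u = 1 := hcomm.eq.symm.trans hut
  have hpow : X.actPair t ^ n * u ^ n = 1 := by
    rw [← hcomm.symm.mul_pow, htu, one_pow]
  have hru : X.actPair r = u := by
    calc X.actPair r = X.actPair t ^ n * u ^ n * X.actPair r := by rw [hpow, one_mul]
      _ = u := by rw [mul_assoc, hr, pow_succ, ← mul_assoc, hpow, one_mul]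
  rw [map_mul, map_one, hru, htu]

variable [Nontrivial (X.Mod false)]

theorem ker_le_resTr : RingHom.ker X.evalTr ≤ RingHom.ker X.resTr := fun P hP => by
  by_contra h
  have hb := X.bijective_of_resTr false P h
  rw [show X.actTR false (Ideal.Quotient.mk _ P) = 0 by
    rw [Ideal.Quotient.eq_zero_iff_mem.mpr hP, map_zero]] at hb
  obtain ⟨a, b, hab⟩ := exists_pair_ne (X.Mod false)
  exact hab (hb.1 rfl)

/-- The reduction of the twisted traces. -/
def redTR : X.TR →ₐ[O] ResidueField O :=
  Ideal.Quotient.liftₐ _ X.resTr fun _ h => X.ker_le_resTr h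

theorem redTR_mk (P : MvPolynomial X.TrPrime O) :
    X.redTR (Ideal.Quotient.mk _ P) = X.resTr P := rfl

theorem redTR_trace (l : X.TrPrime) : X.redTR (X.trace l) = S.tr0 l.1 := MvPolynomial.aeval_X _ _

theorem isUnit_of_redTR {t : X.TR} (h : X.redTR t ≠ 0) : IsUnit t := by
  obtain ⟨P, rfl⟩ := Ideal.Quotient.mk_surjective t
  exact X.isUnit_of_resTr P h

theorem isLocalRing_TR : IsLocalRing X.TR := by
  haveI : Nontrivial X.TR := RingHom.domain_nontrivial (X.redTR.toRingHom)
  refine IsLocalRing.of_isUnit_or_isUnit_one_sub_self fun a => ?_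
  by_cases ha : X.redTR a = 0
  · exact Or.inr (X.isUnit_of_redTR (by rw [map_sub, map_one, ha, sub_zero]; exact one_ne_zero))
  · exact Or.inl (X.isUnit_of_redTR ha)

end Aux

end FLTAgent.Lowering
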