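import Fermat.Agent.Lowering.P4.TraceInertia

/-!
# The local conditions at one level

Away from the level the representation is unramified, at the remaining primes of `M0` unipotent,
and at `T` and at the auxiliary primes it satisfies the relations of the twists.
-/

set_option autoImplicit false

noncomputable section

set_option synthInstance.maxHeartbeats 400000
set_option maxHeartbeats 1000000
set_option maxRecDepth 4000

open IsLocalRing FLTAgent.Lowering.Cocycle FLTAgent.EigenReps CongruenceSubgroup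
open scoped MatrixGroups

namespace FLTAgent.Lowering

open FLTAgent.PeriodHecke FLTAgent.DeligneSerre

local notation "LL" => AlgebraicClosure ℚ
local notation "GG" => (AlgebraicClosure ℚ ≃ₐ[ℚ] AlgebraicClosure ℚ)

theorem sub_one_sq_of_trace_det {R : Type*} [CommRing R] (A : Matrix (Fin 2) (Fin 2) R)
    (ht : A.trace = 2) (hd : A.det = 1) : (A - 1) ^ 2 = 0 := by
  rw [Matrix.trace_fin_two] at ht
  rw [Matrix.det_fin_two] at hd
  refine Matrix.ext fun i j => ?_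
  fin_cases i <;> fin_cases j <;>
    simp [sq, Matrix.mul_apply, Fin.sum_univ_two, Matrix.one_apply]
  · linear_combination (A 0 0) * ht - hd
  · linear_combination (A 0 1) * ht
  · linear_combination (A 1 0) * ht
  · linear_combination (A 1 1) * ht - hd

variable {p : ℕ} [Fact p.Prime] {O : Type} [CommRing O] [IsDomain O] [IsDiscreteValuationRing O]
  [Algebra ℤ_[p] O] [Module.Finite ℤ_[p] O] [CharZero O] {S : Setup p O} (X : Aux S)

namespace Aux

theorem prime_mem_of_dvd_level {q : ℕ} (hq : q ∈ X.Q) : q ∣ X.level :=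
  dvd_mul_of_dvd_right (Finset.dvd_prod_of_mem _ hq) _

theorem ne_of_mem_T_Q {t q : ℕ} (ht : t ∈ S.T) (hq : q ∈ X.Q) : t ≠ q := fun h =>
  X.notMem q hq (h ▸ S.level_mem t (S.T_prime t ht).1 (S.T_prime t ht).2.1)

theorem chiU_eq_one {e : Bool} {u : (ZMod X.level)ˣ}
    (hT : e = true → ∀ (t : ℕ) (ht : t ∈ S.T),
      ZMod.castHom ((S.T_prime t ht).2.1.trans X.dvd_M0_level) (ZMod t) (u : ZMod X.level) = 1)
    (hQ : ∀ (q : ℕ) (hq : q ∈ X.Q),
      ZMod.castHom (X.prime_mem_of_dvd_level hq) (ZMod q) (u : ZMod X.level) = 1) :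
    X.chiU e u = 1 := by
  refine Units.ext ?_
  rw [X.chiU_eq, X.eps_eq_one hT, X.dia_eq_one hQ, Units.val_one, map_one, map_one, one_mul,
    Units.val_one]

theorem half_eq_one {e : Bool} {u : (ZMod X.level)ˣ} (h : X.chiU e u = 1) : X.half e u = 1 := by
  rw [half_apply, h, one_pow, inv_one]

/-- The exponent of an inertia element at another prime. -/
theorem cast_expo_inertia {l d : ℕ} [NeZero d] (hl : l.Prime) (hd : d ∣ X.level) (hld : ¬ l ∣ d)
    {V : ValuationSubring LL} (hV : V.LiesOverPrime l) {σ : GG}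
    (hσ : σ ∈ V.inertiaSubgroupIn ℚ) :
    ZMod.castHom hd (ZMod d) ((expo X.level σ : (ZMod X.level)ˣ) : ZMod X.level) = 1 := by
  rw [expo_cast, expo_inertia hl hld hV hσ, Units.val_one]

theorem cast_expo_self {l : ℕ} [NeZero l] (hd : l ∣ X.level) {σ : GG} {c : (ZMod l)ˣ}
    (hc : ∀ ζ : LL, ζ ^ l = 1 → σ ζ = ζ ^ (c : ZMod l).val) :
    ZMod.castHom hd (ZMod l) ((expo X.level σ : (ZMod X.level)ˣ) : ZMod X.level) = (c : ZMod l) := by
  rw [expo_cast, expo_eq hc, ZMod.natCast_zmod_val]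

theorem chi_eq_one_of_div {M l : ℕ} [NeZero M] (hA : X.Allowed M) (hl : l.Prime) (hlM : l ∣ M)
    {e : Bool} (hlT : e = true → l ∉ S.T) (hlQ : l ∉ X.Q) (γ : Gamma0 M)
    (hγ : (((γ : SL(2, ℤ)) 1 1 : ℤ) : ZMod (M / l)) = 1) :
    X.chi e ((mat γ 1 1 : ℤ) : ZMod X.level) = 1 := by
  haveI : NeZero (M / l) := ⟨(Nat.div_pos (Nat.le_of_dvd (NeZero.pos M) hlM) hl.pos).ne'⟩
  obtain ⟨v, hv⟩ : IsUnit (((mat γ 1 1 : ℤ)) : ZMod X.level) := by
    have h := ((Group.isUnit γ).map (Gamma0Map M)).map (ZMod.castHom hA.dvd (ZMod X.level))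
    change IsUnit (ZMod.castHom hA.dvd (ZMod X.level) ((mat γ 1 1 : ℤ) : ZMod M)) at h
    rwa [map_intCast] at h
  have key : ∀ a : ℕ, a.Prime → a ≠ l → a ∣ M → ∀ h : a ∣ X.level,
      ZMod.castHom h (ZMod a) (v : ZMod X.level) = 1 := fun a ha hne haM h => by
    rw [hv, map_intCast, ← map_intCast (ZMod.castHom (prime_dvd_div ha hl hne haM hlM) (ZMod a))]
    exact (congrArg _ hγ).trans (map_one _)
  have h1 : X.chiU e v = 1 := X.chiU_eq_one
    (fun he t ht => key t (S.T_prime t ht).1 (fun h => hlT he (h ▸ ht))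
      (((S.T_prime t ht).2.1.trans X.dvd_M0_level).trans hA.dvd) _)
    fun q hq => key q (X.prime q hq) (fun h => hlQ (h ▸ hq))
      ((X.prime_mem_of_dvd_level hq).trans hA.dvd) _
  rw [← hv]
  exact (MulChar.ofUnitHom_coe (X.chiU e) v).trans (congrArg Units.val h1)

theorem half_inertia {l : ℕ} (hl : l.Prime) {e : Bool} (hlT : e = true → l ∉ S.T)
    (hlQ : l ∉ X.Q) {V : ValuationSubring LL} (hV : V.LiesOverPrime l) {σ : GG}
    (hσ : σ ∈ V.inertiaSubgroupIn ℚ) : X.half e (expo X.level σ) = 1 := by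
  refine X.half_eq_one (X.chiU_eq_one (fun he t ht => ?_) fun q hq => ?_)
  · haveI : NeZero t := ⟨(S.T_prime t ht).1.ne_zero⟩
    exact X.cast_expo_inertia hl _
      (fun h => hlT he (((Nat.prime_dvd_prime_iff_eq hl (S.T_prime t ht).1).mp h) ▸ ht)) hV hσ
  · haveI : NeZero q := ⟨(X.prime q hq).ne_zero⟩
    exact X.cast_expo_inertia hl _
      (fun h => hlQ (((Nat.prime_dvd_prime_iff_eq hl (X.prime q hq)).mp h) ▸ hq)) hV hσ

theorem two_mul_succ_div {N : ℕ} (h : Odd N) : 2 * ((N + 1) / 2) = N + 1 := by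
  obtain ⟨j, rfl⟩ := h
  omega

theorem odd_prime_pow (k : ℕ) (_X : Aux S) : Odd (p ^ k) :=
  ((Fact.out : p.Prime).eq_two_or_odd'.resolve_left (by have := S.p_gt; omega)).pow

theorem odd_card_dia : Odd (Nat.card X.Dia) := by
  obtain ⟨k, hk⟩ := IsPGroup.iff_card.mp (show IsPGroup p X.Dia from fun g => ⟨_, X.dia_pow g⟩)
  rw [hk]
  exact odd_prime_pow k X

theorem pow_halfExp_chi {t : ℕ} (ht : t ∈ S.T) (c : (ZMod t)ˣ) :
    S.χ t ht c ^ X.halfExp = S.χ t ht c ^ ((p + 1) / 2) := by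
  have hp : Odd p := pow_one p ▸ odd_prime_pow 1 X
  have hpow : ∀ k : ℕ, (S.χ t ht c ^ k) ^ p = 1 := fun k => by
    rw [← pow_mul, mul_comm, pow_mul, S.χ_pow, one_pow]
  refine eq_of_sq_eq_of_odd hp (hpow _) (hpow _) ?_
  rw [← pow_mul, ← pow_mul, mul_comm _ 2, mul_comm _ 2, X.two_mul_halfExp, two_mul_succ_div hp,
    pow_succ, pow_succ, pow_mul', S.χ_pow, one_pow, pow_succ (S.χ t ht c) p, S.χ_pow]

theorem pow_halfExp_dia (g : X.Dia) : g ^ X.halfExp = g ^ ((Nat.card X.Dia + 1) / 2) := by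
  refine eq_of_sq_eq_of_odd (odd_prime_pow (Nat.card X.Units') X) (X.dia_pow _) (X.dia_pow _) ?_
  rw [← pow_mul, ← pow_mul, mul_comm _ 2, mul_comm _ 2, X.two_mul_halfExp,
    two_mul_succ_div X.odd_card_dia, pow_succ, pow_succ g (Nat.card X.Dia), pow_card_eq_one',
    pow_succ p, pow_mul, X.dia_pow, one_pow]

theorem half_inertia_T {t : ℕ} (ht : t ∈ S.T) {V : ValuationSubring LL}
    (hV : V.LiesOverPrime t) {σ : GG} (hσ : σ ∈ V.inertiaSubgroupIn ℚ) {c : (ZMod t)ˣ}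
    (hc : ∀ ζ : LL, ζ ^ t = 1 → σ ζ = ζ ^ (c : ZMod t).val) :
    X.half true (expo X.level σ) =
      (Units.map (algebraMap O X.Coef).toMonoidHom (S.χ t ht c ^ ((p + 1) / 2)))⁻¹ := by
  have htp := (S.T_prime t ht).1
  haveI : NeZero t := ⟨htp.ne_zero⟩
  set u := expo X.level σ
  have heps : S.eps X.dvd_M0_level true u = S.χ t ht c := by
    simp only [Setup.eps, if_true, MonoidHom.finsetProd_apply]
    rw [Finset.prod_eq_single (⟨t, ht⟩ : S.T) (fun t' _ hne => ?_)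
      (fun h => absurd (Finset.mem_univ _) h)]
    · exact congrArg (S.χ t ht) (Units.ext (X.cast_expo_self _ hc))
    · haveI : NeZero t'.1 := ⟨(S.T_prime t'.1 t'.2).1.ne_zero⟩
      refine (congrArg (S.χ t'.1 t'.2) (Units.ext ?_)).trans (map_one _)
      exact X.cast_expo_inertia htp _ (fun h => hne (Subtype.ext
        ((Nat.prime_dvd_prime_iff_eq htp (S.T_prime t'.1 t'.2).1).mp h).symm)) hV hσ
  have hdia : X.dia u = 1 := X.dia_eq_one fun q hq => by
    haveI : NeZero q := ⟨(X.prime q hq).ne_zero⟩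
    exact X.cast_expo_inertia htp _ (fun h => X.ne_of_mem_T_Q ht hq
      ((Nat.prime_dvd_prime_iff_eq htp (X.prime q hq)).mp h)) hV hσ
  have h1 : X.chiU true u = Units.map (algebraMap O X.Coef).toMonoidHom (S.χ t ht c) :=
    Units.ext (by
      rw [X.chiU_eq, heps, hdia, map_one, mul_one]
      rfl)
  rw [half_apply, h1, ← map_pow, X.pow_halfExp_chi ht c]

theorem half_inertia_Q {q : ℕ} (hq : q ∈ X.Q) {V : ValuationSubring LL} (hV : V.LiesOverPrime q)
    {σ : GG} (hσ : σ ∈ V.inertiaSubgroupIn ℚ) {c : (ZMod q)ˣ}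
    (hc : ∀ ζ : LL, ζ ^ q = 1 → σ ζ = ζ ^ (c : ZMod q).val) (e : Bool) :
    X.half e (expo X.level σ) =
      ((MonoidAlgebra.of O X.Dia).toHomUnits (X.halfAt q hq c))⁻¹ := by
  have hqp := X.prime q hq
  haveI : NeZero q := ⟨hqp.ne_zero⟩
  set u := expo X.level σ
  have heps : S.eps X.dvd_M0_level e u = 1 := X.eps_eq_one fun _ t ht => by
    haveI : NeZero t := ⟨(S.T_prime t ht).1.ne_zero⟩
    exact X.cast_expo_inertia hqp _ (fun h => X.ne_of_mem_T_Q ht hq
      ((Nat.prime_dvd_prime_iff_eq hqp (S.T_prime t ht).1).mp h).symm) hV hσ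
  have hdia : X.dia u = X.diaAt q hq c := by
    refine congrArg (QuotientGroup.mk' X.coSylow) (funext fun q' => ?_)
    haveI : NeZero q'.1 := ⟨(X.prime q'.1 q'.2).ne_zero⟩
    by_cases h : q' = ⟨q, hq⟩
    · subst h
      rw [Pi.mulSingle_eq_same]
      exact Units.ext (X.cast_expo_self _ hc)
    · rw [Pi.mulSingle_eq_of_ne h]
      exact Units.ext (X.cast_expo_inertia hqp _ (fun h' => h (Subtype.ext
        ((Nat.prime_dvd_prime_iff_eq hqp (X.prime q'.1 q'.2)).mp h').symm)) hV hσ)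
  have h1 : X.chiU e u = (MonoidAlgebra.of O X.Dia).toHomUnits (X.diaAt q hq c) :=
    Units.ext (by
      rw [X.chiU_eq, heps, hdia, Units.val_one, map_one, one_mul]
      rfl)
  rw [half_apply, h1, ← map_pow, X.pow_halfExp_dia]
  rfl

theorem algebraMap_modEnd (e : Bool) (r : O) :
    algebraMap O (Module.End X.Coef (X.Mod e)) r =
      algebraMap O X.Coef r • (1 : Module.End X.Coef (X.Mod e)) :=
  LinearMap.ext fun _ => rfl

theorem eq_two_of_forall {t : X.TR} (h : ∀ e, X.actTR e t = 2) : t = 2 :=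
  sub_eq_zero.mp (X.actTR_faithful _ fun e => by rw [map_sub, h e, map_ofNat, sub_self])

section Fields

variable {X} [Nontrivial (X.Mod false)] {P : PseudoChar GG X.TR} (hP : X.IsTracePseudo P)
  (hX : Geometry X) {V : ValuationSubring LL} {σ : GG}

include hX in
theorem IsTracePseudo.unramified_rep {l : ℕ} (hl : l.Prime) (hlp : l ≠ p) (hlN : ¬ l ∣ X.level)
    (hV : V.LiesOverPrime l) (hσ : σ ∈ V.inertiaSubgroupIn ℚ) : hP.rep σ = 1 := by
  obtain ⟨M, hM0, hA, hlM, ⟨Z⟩⟩ := hX.2.2 l hl hlp hlN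
  refine hP.rep_eq_one fun g => sub_eq_zero.mp (X.actTR_faithful _ fun e => LinearMap.ext fun x =>
    X.eq_zero_of_embW hA e Nat.one_pos _ fun n => ?_)
  haveI : NeZero (p ^ n) := ⟨pow_ne_zero _ (Fact.out : p.Prime).ne_zero⟩
  rw [one_smul, X.embW_act_sub, hP.embW_tr hA Z n (g * σ) e, hP.embW_tr hA Z n g e, sub_eq_zero]
  have hln : ¬ l ∣ p ^ n := fun h =>
    hlp ((Nat.prime_dvd_prime_iff_eq hl Fact.out).mp (hl.dvd_of_dvd_pow h))
  have hU : X.eigU hA Z e n σ = 1 := AddMonoidHom.ext fun w => Subtype.ext (by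
    show X.bigU Z e n σ w.1 = w.1
    rw [bigU_apply, (Z.gt n).inertia l hl (fun h => (hl.dvd_mul.mp h).elim hlM hln) V hV σ hσ,
      expo_inertia hl hlN hV hσ, map_one, map_one, Units.val_one, map_one]
    rfl)
  have hC : X.eigC hA e n (g * σ) = X.eigC hA e n g := X.eigC_eq_of_expo hA e n (by
    rw [map_mul, expo_inertia hl hln hV hσ, mul_one])
  exact DFunLike.congr_fun (shape_mul_eq (X.eigU hA Z e n) (X.eigC hA e n) hU hC) _

include hP hX in
theorem IsTracePseudo.act_tr_eq_two {l : ℕ} (hl : l.Prime) (hlM0 : l ∣ S.M0) {e : Bool}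
    (hlT : e = true → l ∉ S.T) (hV : V.LiesOverPrime l) (hσ : σ ∈ V.inertiaSubgroupIn ℚ) :
    X.actTR e (P.tr σ) = 2 := by
  have hlN : l ∣ X.level := hlM0.trans X.dvd_M0_level
  obtain ⟨M, hM0, Z, hA, hl2, -, hU⟩ := hX.2.1 l hl hlN
  have hlQ : l ∉ X.Q := fun h => X.notMem l h (S.level_mem l hl hlM0)
  exact hP.unipotent_bound hA Z hl hlN hV hσ hU e
    (X.chi_eq_one_of_div hA hl (hlN.trans hA.dvd) hlT hlQ) (X.half_inertia hl hlT hlQ hV hσ)

include hX in
theorem IsTracePseudo.unipotent_rep {l : ℕ} (hl : l.Prime) (hlM0 : l ∣ S.M0) (hlT : l ∉ S.T)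
    (hV : V.LiesOverPrime l) (hσ : σ ∈ V.inertiaSubgroupIn ℚ) :
    trGL (hP.rep σ) = 2 ∧ detGL (hP.rep σ) = 1 ∧
      ((hP.rep σ : Matrix (Fin 2) (Fin 2) X.TR) - 1) ^ 2 = 0 := by
  have h1 : trGL (hP.rep σ) = 2 := (hP.tr_rep σ).trans
    (X.eq_two_of_forall fun e => hP.act_tr_eq_two hX hl hlM0 (fun _ => hlT) hV hσ)
  have h2 : detGL (hP.rep σ) = 1 :=
    (hP.det_rep σ).trans (hP.det_inertia hl (hlM0.trans X.dvd_M0_level) hV hσ)
  exact ⟨h1, h2, sub_one_sq_of_trace_det _ h1 h2⟩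

include hX in
theorem IsTracePseudo.untwisted_rep {t : ℕ} (ht : t ∈ S.T) (hV : V.LiesOverPrime t)
    (hσ : σ ∈ V.inertiaSubgroupIn ℚ) :
    X.actTR false (trGL (hP.rep σ)) = 2 ∧ detGL (hP.rep σ) = 1 := by
  obtain ⟨htp, htM, -⟩ := S.T_prime t ht
  exact ⟨by rw [hP.tr_rep]; exact hP.act_tr_eq_two hX htp htM (fun h => Bool.noConfusion h) hV hσ,
    (hP.det_rep σ).trans (hP.det_inertia htp (htM.trans X.dvd_M0_level) hV hσ)⟩

include hX in
theorem IsTracePseudo.twisted_rep {t : ℕ} (ht : t ∈ S.T) (hV : V.LiesOverPrime t)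
    (hσ : σ ∈ V.inertiaSubgroupIn ℚ) {c : (ZMod t)ˣ}
    (hc : ∀ ζ : LL, ζ ^ t = 1 → σ ζ = ζ ^ (c : ZMod t).val) :
    (X.actTR true (trGL (hP.rep σ)) -
      algebraMap O (Module.End X.Coef (X.Mod true))
        (((S.χ t ht c) ^ ((p + 1) / 2) : Oˣ) +
          (((S.χ t ht c) ^ ((p + 1) / 2))⁻¹ : Oˣ))) ^ inertiaExp = 0 := by
  obtain ⟨htp, htM, -⟩ := S.T_prime t ht
  have htN : t ∣ X.level := htM.trans X.dvd_M0_level
  obtain ⟨M, hM0, Z, hA, ht2, hI, -⟩ := hX.2.1 t htp htN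
  have h := hP.inertia_bound hA Z htp htN hV hσ ht2 hI true
  rw [X.half_inertia_T ht hV hσ hc, inv_inv] at h
  set a := S.χ t ht c ^ ((p + 1) / 2)
  rw [hP.tr_rep, X.algebraMap_modEnd, map_add, add_comm]
  rw [← map_inv] at h
  exact h

include hX in
theorem IsTracePseudo.auxiliary_rep {q : ℕ} (hq : q ∈ X.Q) (hV : V.LiesOverPrime q)
    (hσ : σ ∈ V.inertiaSubgroupIn ℚ) {c : (ZMod q)ˣ}
    (hc : ∀ ζ : LL, ζ ^ q = 1 → σ ζ = ζ ^ (c : ZMod q).val) (e : Bool) :
    (X.actTR e (trGL (hP.rep σ)) -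
      ((MonoidAlgebra.of O X.Dia (X.halfAt q hq c) +
        MonoidAlgebra.of O X.Dia (X.halfAt q hq c)⁻¹ : X.Coef) •
          (1 : Module.End X.Coef (X.Mod e)))) ^ inertiaExp = 0 := by
  have hqN : q ∣ X.level := X.prime_mem_of_dvd_level hq
  obtain ⟨M, hM0, Z, hA, hq2, hI, -⟩ := hX.2.1 q (X.prime q hq) hqN
  have h := hP.inertia_bound hA Z (X.prime q hq) hqN hV hσ hq2 hI e
  rw [X.half_inertia_Q hq hV hσ hc e, inv_inv] at h
  rw [hP.tr_rep, add_comm]
  rw [← map_inv] at h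
  exact h

end Fields

end Aux

end FLTAgent.Lowering
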