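import Fermat.Agent.Lowering.P4.GaloisTrace
import Fermat.Agent.EigenReps.Adic
import Fermat.Agent.EigenLattice.MultOne
import Fermat.Prelude.Thm_IsAdicComplete_of_module_finite

/-!
# The pseudo-character of twisted traces

The lifts at one auxiliary level give pseudo-characters modulo every power of `p`; their limit is
characterised by its values at Frobenius elements and reproduces the Galois operators at every
allowed level.
-/

set_option autoImplicit false

noncomputable section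

set_option synthInstance.maxHeartbeats 400000
set_option maxHeartbeats 1000000

open IsLocalRing FLTAgent.Lowering.Cocycle FLTAgent.EigenReps
open scoped MatrixGroups

namespace FLTAgent.Lowering

local notation "LL" => AlgebraicClosure ℚ
local notation "GG" => (AlgebraicClosure ℚ ≃ₐ[ℚ] AlgebraicClosure ℚ)

variable {p : ℕ} [Fact p.Prime] {O : Type} [CommRing O] [IsDomain O] [IsDiscreteValuationRing O]
  [Algebra ℤ_[p] O] [Module.Finite ℤ_[p] O] [CharZero O] {S : Setup p O} (X : Aux S)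

namespace Aux

/-- The ideal generated by `p` in the twisted traces. -/
abbrev pIdeal : Ideal X.TR := Ideal.span {(p : X.TR)}

/-- A chosen shift of saturation. -/
def trShift : ℕ := (X.exists_trace_shift).choose

theorem isAdicComplete_TR : IsAdicComplete X.pIdeal X.TR := by
  haveI := X.finite_TR
  haveI : Module.Finite ℤ_[p] X.TR := Module.Finite.trans O X.TR
  haveI : IsAdicComplete (maximalIdeal ℤ_[p]) X.TR := IsAdicComplete.of_module_finite _ X.TR
  have h : X.pIdeal = (maximalIdeal ℤ_[p]).map (algebraMap ℤ_[p] X.TR) := by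
    rw [PadicInt.maximalIdeal_eq_span_p, Ideal.map_span, Set.image_singleton, map_natCast]
  rw [h]
  exact (IsAdicComplete.map_algebraMap_iff (S := X.TR) (maximalIdeal ℤ_[p]) X.TR).mpr ‹_›

/-- A pseudo-character with the values of the twisted traces. -/
structure IsTracePseudo (P : PseudoChar GG X.TR) : Prop where
  det_eq : ∀ σ, P.det σ = X.cycT σ
  frob : ∀ (l : X.TrPrime) (V : ValuationSubring LL), V.LiesOverPrime l.1.1 → ∀ τ : GG,
    V.IsFrobeniusAt τ l.1.1 → P.tr τ = X.trace l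
  level : ∀ m : ℕ, ∃ L : IntermediateField ℚ LL, FiniteDimensional ℚ L ∧
    ∀ τ : GG, (∀ a ∈ L, τ a = a) → ∀ g, P.tr (g * τ) - P.tr g ∈ X.pIdeal ^ m

variable {X}

/-- Two pseudo-characters with the same values at the Frobenius elements of the good primes. -/
theorem tr_eq_of_good {R : Type*} [CommRing R] (P P' : PseudoChar GG R)
    (hL : ∃ L : IntermediateField ℚ LL, FiniteDimensional ℚ L ∧
      ∀ τ : GG, (∀ a ∈ L, τ a = a) → ∀ g, P.tr (g * τ) = P.tr g)
    (hL' : ∃ L : IntermediateField ℚ LL, FiniteDimensional ℚ L ∧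
      ∀ τ : GG, (∀ a ∈ L, τ a = a) → ∀ g, P'.tr (g * τ) = P'.tr g)
    (h : ∀ (l : X.TrPrime) (V : ValuationSubring LL), V.LiesOverPrime l.1.1 → ∀ τ : GG,
      V.IsFrobeniusAt τ l.1.1 → P.tr τ = P'.tr τ ∧ P.det τ = P'.det τ) (σ : GG) :
    P.tr σ = P'.tr σ := by
  obtain ⟨L, hLf, hP⟩ := hL
  obtain ⟨L', hLf', hP'⟩ := hL'
  exact EigenLattice.tr_eq_of_frobenius P P' hP hP' (S.bad ∪ X.level.primeFactors)
    (fun ℓ hℓ hℓS V hV τ hτ => by
      rw [Finset.mem_union, not_or] at hℓS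
      exact h ⟨⟨ℓ, hℓ, hℓS.1⟩, fun hd => hℓS.2
        (Nat.mem_primeFactors.mpr ⟨hℓ, hd, X.level_pos.ne'⟩)⟩ V hV τ hτ) σ

variable (X) {M : ℕ} [NeZero M] (hA : X.Allowed M) (Z : Realisation p M)

/-- A lift at the level matching the precision `m`. -/
def liftT (m : ℕ) (σ : GG) : X.TR :=
  (X.exists_isTrLift hA Z (m + X.trShift) σ).1.choose

theorem liftT_spec (m : ℕ) (σ : GG) :
    X.IsTrLift hA Z (m + X.trShift) σ (X.liftT hA Z m σ) :=
  (X.exists_isTrLift hA Z (m + X.trShift) σ).1.choose_spec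

theorem mk_eq_zero_of_embW {m : ℕ} {t : X.TR}
    (h : ∀ e x, X.embW hA e (m + X.trShift) (X.actTR e t x) = 0) :
    Ideal.Quotient.mk (X.pIdeal ^ m) t = 0 := by
  rw [Ideal.Quotient.eq_zero_iff_mem, Ideal.span_singleton_pow]
  have := X.exists_trace_shift.choose_spec (m + X.trShift) t fun e x =>
    (X.embW_eq_zero_iff hA e _ _).mp (h e x)
  rwa [show m + X.trShift - X.exists_trace_shift.choose = m from Nat.add_sub_cancel _ _] at this

theorem mk_liftT {m : ℕ} {σ : GG} {t : X.TR} (ht : X.IsTrLift hA Z (m + X.trShift) σ t) :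
    Ideal.Quotient.mk (X.pIdeal ^ m) (X.liftT hA Z m σ) = Ideal.Quotient.mk (X.pIdeal ^ m) t := by
  rw [← sub_eq_zero, ← map_sub]
  exact X.mk_eq_zero_of_embW hA fun e x =>
    X.isTrLift_unique hA Z _ (X.liftT_spec hA Z m σ) ht e x

/-- The pseudo-character at a finite precision. -/
def pseudoMod (m : ℕ) : PseudoChar GG (X.TR ⧸ X.pIdeal ^ m) where
  tr σ := Ideal.Quotient.mk _ (X.liftT hA Z m σ)
  det := (Ideal.Quotient.mk (X.pIdeal ^ m)).toMonoidHom.comp X.cycT
  tr_one := by rw [X.mk_liftT hA Z (X.isTrLift_one hA Z _), map_ofNat]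
  tr_mul g h := by
    show Ideal.Quotient.mk _ _ + Ideal.Quotient.mk _ (X.cycT h) * Ideal.Quotient.mk _ _ =
      Ideal.Quotient.mk _ _ * Ideal.Quotient.mk _ _
    rw [← map_mul, ← map_mul, ← map_add, ← sub_eq_zero, ← map_sub]
    exact X.mk_eq_zero_of_embW hA fun e x => IsTrLift.tr_mul X hA Z _ (X.liftT_spec hA Z m g)
      (X.liftT_spec hA Z m h) (X.liftT_spec hA Z m (g * h)) (X.liftT_spec hA Z m (g * h⁻¹)) e x

theorem pseudoMod_frobenius (m : ℕ) (l : X.TrPrime) {V : ValuationSubring LL}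
    (hV : V.LiesOverPrime l.1.1) {τ : GG} (hτ : V.IsFrobeniusAt τ l.1.1) :
    (X.pseudoMod hA Z m).tr τ = Ideal.Quotient.mk _ (X.trace l) :=
  X.mk_liftT hA Z (X.isTrLift_frobenius hA Z _ l hV hτ)

theorem pseudoMod_level (m : ℕ) : ∃ L : IntermediateField ℚ LL, FiniteDimensional ℚ L ∧
    ∀ τ : GG, (∀ a ∈ L, τ a = a) → ∀ g,
      (X.pseudoMod hA Z m).tr (g * τ) = (X.pseudoMod hA Z m).tr g := by
  obtain ⟨L, hL, hfac⟩ := X.exists_op_level hA Z (m + X.trShift)
  refine ⟨L, hL, fun τ hτ g => X.mk_liftT hA Z (fun e x => ?_)⟩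
  rw [hfac (g * τ) g (fun a ha => by rw [AlgEquiv.mul_apply, hτ a ha]) e]
  exact X.liftT_spec hA Z m g e x

theorem factor_pseudoMod {m m' : ℕ} (h : m ≤ m') (σ : GG) :
    Ideal.Quotient.factor (Ideal.pow_le_pow_right h) ((X.pseudoMod hA Z m').tr σ) =
      (X.pseudoMod hA Z m).tr σ := by
  refine tr_eq_of_good (X := X) ((X.pseudoMod hA Z m').map (Ideal.Quotient.factor
    (Ideal.pow_le_pow_right h))) (X.pseudoMod hA Z m) ?_ (X.pseudoMod_level hA Z m)
    (fun l V hV τ hτ => ⟨?_, rfl⟩) σ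
  · obtain ⟨L, hL, hfix⟩ := X.pseudoMod_level hA Z m'
    exact ⟨L, hL, fun τ hτ g => congrArg (Ideal.Quotient.factor _) (hfix τ hτ g)⟩
  · show Ideal.Quotient.factor _ ((X.pseudoMod hA Z m').tr τ) = _
    rw [X.pseudoMod_frobenius hA Z m' l hV hτ, X.pseudoMod_frobenius hA Z m l hV hτ,
      Ideal.Quotient.factor_mk]

include hA Z in
theorem exists_tracePseudo : ∃ P : PseudoChar GG X.TR, X.IsTracePseudo P := by
  haveI := X.isAdicComplete_TR
  choose t ht using fun σ : GG => EigenReps.exists_limit (I := X.pIdeal) (fun m => (X.pseudoMod hA Z m).tr σ)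
    fun m m' h => X.factor_pseudoMod hA Z h σ
  have hlev : ∀ m : ℕ, ∃ L : IntermediateField ℚ LL, FiniteDimensional ℚ L ∧
      ∀ τ : GG, (∀ a ∈ L, τ a = a) → ∀ g, t (g * τ) - t g ∈ X.pIdeal ^ m := fun m =>
    Exists.elim (X.pseudoMod_level hA Z m) fun L h => ⟨L, h.1, fun τ hτ g =>
      (Ideal.Quotient.mk_eq_mk_iff_sub_mem _ _).mp
        (((ht (g * τ) m).trans (h.2 τ hτ g)).trans (ht g m).symm)⟩
  refine ⟨{
    tr := t
    det := X.cycT
    tr_one := eq_of_forall_mk_pow (I := X.pIdeal) fun m => by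
      rw [ht 1 m, PseudoChar.tr_one, map_ofNat]
    tr_mul := fun g h => eq_of_forall_mk_pow (I := X.pIdeal) fun m => by
      rw [map_add, map_mul, map_mul, ht (g * h) m, ht (g * h⁻¹) m, ht g m, ht h m,
        ← PseudoChar.tr_mul]
      rfl }, ⟨fun σ => rfl, fun l V hV τ hτ => ?_, fun m => ?_⟩⟩
  · exact eq_of_forall_mk_pow (I := X.pIdeal) fun m =>
      (ht τ m).trans (X.pseudoMod_frobenius hA Z m l hV hτ)
  · exact hlev m

variable {X}

theorem IsTracePseudo.embW_pow {P : PseudoChar GG X.TR} (hP : X.IsTracePseudo P) (n : ℕ)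
    (l : X.TrPrime) {V : ValuationSubring LL} (hV : V.LiesOverPrime l.1.1) {τ : GG}
    (hτ : V.IsFrobeniusAt τ l.1.1) (j : ℕ) (e : Bool) (x : X.Mod e) :
    X.embW hA e n (X.actTR e (P.tr (τ ^ j)) x) = X.opShape hA Z e n (τ ^ j) (X.embW hA e n x) := by
  induction j using Nat.twoStepInduction generalizing x with
  | zero =>
    rw [pow_zero, P.tr_one]
    exact X.isTrLift_one hA Z n e x
  | one =>
    rw [pow_one, hP.frob l V hV τ hτ]
    exact X.isTrLift_frobenius hA Z n l hV hτ e x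
  | more j h0 h1 =>
    obtain ⟨w, hw⟩ := (X.exists_isTrLift hA Z n (τ ^ (j + 2))).1
    obtain ⟨u1, hu1⟩ := (X.exists_isTrLift hA Z n (τ ^ (j + 1))).1
    obtain ⟨u0, hu0⟩ := (X.exists_isTrLift hA Z n (τ ^ j)).1
    have hu := X.isTrLift_frobenius hA Z n l hV hτ
    have h := IsTrLift.tr_mul X hA Z n hu1 hu (w := w) (v := u0)
      (by rw [← pow_succ]; exact hw)
      (by rw [show τ ^ (j + 1) * τ⁻¹ = τ ^ j by rw [pow_succ, mul_inv_cancel_right]]; exact hu0) e x
    have e1 : X.embW hA e n (X.actTR e (u1 * X.trace l) x) =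
        X.embW hA e n (X.actTR e (P.tr (τ ^ (j + 1)) * P.tr τ) x) := by
      rw [hP.frob l V hV τ hτ, X.actTR_mul_apply, X.actTR_mul_apply]
      exact (hu1 e _).trans (h1 _).symm
    have e0 : X.embW hA e n (X.actTR e (X.cycT τ * u0) x) =
        X.embW hA e n (X.actTR e (P.det τ * P.tr (τ ^ j)) x) := by
      rw [hP.det_eq, X.actTR_mul_apply, X.actTR_mul_apply, X.embW_cycT, X.embW_cycT]
      exact congrArg _ ((hu0 e x).trans (h0 x).symm)
    rw [X.embW_act_sub, X.embW_act_add, e1, e0, sub_eq_zero] at h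
    rw [EigenLattice.tr_pow_two_step, X.embW_act_sub, ← h, add_sub_cancel_right]
    exact hw e x

/-- The pseudo-character reproduces the Galois operators at every allowed level. -/
theorem IsTracePseudo.embW_tr {P : PseudoChar GG X.TR} (hP : X.IsTracePseudo P) (n : ℕ) (σ : GG)
    (e : Bool) (x : X.Mod e) :
    X.embW hA e n (X.actTR e (P.tr σ) x) = X.opShape hA Z e n σ (X.embW hA e n x) := by
  obtain ⟨L, hL, hfac⟩ := X.exists_op_level hA Z n
  obtain ⟨L', hL', hfix⟩ := hP.level n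
  obtain ⟨l, V, τ, j, hV, hτ, hj⟩ := X.exists_good_frobenius (L ⊔ L') σ
  have h1 := hfac σ (τ ^ j) (fun a ha => hj a ((le_sup_left : L ≤ L ⊔ L') ha)) e
  have h2 := hfix ((τ ^ j)⁻¹ * σ) (fun a ha => by
    rw [AlgEquiv.mul_apply, hj a ((le_sup_right : L' ≤ L ⊔ L') ha)]
    exact (τ ^ j).symm_apply_apply a) (τ ^ j)
  rw [mul_inv_cancel_left, Ideal.span_singleton_pow, Ideal.mem_span_singleton'] at h2
  obtain ⟨r, hr⟩ := h2
  rw [eq_add_of_sub_eq hr.symm, X.embW_act_add, hP.embW_pow hA Z n l hV hτ j, ← h1]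
  refine add_eq_right.mpr ((X.embW_eq_zero_iff hA e n _).mpr
    ((X.modPow_eq_zero_iff e n _).mpr ⟨X.actTR e r x, ?_⟩))
  rw [map_mul, map_pow, map_natCast, Module.End.mul_apply, ← Nat.cast_pow, ← Nat.cast_pow,
    Module.End.natCast_apply, map_nsmul, Nat.cast_smul_eq_nsmul]

end Aux

end FLTAgent.Lowering
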